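/-
MLT / Wloc (helper8), D4-flat, part 2: **level maps of a base change** and the closure properties of
"the finite levels `ρ.V ⧸ I ρ.V` carry Hopf orders" (`AlphHasOrder`).

For a local homomorphism `φ : A → B`, `ρ` over `A`, `ρ' = ρ.baseChangeAlong φ`, ideals `J ≤ φ⁻¹ I`:
* `mltwLvlHom` : `ρ.V ⧸ J ρ.V →+ ρ'.V ⧸ I ρ'.V`, `[v] ↦ [1 ⊗ v]`, Galois equivariant, injective when
  `J = φ⁻¹ I` (`mltwLvlHom_injective`);
* `mltw_order_sub`     : an order on `ρ'.V ⧸ I` gives one on `ρ.V ⧸ φ⁻¹ I`;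
* `mltw_order_bc`      : an order on `ρ.V ⧸ J` gives one on `ρ'.V ⧸ I` (`B ⧸ I` finite): the latter is
  an equivariant quotient of `(ρ.V ⧸ J)^(B ⧸ I)`;
* `mltw_order_mono`    : an order on `ρ.V ⧸ J` gives one on `ρ.V ⧸ J'`, `J ≤ J'`;
* `mltw_order_fibre`   : orders on the bottom levels of two base changes along jointly injective maps
  give an order on the bottom level of `ρ`;
* `mltw_finite_of_artinian` : an artinian local ring with finite residue field is finite.
-/
import Mathlib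
import Fermat.Prelude.Def_GaloisRep_Flat
import Fermat.Agent.Lib.Alpha.S32.Flat
import Fermat.Agent.Lib.TW.BaseChange

set_option autoImplicit false
set_option linter.unusedSectionVars false
set_option linter.unusedVariables false
set_option linter.style.haveILetI false

open scoped TensorProduct
open IsLocalRing

namespace Fermat.Agent.MLT

open Fermat.Agent.Alpha Fermat.Agent.TW

local notation "Qb" => AlgebraicClosure ℚ
local notation "GQ" => (AlgebraicClosure ℚ ≃ₐ[ℚ] AlgebraicClosure ℚ)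

/-- an artinian local ring with finite residue field is finite -/
theorem mltw_finite_of_artinian (B : Type) [CommRing B] [IsLocalRing B] [IsArtinianRing B]
    [Finite (ResidueField B)] : Finite B := by
  obtain ⟨n, hn⟩ := IsArtinianRing.isNilpotent_jacobson_bot (R := B)
  rw [jacobson_eq_maximalIdeal _ bot_ne_top, Ideal.zero_eq_bot] at hn
  haveI : Finite (B ⧸ (⊥ : Ideal B)) := IsLocalRing.finite_quotient_iff.mpr ⟨n, hn.le⟩
  exact Finite.of_equiv _ (RingEquiv.quotientBot B).toEquiv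

section Pure

variable {A B : Type} [CommRing A] [CommRing B] [Algebra A B]
  {V : Type} [AddCommGroup V] [Module A V]

/-- `V/JV → (B ⊗ V)/I(B ⊗ V)` for `J ≤ I ∩ A` -/
noncomputable def mltwLvl (J : Ideal A) (I : Ideal B) (h : J ≤ I.comap (algebraMap A B)) :
    (V ⧸ (J • (⊤ : Submodule A V))) →ₗ[A]
      ((B ⊗[A] V) ⧸ (I • (⊤ : Submodule B (B ⊗[A] V)))) :=
  (bcQuotMap (A := A) (V := V) B I) ∘ₗ
    Submodule.mapQ _ _ LinearMap.id (fun x hx => Submodule.smul_mono h le_rfl hx)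

theorem mltwLvl_mk (J : Ideal A) (I : Ideal B) (h : J ≤ I.comap (algebraMap A B)) (v : V) :
    mltwLvl J I h (Submodule.Quotient.mk v) = Submodule.Quotient.mk ((1 : B) ⊗ₜ[A] v) := rfl

theorem mltwLvl_injective {ι : Type*} [Fintype ι] [DecidableEq ι] (b : Module.Basis ι A V)
    (J : Ideal A) (I : Ideal B) (h : J ≤ I.comap (algebraMap A B))
    (h' : I.comap (algebraMap A B) ≤ J) : Function.Injective (mltwLvl (V := V) J I h) := by
  unfold mltwLvl
  rw [LinearMap.coe_comp]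
  refine (bcQuotMap_injective b I).comp ?_
  rw [injective_iff_map_eq_zero]
  intro x hx
  obtain ⟨v, rfl⟩ := Submodule.Quotient.mk_surjective _ x
  rw [Submodule.mapQ_apply, Submodule.Quotient.mk_eq_zero] at hx
  rw [Submodule.Quotient.mk_eq_zero]
  exact Submodule.smul_mono h' le_rfl hx

theorem mltwLvl_mapQ (J : Ideal A) (I : Ideal B) (h : J ≤ I.comap (algebraMap A B))
    (f : V →ₗ[A] V)
    (h1 : J • (⊤ : Submodule A V) ≤ (J • (⊤ : Submodule A V)).comap f)
    (h2 : I • (⊤ : Submodule B (B ⊗[A] V)) ≤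
      (I • (⊤ : Submodule B (B ⊗[A] V))).comap (f.baseChange B))
    (x : V ⧸ (J • (⊤ : Submodule A V))) :
    mltwLvl J I h (Submodule.mapQ _ _ f h1 x) =
      Submodule.mapQ _ _ (f.baseChange B) h2 (mltwLvl J I h x) := by
  obtain ⟨v, rfl⟩ := Submodule.Quotient.mk_surjective _ x
  rw [Submodule.mapQ_apply, mltwLvl_mk, mltwLvl_mk, Submodule.mapQ_apply,
    LinearMap.baseChange_tmul]

/-- the twisted sum of level maps `(x_i) ↦ ∑ b_i • [1 ⊗ x_i]` -/
noncomputable def mltwTwist (J : Ideal A) (I : Ideal B) (h : J ≤ I.comap (algebraMap A B))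
    [Fintype (B ⧸ I)] (bb : B ⧸ I → B) :
    ((B ⧸ I) → (V ⧸ (J • (⊤ : Submodule A V)))) →+
      ((B ⊗[A] V) ⧸ (I • (⊤ : Submodule B (B ⊗[A] V)))) where
  toFun x := ∑ i, bb i • mltwLvl J I h (x i)
  map_zero' := by
    refine Finset.sum_eq_zero fun i _ => ?_
    rw [Pi.zero_apply, map_zero, smul_zero]
  map_add' x y := by
    rw [← Finset.sum_add_distrib]
    refine Finset.sum_congr rfl fun i _ => ?_
    rw [Pi.add_apply, map_add, smul_add]

theorem mltwTwist_apply (J : Ideal A) (I : Ideal B) (h : J ≤ I.comap (algebraMap A B))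
    [Fintype (B ⧸ I)] (bb : B ⧸ I → B) (x : (B ⧸ I) → (V ⧸ (J • (⊤ : Submodule A V)))) :
    mltwTwist J I h bb x = ∑ i, bb i • mltwLvl J I h (x i) := rfl

theorem mltwTwist_single (J : Ideal A) (I : Ideal B) (h : J ≤ I.comap (algebraMap A B))
    [Fintype (B ⧸ I)] [DecidableEq (B ⧸ I)] (bb : B ⧸ I → B) (i₀ : B ⧸ I)
    (z : V ⧸ (J • (⊤ : Submodule A V))) :
    mltwTwist J I h bb (Pi.single i₀ z) = bb i₀ • mltwLvl J I h z := by
  rw [mltwTwist_apply, Finset.sum_eq_single i₀]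
  · rw [Pi.single_eq_same]
  · intro i _ hi
    rw [Pi.single_eq_of_ne hi, map_zero, smul_zero]
  · intro hi
    exact absurd (Finset.mem_univ i₀) hi

theorem mltwTwist_surjective (J : Ideal A) (I : Ideal B) (h : J ≤ I.comap (algebraMap A B))
    [Fintype (B ⧸ I)] (bb : B ⧸ I → B) (hbb : ∀ c : B, c - bb (Ideal.Quotient.mk I c) ∈ I) :
    Function.Surjective (mltwTwist (V := V) J I h bb) := by
  classical
  intro y
  obtain ⟨w, rfl⟩ := Submodule.Quotient.mk_surjective _ y
  induction w using TensorProduct.induction_on with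
  | zero => exact ⟨0, by rw [map_zero, Submodule.Quotient.mk_zero]⟩
  | tmul c v =>
    refine ⟨Pi.single (Ideal.Quotient.mk I c) (Submodule.Quotient.mk v), ?_⟩
    rw [mltwTwist_single, mltwLvl_mk, ← Submodule.Quotient.mk_smul, TensorProduct.smul_tmul',
      smul_eq_mul, mul_one, eq_comm, Submodule.Quotient.eq]
    have h1 : c ⊗ₜ[A] v - bb (Ideal.Quotient.mk I c) ⊗ₜ[A] v =
        (c - bb (Ideal.Quotient.mk I c)) • ((1 : B) ⊗ₜ[A] v) := by
      rw [TensorProduct.smul_tmul', smul_eq_mul, mul_one, TensorProduct.sub_tmul]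
    rw [h1]
    exact Submodule.smul_mem_smul (hbb c) Submodule.mem_top
  | add x y hx hy =>
    obtain ⟨x', hx'⟩ := hx
    obtain ⟨y', hy'⟩ := hy
    exact ⟨x' + y', by rw [map_add, hx', hy', Submodule.Quotient.mk_add]⟩

theorem mltwTwist_mapQ (J : Ideal A) (I : Ideal B) (h : J ≤ I.comap (algebraMap A B))
    [Fintype (B ⧸ I)] (bb : B ⧸ I → B) (f : V →ₗ[A] V)
    (h1 : J • (⊤ : Submodule A V) ≤ (J • (⊤ : Submodule A V)).comap f)
    (h2 : I • (⊤ : Submodule B (B ⊗[A] V)) ≤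
      (I • (⊤ : Submodule B (B ⊗[A] V))).comap (f.baseChange B))
    (x : (B ⧸ I) → (V ⧸ (J • (⊤ : Submodule A V)))) :
    mltwTwist J I h bb (fun i => Submodule.mapQ _ _ f h1 (x i)) =
      Submodule.mapQ _ _ (f.baseChange B) h2 (mltwTwist J I h bb x) := by
  rw [mltwTwist_apply, mltwTwist_apply, map_sum]
  refine Finset.sum_congr rfl fun i _ => ?_
  rw [map_smul, mltwLvl_mapQ J I h f h1 h2]

/-- coordinates of an element killed by a level map -/
theorem mltwLvl_repr_of_eq_zero {ι : Type*} [Fintype ι] [DecidableEq ι] (b : Module.Basis ι A V)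
    (J : Ideal A) (I : Ideal B) (h : J ≤ I.comap (algebraMap A B)) (v : V)
    (hv : mltwLvl J I h (Submodule.Quotient.mk v) = 0) (i : ι) :
    algebraMap A B (b.repr v i) ∈ I := by
  rw [mltwLvl_mk, Submodule.Quotient.mk_eq_zero,
    bc_mem_smul_top_iff (Algebra.TensorProduct.basis B b)] at hv
  have h4 := hv i
  rw [Algebra.TensorProduct.basis_repr_tmul, one_smul] at h4
  simpa using h4

end Pure

section Lvl

variable {A B : Type} [CommRing A] [IsLocalRing A] [CommRing B] [IsLocalRing B]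
  (φ : A →+* B) (hφ : IsLocalHom φ) (ρ : GaloisRepAdic A)

/-- the level map of a base change, as an additive map -/
noncomputable def mltwLvlHom (J : Ideal A) (I : Ideal B) (h : J ≤ I.comap φ) :
    (ρ.V ⧸ (J • (⊤ : Submodule A ρ.V))) →+
      ((ρ.baseChangeAlong φ hφ).V ⧸ (I • (⊤ : Submodule B (ρ.baseChangeAlong φ hφ).V))) :=
  letI : Algebra A B := φ.toAlgebra
  (mltwLvl (V := ρ.V) J I h).toAddMonoidHom

theorem mltwLvlHom_mk (J : Ideal A) (I : Ideal B) (h : J ≤ I.comap φ) (v : ρ.V) :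
    letI : Algebra A B := φ.toAlgebra
    mltwLvlHom φ hφ ρ J I h (Submodule.Quotient.mk v) =
      (Submodule.Quotient.mk ((1 : B) ⊗ₜ[A] v) :
        (B ⊗[A] ρ.V) ⧸ (I • (⊤ : Submodule B (B ⊗[A] ρ.V)))) := rfl

theorem mltwLvlHom_injective (J : Ideal A) (I : Ideal B) (h : J ≤ I.comap φ)
    (h' : I.comap φ ≤ J) : Function.Injective (mltwLvlHom φ hφ ρ J I h) := by
  classical
  letI : Algebra A B := φ.toAlgebra
  exact mltwLvl_injective (Module.Free.chooseBasis A ρ.V) J I h h'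

theorem mltwLvlHom_apply (J : Ideal A) (I : Ideal B) (h : J ≤ I.comap φ)
    (x : ρ.V ⧸ (J • (⊤ : Submodule A ρ.V))) :
    letI : Algebra A B := φ.toAlgebra
    mltwLvlHom φ hφ ρ J I h x = mltwLvl (V := ρ.V) J I h x := rfl

/-- coordinates of an element killed by a level map -/
theorem mltwLvlHom_repr_mem {ι : Type*} [Fintype ι] [DecidableEq ι] (b : Module.Basis ι A ρ.V)
    (J : Ideal A) (I : Ideal B) (h : J ≤ I.comap φ) (v : ρ.V)
    (hv : mltwLvlHom φ hφ ρ J I h (Submodule.Quotient.mk v) = mltwLvlHom φ hφ ρ J I h 0) (i : ι) :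
    φ (b.repr v i) ∈ I := by
  letI : Algebra A B := φ.toAlgebra
  rw [mltwLvlHom_apply, mltwLvlHom_apply, map_zero] at hv
  exact mltwLvl_repr_of_eq_zero (V := ρ.V) b J I h v hv i

/-- the level map is Galois equivariant -/
theorem mltwLvlHom_smul (J : Ideal A) (I : Ideal B) (h : J ≤ I.comap φ) (σ : GQ)
    (x : ρ.V ⧸ (J • (⊤ : Submodule A ρ.V))) :
    mltwLvlHom φ hφ ρ J I h (ρ.levelAction J σ x) =
      (ρ.baseChangeAlong φ hφ).levelAction I σ (mltwLvlHom φ hφ ρ J I h x) := by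
  letI : Algebra A B := φ.toAlgebra
  exact mltwLvl_mapQ (V := ρ.V) J I h (ρ.ρ σ) _ _ x

variable {p : ℕ} [Fact p.Prime]

/-- an order on a level of the base change gives an order on the corresponding level of `ρ` -/
theorem mltw_order_sub (J : Ideal A) (I : Ideal B) (h : J ≤ I.comap φ) (h' : I.comap φ ≤ J)
    (hord : letI := alpsLevelAction (ρ.baseChangeAlong φ hφ) I
      AlphHasOrder p ((ρ.baseChangeAlong φ hφ).V ⧸
        (I • (⊤ : Submodule B (ρ.baseChangeAlong φ hφ).V)))) :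
    letI := alpsLevelAction ρ J
    AlphHasOrder p (ρ.V ⧸ (J • (⊤ : Submodule A ρ.V))) := by
  letI := alpsLevelAction ρ J
  letI := alpsLevelAction (ρ.baseChangeAlong φ hφ) I
  exact hord.of_injective (mltwLvlHom φ hφ ρ J I h) (mltwLvlHom_injective φ hφ ρ J I h h')
    (fun σ w => mltwLvlHom_smul φ hφ ρ J I h σ w)

/-- an order on a level of `ρ` gives an order on every level above it of the base change -/
theorem mltw_order_bc (J : Ideal A) (I : Ideal B) (h : J ≤ I.comap φ) [Finite (A ⧸ J)]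
    [Finite (B ⧸ I)]
    (hord : letI := alpsLevelAction ρ J
      AlphHasOrder p (ρ.V ⧸ (J • (⊤ : Submodule A ρ.V)))) :
    letI := alpsLevelAction (ρ.baseChangeAlong φ hφ) I
    AlphHasOrder p ((ρ.baseChangeAlong φ hφ).V ⧸
      (I • (⊤ : Submodule B (ρ.baseChangeAlong φ hφ).V))) := by
  classical
  letI : Algebra A B := φ.toAlgebra
  letI := alpsLevelAction ρ J
  letI := alpsLevelAction (ρ.baseChangeAlong φ hφ) I
  haveI : Fintype (B ⧸ I) := Fintype.ofFinite _
  haveI : Finite (ρ.V ⧸ (J • (⊤ : Submodule A ρ.V))) := alps_finite_quot ρ J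
  haveI : Fintype ((B ⧸ I) → (ρ.V ⧸ (J • (⊤ : Submodule A ρ.V)))) := Fintype.ofFinite _
  let bb : (B ⧸ I) → B := fun i => Quotient.out i
  have hbb : ∀ c : B, c - bb (Ideal.Quotient.mk I c) ∈ I := by
    intro c
    rw [← Ideal.Quotient.eq]
    exact (Quotient.out_eq (Ideal.Quotient.mk I c)).symm
  let Ψ : ((B ⧸ I) → (ρ.V ⧸ (J • (⊤ : Submodule A ρ.V)))) →+
      ((ρ.baseChangeAlong φ hφ).V ⧸ (I • (⊤ : Submodule B (ρ.baseChangeAlong φ hφ).V))) :=
    mltwTwist (V := ρ.V) J I h bb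
  refine (AlphHasOrder.pi_const (ι := B ⧸ I) hord).of_surjective Ψ ?_ ?_
  · exact mltwTwist_surjective (V := ρ.V) J I h bb hbb
  · intro σ x
    exact mltwTwist_mapQ (V := ρ.V) J I h bb (ρ.ρ σ) _ _ x

end Lvl

section Mono

variable {A : Type} [CommRing A] [IsLocalRing A] (ρ : GaloisRepAdic A) {p : ℕ} [Fact p.Prime]

/-- an order on a level gives an order on every coarser level -/
theorem mltw_order_mono (J J' : Ideal A) (h : J ≤ J') [Finite (A ⧸ J)]
    (hord : letI := alpsLevelAction ρ J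
      AlphHasOrder p (ρ.V ⧸ (J • (⊤ : Submodule A ρ.V)))) :
    letI := alpsLevelAction ρ J'
    AlphHasOrder p (ρ.V ⧸ (J' • (⊤ : Submodule A ρ.V))) := by
  classical
  letI := alpsLevelAction ρ J
  letI := alpsLevelAction ρ J'
  haveI : Finite (ρ.V ⧸ (J • (⊤ : Submodule A ρ.V))) := alps_finite_quot ρ J
  haveI : Fintype (ρ.V ⧸ (J • (⊤ : Submodule A ρ.V))) := Fintype.ofFinite _
  let π : (ρ.V ⧸ (J • (⊤ : Submodule A ρ.V))) →ₗ[A] (ρ.V ⧸ (J' • (⊤ : Submodule A ρ.V))) :=
    Submodule.mapQ _ _ LinearMap.id (fun x hx => Submodule.smul_mono h le_rfl hx)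
  refine hord.of_surjective π.toAddMonoidHom ?_ ?_
  · intro y
    obtain ⟨v, rfl⟩ := Submodule.Quotient.mk_surjective _ y
    exact ⟨Submodule.Quotient.mk v, rfl⟩
  · intro σ x
    obtain ⟨v, rfl⟩ := Submodule.Quotient.mk_surjective _ x
    rfl

end Mono

section Fibre

variable {P A B : Type} [CommRing P] [IsLocalRing P] [CommRing A] [IsLocalRing A] [CommRing B]
  [IsLocalRing B] (pA : P →+* A) (hpA : IsLocalHom pA) (pB : P →+* B) (hpB : IsLocalHom pB)
  (ρ : GaloisRepAdic P) {p : ℕ} [Fact p.Prime]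

/-- orders on the bottom levels of two base changes along jointly injective maps give an order on
the bottom level of `ρ` -/
theorem mltw_order_fibre (hinj : ∀ x : P, pA x = 0 → pB x = 0 → x = 0)
    (hA : letI := alpsLevelAction (ρ.baseChangeAlong pA hpA) ⊥
      AlphHasOrder p ((ρ.baseChangeAlong pA hpA).V ⧸
        ((⊥ : Ideal A) • (⊤ : Submodule A (ρ.baseChangeAlong pA hpA).V))))
    (hB : letI := alpsLevelAction (ρ.baseChangeAlong pB hpB) ⊥
      AlphHasOrder p ((ρ.baseChangeAlong pB hpB).V ⧸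
        ((⊥ : Ideal B) • (⊤ : Submodule B (ρ.baseChangeAlong pB hpB).V)))) :
    letI := alpsLevelAction ρ ⊥
    AlphHasOrder p (ρ.V ⧸ ((⊥ : Ideal P) • (⊤ : Submodule P ρ.V))) := by
  classical
  letI := alpsLevelAction ρ ⊥
  letI := alpsLevelAction (ρ.baseChangeAlong pA hpA) ⊥
  letI := alpsLevelAction (ρ.baseChangeAlong pB hpB) ⊥
  let lA := mltwLvlHom pA hpA ρ ⊥ ⊥ bot_le
  let lB := mltwLvlHom pB hpB ρ ⊥ ⊥ bot_le
  refine (hA.prod hB).of_injective (lA.prod lB) ?_ ?_
  · rw [injective_iff_map_eq_zero]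
    intro x hx
    obtain ⟨v, rfl⟩ := Submodule.Quotient.mk_surjective _ x
    have h1 : lA (Submodule.Quotient.mk v) = 0 := congrArg Prod.fst hx
    have h2 : lB (Submodule.Quotient.mk v) = 0 := congrArg Prod.snd hx
    let b := Module.Free.chooseBasis P ρ.V
    have hcA : ∀ i, pA (b.repr v i) = 0 := fun i =>
      Ideal.mem_bot.mp (mltwLvlHom_repr_mem pA hpA ρ b ⊥ ⊥ bot_le v (h1.trans (map_zero lA).symm) i)
    have hcB : ∀ i, pB (b.repr v i) = 0 := fun i =>
      Ideal.mem_bot.mp (mltwLvlHom_repr_mem pB hpB ρ b ⊥ ⊥ bot_le v (h2.trans (map_zero lB).symm) i)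
    have hv : v = 0 := by
      rw [← b.sum_repr v]
      refine Finset.sum_eq_zero fun i _ => ?_
      rw [hinj _ (hcA i) (hcB i), zero_smul]
    rw [hv, Submodule.Quotient.mk_zero]
  · intro σ w
    show (lA (ρ.levelAction ⊥ σ w), lB (ρ.levelAction ⊥ σ w)) = _
    rw [show lA (ρ.levelAction ⊥ σ w) = _ from mltwLvlHom_smul pA hpA ρ ⊥ ⊥ bot_le σ w,
      show lB (ρ.levelAction ⊥ σ w) = _ from mltwLvlHom_smul pB hpB ρ ⊥ ⊥ bot_le σ w]
    rfl

end Fibre

end Fermat.Agent.MLT
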