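/-
MLT / Wloc (helper8), D4-flat, part 3: **`IsFlatAt p` is a deformation condition**.

`mltw_flat_isDefCond : GaloisRep.IsDeformationCondition 𝒪 (fun ρ => ρ.IsFlatAt p)`.
All five axioms are closure properties of Hopf orders (`Lib/Alpha/Hopf/Closure`, `Lib/Alpha/S32/Flat`)
applied to the level maps of `DefLevel.lean`, through the bridge `IsFlatAt ⇔ Hopf orders on all
finite levels` (`DefOrder.lean`).
-/
import Mathlib
import Fermat.Prelude.Def_GaloisRep_DeformationCondition
import Fermat.Agent.Lib.MLT.Wloc.DefOrder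
import Fermat.Agent.Lib.MLT.Wloc.DefLevel

set_option autoImplicit false
set_option linter.unusedSectionVars false
set_option linter.unusedVariables false
set_option linter.style.haveILetI false

open scoped TensorProduct
open IsLocalRing

namespace Fermat.Agent.MLT

open Fermat.Agent.Alpha Fermat.Agent.TW

local notation "Qb" => AlgebraicClosure ℚ
local notation "GQ" => (AlgebraicClosure ℚ ≃ₐ[ℚ] AlgebraicClosure ℚ)

section Basic

variable {A B : Type} [CommRing A] [IsLocalRing A] [CommRing B] [IsLocalRing B]
  {p : ℕ} [Fact p.Prime]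

/-- quotients of finite rings are finite -/
theorem mltw_finite_quot (A : Type) [CommRing A] [Finite A] (I : Ideal A) : Finite (A ⧸ I) :=
  Finite.of_surjective _ Ideal.Quotient.mk_surjective

/-- over a finite ring, `IsFlatAt` follows from a Hopf order on the bottom level -/
theorem mltw_isFlatAt_of_bot [Finite A] (ρ : GaloisRepAdic A)
    (h : letI := alpsLevelAction ρ ⊥
      AlphHasOrder p (ρ.V ⧸ ((⊥ : Ideal A) • (⊤ : Submodule A ρ.V)))) : ρ.IsFlatAt p := by
  haveI : Finite (A ⧸ (⊥ : Ideal A)) := mltw_finite_quot A ⊥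
  refine alps_isFlatAt_of_order p ρ ?_ fun I hI => ?_
  · exact Finite.of_surjective (residue A) residue_surjective
  · exact mltw_order_mono ρ ⊥ I bot_le h

/-- **base change** along an arbitrary local homomorphism -/
theorem mltw_isFlatAt_baseChangeAlong (φ : A →+* B) (hφ : IsLocalHom φ) (ρ : GaloisRepAdic A)
    (hB : Finite (ResidueField B)) (h : ρ.IsFlatAt p) : (ρ.baseChangeAlong φ hφ).IsFlatAt p := by
  refine alps_isFlatAt_of_order p _ hB fun I hI => ?_
  haveI : Finite (A ⧸ I.comap φ) :=
    Finite.of_injective (Ideal.quotientMap I φ le_rfl) (Ideal.quotientMap_injective' le_rfl)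
  exact mltw_order_bc φ hφ ρ (I.comap φ) I le_rfl (mltw_order_of_isFlatAt ρ h _ inferInstance)

/-- **descent** along an injective local homomorphism of finite rings -/
theorem mltw_isFlatAt_of_baseChangeAlong_injective [Finite A] [Finite B] (φ : A →+* B)
    (hφ : IsLocalHom φ) (hinj : Function.Injective φ) (ρ : GaloisRepAdic A)
    (h : (ρ.baseChangeAlong φ hφ).IsFlatAt p) : ρ.IsFlatAt p := by
  refine mltw_isFlatAt_of_bot ρ ?_
  refine mltw_order_sub φ hφ ρ ⊥ ⊥ bot_le ?_ (mltw_order_of_isFlatAt _ h ⊥ (mltw_finite_quot B ⊥))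
  intro x hx
  rw [Ideal.mem_comap, Ideal.mem_bot] at hx
  rw [Ideal.mem_bot]
  exact hinj (by rw [hx, map_zero])

end Basic

section Fibre

variable {P A B : Type} [CommRing P] [IsLocalRing P] [CommRing A] [IsLocalRing A] [CommRing B]
  [IsLocalRing B] {p : ℕ} [Fact p.Prime]

/-- **fibre products** (jointly injective pairs of maps) of finite rings -/
theorem mltw_isFlatAt_of_fibre [Finite A] [Finite B] (pA : P →+* A) (hpA : IsLocalHom pA)
    (pB : P →+* B) (hpB : IsLocalHom pB) (hinj : Function.Injective (fun x => (pA x, pB x)))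
    (ρ : GaloisRepAdic P) (hA : (ρ.baseChangeAlong pA hpA).IsFlatAt p)
    (hB : (ρ.baseChangeAlong pB hpB).IsFlatAt p) : ρ.IsFlatAt p := by
  haveI : Finite P := Finite.of_injective _ hinj
  refine mltw_isFlatAt_of_bot ρ ?_
  refine mltw_order_fibre pA hpA pB hpB ρ ?_
    (mltw_order_of_isFlatAt _ hA ⊥ (mltw_finite_quot A ⊥))
    (mltw_order_of_isFlatAt _ hB ⊥ (mltw_finite_quot B ⊥))
  intro x hxA hxB
  exact hinj (by
    show (pA x, pB x) = (pA 0, pB 0)
    rw [hxA, hxB, map_zero, map_zero])

end Fibre

section Test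

variable (𝒪 : Type) [CommRing 𝒪] [IsLocalRing 𝒪]

/-- residue fields of test algebras are finite as soon as one of them is -/
theorem mltw_finite_residue_of_test {A B : Type} [CommRing A] [IsLocalRing A] [Algebra 𝒪 A]
    [CommRing B] [IsLocalRing B] [Algebra 𝒪 B] (hA : IsLocalHom (algebraMap 𝒪 A))
    (hB : IsLocalHom (algebraMap 𝒪 B))
    (hsB : Function.Surjective (residue B ∘ algebraMap 𝒪 B))
    (hfin : Finite (ResidueField A)) : Finite (ResidueField B) := by
  haveI := hA
  haveI := hB
  haveI : Finite (ResidueField 𝒪) :=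
    Finite.of_injective (ResidueField.map (algebraMap 𝒪 A)) (RingHom.injective _)
  refine Finite.of_surjective (ResidueField.map (algebraMap 𝒪 B)) ?_
  intro x
  obtain ⟨r, rfl⟩ := hsB x
  exact ⟨residue 𝒪 r, rfl⟩

/-- the residue field of the source of a local homomorphism is finite if that of the target is -/
theorem mltw_finite_residue_of_localHom {A B : Type} [CommRing A] [IsLocalRing A]
    [CommRing B] [IsLocalRing B] (φ : A →+* B) (hφ : IsLocalHom φ)
    (hfin : Finite (ResidueField B)) : Finite (ResidueField A) := by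
  haveI := hφ
  exact Finite.of_injective (ResidueField.map φ) (RingHom.injective _)

variable {𝒪}

/-- a proper artinian quotient of a local `𝒪`-algebra with the properties of a coefficient ring is
an artinian test algebra -/
theorem mltw_test_quotient {A : Type} [CommRing A] [IsLocalRing A] [Algebra 𝒪 A]
    (hloc : IsLocalHom (algebraMap 𝒪 A))
    (hres : Function.Surjective (residue A ∘ algebraMap 𝒪 A)) (I : Ideal A)
    [IsLocalRing (A ⧸ I)] [IsArtinianRing (A ⧸ I)] :
    GaloisRep.IsArtinianTestAlgebra 𝒪 (A ⧸ I) := by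
  haveI hq : IsLocalHom (Ideal.Quotient.mk I) :=
    IsLocalHom.of_surjective (Ideal.Quotient.mk I) Ideal.Quotient.mk_surjective
  refine ⟨?_, ?_, inferInstance⟩
  · haveI := hloc
    have h1 : algebraMap 𝒪 (A ⧸ I) = (Ideal.Quotient.mk I).comp (algebraMap 𝒪 A) := rfl
    rw [h1]
    exact RingHom.isLocalHom_comp _ _
  · intro x
    obtain ⟨y, rfl⟩ := residue_surjective x
    obtain ⟨a, rfl⟩ := Ideal.Quotient.mk_surjective y
    obtain ⟨r, hr⟩ := hres (residue A a)
    refine ⟨r, ?_⟩
    have h2 : residue A (algebraMap 𝒪 A r) = residue A a := hr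
    have h3 : ResidueField.map (Ideal.Quotient.mk I) (residue A (algebraMap 𝒪 A r)) =
        ResidueField.map (Ideal.Quotient.mk I) (residue A a) := by rw [h2]
    exact h3

end Test

section Main

variable (𝒪 : Type) [CommRing 𝒪] [IsLocalRing 𝒪] (p : ℕ) [Fact p.Prime]

/-- finiteness of an artinian test algebra carrying a flat representation -/
theorem mltw_finite_of_test_flat {A : Type} [CommRing A] [IsLocalRing A] [Algebra 𝒪 A]
    (hA : GaloisRep.IsArtinianTestAlgebra 𝒪 A) (hfin : Finite (ResidueField A)) : Finite A := by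
  haveI := hA.isArtinian
  exact mltw_finite_of_artinian A

/-- **`IsFlatAt p` is a deformation condition** -/
theorem mltw_flat_isDefCond :
    GaloisRep.IsDeformationCondition 𝒪 (fun _A _ _ _ ρ => ρ.IsFlatAt p) where
  of_isEquiv := fun A _ _ _ _ ρ ρ' he h => isFlatAt_of_isEquiv he h
  baseChangeAlong := fun A B _ _ _ _ _ _ hA hB φ hφ ρ h =>
    mltw_isFlatAt_baseChangeAlong (φ : A →+* B) hφ ρ
      (mltw_finite_residue_of_test 𝒪 hA.isLocalHom hB.isLocalHom hB.residue_surjective h.1) h
  of_baseChangeAlong_injective := fun A B _ _ _ _ _ _ hA hB φ hφ hinj ρ h => by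
    haveI : Finite B := mltw_finite_of_test_flat 𝒪 hB h.1
    haveI : Finite A := mltw_finite_of_test_flat 𝒪 hA
      (mltw_finite_residue_of_localHom (φ : A →+* B) hφ h.1)
    exact mltw_isFlatAt_of_baseChangeAlong_injective (φ : A →+* B) hφ hinj ρ h
  of_fibreProduct := fun A B C P _ _ _ _ _ _ _ _ _ _ _ _ hA hB hC hP f g pA pB hpA hpB hfg hinj
      hsurj ρ h1 h2 => by
    haveI : Finite A := mltw_finite_of_test_flat 𝒪 hA h1.1
    haveI : Finite B := mltw_finite_of_test_flat 𝒪 hB h2.1
    exact mltw_isFlatAt_of_fibre (pA : P →+* A) hpA (pB : P →+* B) hpB hinj ρ h1 h2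
  iff_forall_surjective := fun A _ _ _ _ _ hloc hres ρ => by
    constructor
    · intro h B _ _ _ hB q hq hsurj
      exact isFlatAt_baseChangeAlong_of_surjective (q : A →+* B) hq hsurj ρ h
    · intro H
      -- a proper artinian quotient
      have key : ∀ I : Ideal A, I ≠ ⊤ → IsArtinianRing (A ⧸ I) →
          ∃ _ : IsLocalRing (A ⧸ I), (ρ.baseChangeAlong (Ideal.Quotient.mk I)
            (IsLocalHom.of_surjective (Ideal.Quotient.mk I) Ideal.Quotient.mk_surjective)).IsFlatAt
              p := by
        intro I hI hart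
        haveI : Nontrivial (A ⧸ I) := Ideal.Quotient.nontrivial_iff.mpr hI
        haveI hl : IsLocalRing (A ⧸ I) :=
          IsLocalRing.of_surjective' (Ideal.Quotient.mk I) Ideal.Quotient.mk_surjective
        refine ⟨hl, ?_⟩
        exact H (mltw_test_quotient hloc hres I) (Ideal.Quotient.mkₐ 𝒪 I)
          (IsLocalHom.of_surjective (Ideal.Quotient.mk I) Ideal.Quotient.mk_surjective)
          Ideal.Quotient.mk_surjective
      -- the residue field is finite
      have hfin : Finite (ResidueField A) := by
        obtain ⟨hl, h1⟩ := key (maximalIdeal A) (Ideal.IsMaximal.ne_top inferInstance)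
          (inferInstanceAs (IsArtinianRing (ResidueField A)))
        have h2 : Finite (ResidueField (A ⧸ maximalIdeal A)) := h1.1
        exact Finite.of_injective (residue (A ⧸ maximalIdeal A)) (RingHom.injective _)
      refine alps_isFlatAt_of_order p ρ hfin fun I hI => ?_
      by_cases hI' : I = ⊤
      · letI := alpsLevelAction ρ I
        haveI : Subsingleton (ρ.V ⧸ (I • (⊤ : Submodule A ρ.V))) := by
          rw [hI', Submodule.top_smul]
          exact Submodule.Quotient.subsingleton_iff.mpr rfl
        exact alph_hasOrder_of_subsingleton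
      · haveI : IsArtinianRing (A ⧸ I) := inferInstance
        obtain ⟨hl, h1⟩ := key I hI' inferInstance
        haveI : Finite ((A ⧸ I) ⧸ (⊥ : Ideal (A ⧸ I))) :=
          Finite.of_surjective _ Ideal.Quotient.mk_surjective
        refine mltw_order_sub (Ideal.Quotient.mk I) _ ρ I ⊥ ?_ ?_
          (mltw_order_of_isFlatAt _ h1 ⊥ inferInstance)
        · intro x hx
          rw [Ideal.mem_comap, Ideal.mem_bot]
          exact Ideal.Quotient.eq_zero_iff_mem.mpr hx
        · intro x hx
          rw [Ideal.mem_comap, Ideal.mem_bot] at hx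
          exact Ideal.Quotient.eq_zero_iff_mem.mp hx

end Main

end Fermat.Agent.MLT
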