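/-
MLT / Wloc (helper8): **contract W-MOD**.

`mltw_modular : MltWlocModularContract` — a ring homomorphism `χ` from a Hecke algebra of level `N`
(cube-free, `p² ∤ N`) away from `S` to a domain of characteristic zero with `χ(T_ℓ) = a_ℓ(W)` at the
good primes `ℓ ∤ N`, `ℓ ∉ S` makes `W` modular of exact conductor level.

Steps: `χ` → a complex character with the same integral values (`mltw_exists_complex_char`, lifting
along the integral extension `ℤ ⊆ χ(𝕋)`) → a normalised eigenform of level `N`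
(`t2fn_exists_eigenform_of_char`) → stabilisation at the primes of `S` not dividing `N`
(`s58v_raise`) → `W.IsModularModelOfLevel (N·d)` → S58 (lowering to the conductor).
-/
import Mathlib
import Fermat.Agent.Lib.MLT.Contracts.Wloc
import Fermat.Agent.Lib.T2.F.NewCore
import Fermat.Agent.Lib.S58.Stabilise
import Fermat.Agent.S58

set_option autoImplicit false
set_option linter.unusedSectionVars false
set_option linter.unusedVariables false
set_option linter.style.haveILetI false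

namespace Fermat.Agent.MLT

open CuspForm ModularFormClass Fermat.Agent.T2 Fermat.Agent.S58

/-- a character with values in a domain of characteristic zero gives a complex character with the
same integral values -/
theorem mltw_exists_complex_char {A 𝒪 : Type*} [CommRing A] [Algebra.IsIntegral ℤ A]
    [CommRing 𝒪] [IsDomain 𝒪] [CharZero 𝒪] (χ : A →+* 𝒪) :
    ∃ ψ : A →+* ℂ, ∀ (a : A) (n : ℤ), χ a = (n : 𝒪) → ψ a = (n : ℂ) := by
  classical
  let f : ℤ →+* χ.range := Int.castRingHom χ.range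
  have hf : Function.Injective f := by
    intro m n hmn
    have h1 : ((f m : χ.range) : 𝒪) = ((f n : χ.range) : 𝒪) := by rw [hmn]
    have h2 : ∀ k : ℤ, ((f k : χ.range) : 𝒪) = (k : 𝒪) := fun k => by
      show ((Int.castRingHom χ.range k : χ.range) : 𝒪) = (k : 𝒪)
      rw [eq_intCast]
      rfl
    rw [h2, h2] at h1
    exact_mod_cast h1
  have hint : f.IsIntegral := by
    rintro ⟨_, a, rfl⟩
    obtain ⟨P, hP, hPa⟩ := Algebra.IsIntegral.isIntegral (R := ℤ) a
    refine ⟨P, hP, ?_⟩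
    have h1 : (χ.rangeRestrict).comp (algebraMap ℤ A) = f := RingHom.ext_int _ _
    have h2 := Polynomial.hom_eval₂ P (algebraMap ℤ A) χ.rangeRestrict a
    rw [hPa, map_zero, h1] at h2
    exact h2.symm
  obtain ⟨ψ₀, hψ₀⟩ := t2fn_exists_lift_algClosed f hf hint (Int.castRingHom ℂ)
  refine ⟨ψ₀.comp χ.rangeRestrict, fun a n han => ?_⟩
  have h1 : χ.rangeRestrict a = f n := by
    apply Subtype.ext
    show χ a = ((Int.castRingHom χ.range n : χ.range) : 𝒪)
    rw [han, eq_intCast]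
    rfl
  rw [RingHom.comp_apply, h1, hψ₀, eq_intCast]

/-- the product of the primes of `S` not dividing `N` -/
theorem mltw_exists_level (N : ℕ) (S : Finset ℕ) :
    ∃ d : ℕ, Squarefree d ∧ d.Coprime N ∧
      ∀ ℓ : ℕ, ℓ.Prime → (ℓ ∣ d ↔ ℓ ∈ S ∧ ¬ ℓ ∣ N) := by
  classical
  let T := S.filter (fun ℓ => ℓ.Prime ∧ ¬ ℓ ∣ N)
  have hT : ∀ ℓ, ℓ ∈ T ↔ ℓ ∈ S ∧ ℓ.Prime ∧ ¬ ℓ ∣ N := fun ℓ => Finset.mem_filter
  have hdvd : ∀ ℓ : ℕ, ℓ.Prime → (ℓ ∣ ∏ a ∈ T, a ↔ ℓ ∈ T) := by
    intro ℓ hℓ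
    rw [Prime.dvd_finsetProd_iff hℓ.prime]
    constructor
    · rintro ⟨a, ha, hla⟩
      have hap : a.Prime := ((hT a).mp ha).2.1
      rwa [(Nat.prime_dvd_prime_iff_eq hℓ hap).mp hla]
    · intro h
      exact ⟨ℓ, h, dvd_rfl⟩
  refine ⟨∏ a ∈ T, a, ?_, ?_, ?_⟩
  · refine Finset.squarefree_prod_of_pairwise_isCoprime ?_ ?_
    · intro a ha b hb hab
      have hap : a.Prime := ((hT a).mp ha).2.1
      have hbp : b.Prime := ((hT b).mp hb).2.1
      show IsRelPrime a b
      rw [← Nat.coprime_iff_isRelPrime]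
      exact (Nat.coprime_primes hap hbp).mpr hab
    · intro a ha
      exact ((hT a).mp ha).2.1.prime.squarefree
  · rw [Nat.coprime_comm]
    refine Nat.Coprime.prod_right fun a ha => ?_
    have hap : a.Prime := ((hT a).mp ha).2.1
    rw [Nat.coprime_comm]
    exact (Nat.Prime.coprime_iff_not_dvd hap).mpr ((hT a).mp ha).2.2
  · intro ℓ hℓ
    rw [hdvd ℓ hℓ, hT]
    exact ⟨fun h => ⟨h.1, h.2.2⟩, fun h => ⟨h.1, hℓ, h.2⟩⟩

/-- **contract W-MOD** -/
theorem mltw_modular : MltWlocModularContract := by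
  intro p _ hp2 W hΔ hss hirr N _ S hN3 hp2N hbad 𝒪 _ _ _ χ hχ
  classical
  haveI : Module.Finite ℤ (heckeAlgebra N 2 (↑S : Set ℕ)) :=
    Fermat.Agent.S22Lib.moduleFinite_heckeAlgebra N 2 _
  haveI : Algebra.IsIntegral ℤ (heckeAlgebra N 2 (↑S : Set ℕ)) := Algebra.IsIntegral.of_finite ℤ _
  obtain ⟨ψ, hψ⟩ := mltw_exists_complex_char χ
  obtain ⟨f, hf, hfψ⟩ := t2fn_exists_eigenform_of_char N (↑S : Set ℕ) ψ
  obtain ⟨d, hdsq, hdcop, hd⟩ := mltw_exists_level N S
  have hN0 : N ≠ 0 := NeZero.ne N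
  have hNd0 : N * d ≠ 0 := mul_ne_zero hN0 hdsq.ne_zero
  have hdiv : N * d / N = d := Nat.mul_div_cancel_left d (Nat.pos_of_ne_zero hN0)
  obtain ⟨g, hg, hgf⟩ := s58v_raise (M := N) (M' := N * d) hNd0 (dvd_mul_right N d)
    (by rw [hdiv]; exact hdsq) (by rw [hdiv]; exact hdcop) hf
  rw [hdiv] at hgf
  -- modularity at level `N * d`
  have hmod : W.IsModularModelOfLevel (N * d) := by
    refine ⟨g, hg, fun q hq hgood hqNd => ?_⟩
    have hqN : ¬ q ∣ N := fun h => hqNd (h.trans (dvd_mul_right N d))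
    have hqd : ¬ q ∣ d := fun h => hqNd (h.trans (dvd_mul_left d N))
    have hqS : q ∉ (↑S : Set ℕ) := fun h => hqd ((hd q hq).mpr ⟨h, hqN⟩)
    rw [hgf q hq hqd, hfψ q hq hqN hqS]
    have h1 := hψ _ _ (hχ q hq hqN hqS hgood)
    rw [h1]
  -- valuations
  have hval : ∀ (q : ℕ), q.Prime → ∀ k : ℕ, 1 ≤ k → q ^ (k + 1) ∣ N * d → q ^ (k + 1) ∣ N := by
    intro q hq k hk hdvd
    by_cases hqd : q ∣ d
    · exfalso
      have hqN : ¬ q ∣ N := ((hd q hq).mp hqd).2
      have hcop : (q ^ (k + 1)).Coprime N :=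
        Nat.Coprime.pow_left _ ((Nat.Prime.coprime_iff_not_dvd hq).mpr hqN)
      have h1 : q ^ (k + 1) ∣ d := hcop.dvd_of_dvd_mul_left hdvd
      have h2 : q * q ∣ d := by
        refine dvd_trans ?_ h1
        have : q ^ (k + 1) = q * q * q ^ (k - 1) := by
          rw [← pow_two, ← pow_add]
          congr 1
          omega
        rw [this]
        exact dvd_mul_right _ _
      exact hq.one_lt.ne' (Nat.isUnit_iff.mp (hdsq q h2))
    · have hcop : (q ^ (k + 1)).Coprime d :=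
        Nat.Coprime.pow_left _ ((Nat.Prime.coprime_iff_not_dvd hq).mpr hqd)
      exact hcop.dvd_of_dvd_mul_right hdvd
  have hres := Fermat.Agent.S58.result W hss (N * d) p hp2 hirr
    (fun h => hp2N (hval p (Fact.out) 1 le_rfl h)) hmod
    (fun ℓ hℓ hℓΔ => by
      rcases hbad ℓ hℓ hℓΔ with h | h
      · exact h.trans (dvd_mul_right N d)
      · by_cases hℓN : ℓ ∣ N
        · exact hℓN.trans (dvd_mul_right N d)
        · exact ((hd ℓ hℓ).mpr ⟨h, hℓN⟩).trans (dvd_mul_left d N))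
    (fun q hq h => hN3 q hq (hval q hq 2 (by norm_num) h))
  exact ⟨W.conductorLevel, W.conductorLevel_pos, W.squarefree_conductorLevel,
    fun q hq => W.prime_dvd_conductorLevel_iff hΔ hq, hres⟩

end Fermat.Agent.MLT
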