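/-
MLT, stream [W] (helper8), file 7: **good reduction at a valuation ring: unit differences of
`x`-coordinates**.

`A` a valuation subring of a field `K`, `E` a Weierstrass curve over `K` with integral coefficients
and unit discriminant (`MltwGood A E`).

* `mltw_unit_sub` : two integral affine points `T₁, T₂` such that neither `T₁ - T₂` nor `T₁ + T₂`
  lies in the kernel of reduction have `x(T₁) - x(T₂)` a unit of `A`;
* `mltw_not_E1_of_torsion` : a point `T` such that `k • T` is a nonzero torsion point of unit order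
  is not in the kernel of reduction;
* `mltwPX`, `mltwPY` : the coordinate functions on the points.
-/
import Mathlib
import Fermat.Agent.Lib.ET.RedClose
import Fermat.Agent.Lib.S58.LocalFix

set_option autoImplicit false
set_option linter.unusedSectionVars false
set_option linter.unusedVariables false
set_option linter.style.haveILetI false

namespace Fermat.Agent.MLT

open Fermat.Agent.ET Fermat.Agent.S58 WeierstrassCurve WeierstrassCurve.Affine

variable {K : Type*} [Field K]

/-- integral coefficients and unit discriminant -/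
structure MltwGood (A : ValuationSubring K) (E : WeierstrassCurve K) : Prop where
  a₁ : E.a₁ ∈ A
  a₂ : E.a₂ ∈ A
  a₃ : E.a₃ ∈ A
  a₄ : E.a₄ ∈ A
  a₆ : E.a₆ ∈ A
  disc : A.valuation E.Δ = 1

theorem MltwGood.int {A : ValuationSubring K} {E : WeierstrassCurve K} (hg : MltwGood A E) :
    EtgInt A E := EtgInt.of_a hg.a₁ hg.a₂ hg.a₃ hg.a₄ hg.a₆

/-- the `x`-coordinate of a point (`0` at the origin) -/
def mltwPX {E : WeierstrassCurve K} : E.toAffine.Point → K
  | .zero => 0
  | .some x _ _ => x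

/-- the `y`-coordinate of a point (`0` at the origin) -/
def mltwPY {E : WeierstrassCurve K} : E.toAffine.Point → K
  | .zero => 0
  | .some _ y _ => y

@[simp] theorem mltwPX_some {E : WeierstrassCurve K} {x y : K} (h : E.toAffine.Nonsingular x y) :
    mltwPX (Affine.Point.some x y h) = x := rfl

@[simp] theorem mltwPY_some {E : WeierstrassCurve K} {x y : K} (h : E.toAffine.Nonsingular x y) :
    mltwPY (Affine.Point.some x y h) = y := rfl

variable [DecidableEq K] {A : ValuationSubring K} {E : WeierstrassCurve K}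

/-- the product of two elements of `A`, one of which is in the maximal ideal -/
theorem mltw_val_lt_of_mul {a b : K} (ha : a ∈ A) (hb : b ∈ A)
    (hab : A.valuation (a * b) < 1) : A.valuation a < 1 ∨ A.valuation b < 1 := by
  by_contra hcon
  push Not at hcon
  have h1 : A.valuation a = 1 := le_antisymm ((A.valuation_le_one_iff _).mpr ha) hcon.1
  have h2 : A.valuation b = 1 := le_antisymm ((A.valuation_le_one_iff _).mpr hb) hcon.2
  rw [map_mul, h1, h2, one_mul] at hab
  exact lt_irrefl _ hab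

/-- **unit differences**: integral affine points `T₁, T₂` with `T₁ ± T₂` outside the kernel of
reduction have `x(T₁) - x(T₂)` a unit -/
theorem mltw_unit_sub (hg : MltwGood A E) {x₁ y₁ x₂ y₂ : K}
    (h₁ : E.toAffine.Nonsingular x₁ y₁) (h₂ : E.toAffine.Nonsingular x₂ y₂)
    (hx₁ : x₁ ∈ A) (hx₂ : x₂ ∈ A)
    (hsub : ¬ EtgE1 A E (Affine.Point.some x₁ y₁ h₁ - Affine.Point.some x₂ y₂ h₂))
    (hadd : ¬ EtgE1 A E (Affine.Point.some x₁ y₁ h₁ + Affine.Point.some x₂ y₂ h₂)) :
    A.valuation (x₁ - x₂) = 1 := by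
  by_contra hne
  have hlt : A.valuation (x₁ - x₂) < 1 :=
    lt_of_le_of_ne ((A.valuation_le_one_iff _).mpr (sub_mem hx₁ hx₂)) hne
  have hy₁ : y₁ ∈ A := etg_y_mem hg.a₁ hg.a₂ hg.a₃ hg.a₄ hg.a₆ h₁.1 hx₁
  have hy₂ : y₂ ∈ A := etg_y_mem hg.a₁ hg.a₂ hg.a₃ hg.a₄ hg.a₆ h₂.1 hx₂
  have hns := s58l_ns_of_good hg.a₁ hg.a₂ hg.a₃ hg.a₄ hg.disc h₁.1 hx₁ hy₁
  have hnegA : E.toAffine.negY x₂ y₂ ∈ A := by
    rw [Affine.negY]
    exact sub_mem (sub_mem (neg_mem hy₂) (mul_mem hg.a₁ hx₂)) hg.a₃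
  -- the product of the two `y`-differences
  have hprod : (y₁ - y₂) * (y₁ - E.toAffine.negY x₂ y₂) =
      (x₁ - x₂) * (x₁ ^ 2 + x₁ * x₂ + x₂ ^ 2 + E.a₂ * (x₁ + x₂) + E.a₄ - E.a₁ * y₁) := by
    have e₁ := (Affine.equation_iff _ _).mp h₁.1
    have e₂ := (Affine.equation_iff _ _).mp h₂.1
    rw [Affine.negY]
    linear_combination e₁ - e₂
  have hG : x₁ ^ 2 + x₁ * x₂ + x₂ ^ 2 + E.a₂ * (x₁ + x₂) + E.a₄ - E.a₁ * y₁ ∈ A :=
    sub_mem (add_mem (add_mem (add_mem (add_mem (pow_mem hx₁ 2) (mul_mem hx₁ hx₂)) (pow_mem hx₂ 2))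
      (mul_mem hg.a₂ (add_mem hx₁ hx₂))) hg.a₄) (mul_mem hg.a₁ hy₁)
  have hprodlt : A.valuation ((y₁ - y₂) * (y₁ - E.toAffine.negY x₂ y₂)) < 1 := by
    rw [hprod]
    exact etg_mul_lt' hlt hG
  rcases mltw_val_lt_of_mul (sub_mem hy₁ hy₂) (sub_mem hy₁ hnegA) hprodlt with hy | hy
  · -- congruent points
    by_cases heq : x₁ = x₂ ∧ y₁ = y₂
    · obtain ⟨rfl, rfl⟩ := heq
      apply hsub
      rw [sub_self]
      exact etgE1_zero A E
    · obtain ⟨x₃, y₃, h₃, hs, hx₃⟩ :=
        etgc_sub_notMem hg.a₁ hg.a₂ h₁ h₂ hx₁ hx₂ hlt hy hns heq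
      apply hsub
      rw [hs]
      exact hx₃
  · -- opposite points
    by_cases heq : x₁ = x₂ ∧ y₁ = E.toAffine.negY x₂ y₂
    · apply hadd
      rw [Affine.Point.add_of_Y_eq heq.1 heq.2]
      exact etgE1_zero A E
    · obtain ⟨x₃, y₃, h₃, hs, hx₃⟩ :=
        etgc_add_notMem hg.a₁ hg.a₂ h₁ h₂ hx₁ hx₂ hlt hy hns heq
      apply hadd
      rw [hs]
      exact hx₃

variable [E.IsElliptic]

/-- a point some multiple of which is a nonzero torsion point of unit order is not in the kernel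
of reduction -/
theorem mltw_not_E1_of_torsion (hg : MltwGood A E) {T : E.toAffine.Point} {k l : ℕ}
    (hl : A.valuation (l : K) = 1) (h0 : k • T ≠ 0) (h1 : l • (k • T) = 0) :
    ¬ EtgE1 A E T := by
  intro hT
  exact h0 (etg_no_torsion hg.int hl (etg_u_nsmul hg.int hT k).1 h1)

/-- a point outside the kernel of reduction is affine with integral coordinates -/
theorem mltw_coords_of_not_E1 (hg : MltwGood A E) {T : E.toAffine.Point}
    (hT : ¬ EtgE1 A E T) :
    ∃ (x y : K) (h : E.toAffine.Nonsingular x y), T = Affine.Point.some x y h ∧ x ∈ A ∧ y ∈ A := by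
  rcases T with _ | ⟨x, y, h⟩
  · exact absurd (etgE1_zero A E) hT
  · have hx : x ∈ A := by
      by_contra hx
      exact hT hx
    exact ⟨x, y, h, rfl, hx, etg_y_mem hg.a₁ hg.a₂ hg.a₃ hg.a₄ hg.a₆ h.1 hx⟩

end Fermat.Agent.MLT
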