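/-
MLT, stream [W] (helper8), file 8: **algebras of integral-valued functions on a finite set and the
chord formula**.

`A` a valuation subring of `K`, `X` a finite type, `𝒜` an `A`-subalgebra of `X → K`.

* `mltw_inv_mem` : the pointwise inverse of a unit-valued element of `𝒜` lies in `𝒜`;
* `MltwAff A E 𝒜 Pf` : the point-valued function `Pf : X → E(K)` avoids the origin and has its
  coordinate functions in `𝒜`;
* `MltwAff.add` : if `x(Pf₁) - x(Pf₂)` is everywhere a unit, the sum `Pf₁ + Pf₂` is again affine over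
  `𝒜` (Mathlib's chord formula).
-/
import Mathlib
import Fermat.Agent.Lib.MLT.Wloc.GoodRed

set_option autoImplicit false
set_option linter.unusedSectionVars false
set_option linter.unusedVariables false
set_option linter.style.haveILetI false

namespace Fermat.Agent.MLT

open Fermat.Agent.ET WeierstrassCurve WeierstrassCurve.Affine Polynomial

variable {K : Type*} [Field K] {A : ValuationSubring K} {X : Type*}

/-- **pointwise inverses of unit-valued functions** -/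
theorem mltw_inv_mem [Finite X] (𝒜 : Subalgebra ↥A (X → K)) {u : X → K} (hu : u ∈ 𝒜)
    (hunit : ∀ x, A.valuation (u x) = 1) : (fun x => (u x)⁻¹) ∈ 𝒜 := by
  classical
  haveI : Fintype X := Fintype.ofFinite X
  have hmem : ∀ x, u x ∈ A := fun x => (A.valuation_le_one_iff _).mp (hunit x).le
  let c : X → ↥A := fun x => ⟨u x, hmem x⟩
  let χ : Polynomial ↥A := ∏ x, (Polynomial.X - Polynomial.C (c x))
  -- `χ(u) = 0`
  have hχ : Polynomial.aeval u χ = 0 := by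
    funext x₀
    have h1 : (Polynomial.aeval u χ) x₀ = Polynomial.aeval (u x₀) χ := by
      have := Polynomial.aeval_algHom_apply (Pi.evalAlgHom ↥A (fun _ : X => K) x₀) u χ
      simpa using this.symm
    rw [h1, Pi.zero_apply]
    show Polynomial.aeval (u x₀) (∏ x, (Polynomial.X - Polynomial.C (c x))) = 0
    rw [map_prod]
    refine Finset.prod_eq_zero (Finset.mem_univ x₀) ?_
    rw [map_sub, Polynomial.aeval_X, Polynomial.aeval_C]
    show u x₀ - ((c x₀ : ↥A) : K) = 0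
    exact sub_self _
  -- the constant term is a unit
  set c₀ : ↥A := χ.coeff 0 with hc₀
  have hc₀val : A.valuation (c₀ : K) = 1 := by
    have h1 : c₀ = ∏ x, (-(c x)) := by
      rw [hc₀, Polynomial.coeff_zero_eq_eval_zero, Polynomial.eval_prod]
      refine Finset.prod_congr rfl fun x _ => ?_
      rw [Polynomial.eval_sub, Polynomial.eval_X, Polynomial.eval_C, zero_sub]
    rw [h1]
    have h2 : ((∏ x, (-(c x)) : ↥A) : K) = ∏ x, (-(u x)) := by
      rw [← A.subtype_apply, map_prod]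
      rfl
    rw [h2, map_prod]
    refine Finset.prod_eq_one fun x _ => ?_
    rw [Valuation.map_neg]
    exact hunit x
  have hc₀0 : (c₀ : K) ≠ 0 := by
    intro h
    rw [h, map_zero] at hc₀val
    exact zero_ne_one hc₀val
  have hdmem : (c₀ : K)⁻¹ ∈ A := by
    rw [← A.valuation_le_one_iff, map_inv₀, hc₀val, inv_one]
  let d : ↥A := ⟨(c₀ : K)⁻¹, hdmem⟩
  -- `g(u)`
  have hg : Polynomial.aeval u χ.divX ∈ 𝒜 := by
    have := Polynomial.aeval_subalgebra_coe χ.divX 𝒜 ⟨u, hu⟩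
    rw [← this]
    exact (Polynomial.aeval (⟨u, hu⟩ : 𝒜) χ.divX).2
  have hsplit : Polynomial.aeval u χ.divX * u + algebraMap ↥A (X → K) c₀ = 0 := by
    have h1 := congrArg (Polynomial.aeval u) (Polynomial.divX_mul_X_add χ)
    rw [map_add, map_mul, Polynomial.aeval_X, Polynomial.aeval_C, hχ] at h1
    exact h1
  have hfinal : (fun x => (u x)⁻¹) = (-d) • Polynomial.aeval u χ.divX := by
    funext x
    have h1 := congrFun hsplit x
    have hux : u x ≠ 0 := by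
      intro h
      have := hunit x
      rw [h, map_zero] at this
      exact zero_ne_one this
    have h2 : (Polynomial.aeval u χ.divX) x * u x = -(c₀ : K) := by
      have : (Polynomial.aeval u χ.divX) x * u x + (c₀ : K) = 0 := h1
      exact eq_neg_of_add_eq_zero_left this
    show (u x)⁻¹ = ((-d : ↥A) : K) * (Polynomial.aeval u χ.divX) x
    have h3 : ((-d : ↥A) : K) = -(c₀ : K)⁻¹ := rfl
    rw [h3]
    field_simp
    rw [mul_comm] at h2
    rw [h2, neg_neg]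
  rw [hfinal]
  exact 𝒜.smul_mem hg _

variable [DecidableEq K]

/-- the point-valued function `Pf` avoids the origin and has coordinate functions in `𝒜` -/
def MltwAff (E : WeierstrassCurve K) (𝒜 : Subalgebra ↥A (X → K))
    (Pf : X → E.toAffine.Point) : Prop :=
  (∀ x, Pf x ≠ 0) ∧ (fun x => mltwPX (Pf x)) ∈ 𝒜 ∧ (fun x => mltwPY (Pf x)) ∈ 𝒜

/-- constants of `A` as constant functions -/
theorem mltw_const_mem (𝒜 : Subalgebra ↥A (X → K)) {a : K} (ha : a ∈ A) :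
    (fun _ : X => a) ∈ 𝒜 :=
  𝒜.algebraMap_mem ⟨a, ha⟩

/-- a constant integral affine point -/
theorem MltwAff.const {E : WeierstrassCurve K} (𝒜 : Subalgebra ↥A (X → K)) {x y : K}
    (h : E.toAffine.Nonsingular x y) (hx : x ∈ A) (hy : y ∈ A) :
    MltwAff E 𝒜 (fun _ => Affine.Point.some x y h) :=
  ⟨fun _ => Affine.Point.some_ne_zero h, mltw_const_mem 𝒜 hx, mltw_const_mem 𝒜 hy⟩

/-- **the chord formula over `𝒜`** -/
theorem MltwAff.add [Finite X] {E : WeierstrassCurve K} {𝒜 : Subalgebra ↥A (X → K)}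
    (ha₁ : E.a₁ ∈ A) (ha₂ : E.a₂ ∈ A) (ha₃ : E.a₃ ∈ A)
    {Pf₁ Pf₂ : X → E.toAffine.Point} (h1 : MltwAff E 𝒜 Pf₁) (h2 : MltwAff E 𝒜 Pf₂)
    (hunit : ∀ x, A.valuation (mltwPX (Pf₁ x) - mltwPX (Pf₂ x)) = 1) :
    MltwAff E 𝒜 (fun x => Pf₁ x + Pf₂ x) := by
  obtain ⟨h10, h1x, h1y⟩ := h1
  obtain ⟨h20, h2x, h2y⟩ := h2
  -- the slope function
  set L : X → K := fun x => (mltwPY (Pf₁ x) - mltwPY (Pf₂ x)) *
    (mltwPX (Pf₁ x) - mltwPX (Pf₂ x))⁻¹ with hL
  have hLmem : L ∈ 𝒜 :=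
    𝒜.mul_mem (𝒜.sub_mem h1y h2y) (mltw_inv_mem 𝒜 (𝒜.sub_mem h1x h2x) hunit)
  -- pointwise description of the sum
  have key : ∀ x, Pf₁ x + Pf₂ x ≠ 0 ∧
      mltwPX (Pf₁ x + Pf₂ x) = L x ^ 2 + E.a₁ * L x - E.a₂ - mltwPX (Pf₁ x) - mltwPX (Pf₂ x) ∧
      mltwPY (Pf₁ x + Pf₂ x) = -(L x * ((L x ^ 2 + E.a₁ * L x - E.a₂ - mltwPX (Pf₁ x) -
        mltwPX (Pf₂ x)) - mltwPX (Pf₁ x)) + mltwPY (Pf₁ x)) -
        E.a₁ * (L x ^ 2 + E.a₁ * L x - E.a₂ - mltwPX (Pf₁ x) - mltwPX (Pf₂ x)) - E.a₃ := by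
    intro x
    have hu := hunit x
    have hLx : L x = (mltwPY (Pf₁ x) - mltwPY (Pf₂ x)) *
        (mltwPX (Pf₁ x) - mltwPX (Pf₂ x))⁻¹ := rfl
    have hP1 := h10 x
    have hP2 := h20 x
    rcases hp1 : Pf₁ x with _ | ⟨x₁, y₁, hn₁⟩
    · exact absurd hp1 hP1
    rcases hp2 : Pf₂ x with _ | ⟨x₂, y₂, hn₂⟩
    · exact absurd hp2 hP2
    rw [hp1, hp2] at hu hLx
    simp only [mltwPX_some, mltwPY_some] at hu hLx ⊢
    have hne : x₁ ≠ x₂ := by
      intro h
      rw [h, sub_self, map_zero] at hu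
      exact zero_ne_one hu
    rw [Affine.Point.add_of_X_ne hne]
    have hslope : E.toAffine.slope x₁ x₂ y₁ y₂ = L x := by
      rw [Affine.slope_of_X_ne hne, hLx, div_eq_mul_inv]
    refine ⟨Affine.Point.some_ne_zero _, ?_, ?_⟩
    · rw [mltwPX_some, hslope, Affine.addX]
    · rw [mltwPY_some, hslope, Affine.addY, Affine.negY, Affine.negAddY, Affine.addX]
  refine ⟨fun x => (key x).1, ?_, ?_⟩
  · have e : (fun x => mltwPX (Pf₁ x + Pf₂ x)) =
        L ^ 2 + (fun _ => E.a₁) * L - (fun _ => E.a₂) - (fun x => mltwPX (Pf₁ x)) -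
          (fun x => mltwPX (Pf₂ x)) := by
      funext x
      rw [(key x).2.1]
      rfl
    rw [e]
    exact 𝒜.sub_mem (𝒜.sub_mem (𝒜.sub_mem (𝒜.add_mem (𝒜.pow_mem hLmem 2)
      (𝒜.mul_mem (mltw_const_mem 𝒜 ha₁) hLmem)) (mltw_const_mem 𝒜 ha₂)) h1x) h2x
  · set X3 : X → K := L ^ 2 + (fun _ => E.a₁) * L - (fun _ => E.a₂) - (fun x => mltwPX (Pf₁ x)) -
          (fun x => mltwPX (Pf₂ x)) with hX3
    have hX3mem : X3 ∈ 𝒜 :=
      𝒜.sub_mem (𝒜.sub_mem (𝒜.sub_mem (𝒜.add_mem (𝒜.pow_mem hLmem 2)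
        (𝒜.mul_mem (mltw_const_mem 𝒜 ha₁) hLmem)) (mltw_const_mem 𝒜 ha₂)) h1x) h2x
    have e : (fun x => mltwPY (Pf₁ x + Pf₂ x)) =
        -(L * (X3 - (fun x => mltwPX (Pf₁ x))) + (fun x => mltwPY (Pf₁ x))) -
          (fun _ => E.a₁) * X3 - (fun _ => E.a₃) := by
      funext x
      rw [(key x).2.2]
      rfl
    rw [e]
    exact 𝒜.sub_mem (𝒜.sub_mem (𝒜.neg_mem (𝒜.add_mem (𝒜.mul_mem hLmem (𝒜.sub_mem hX3mem h1x))
      h1y)) (𝒜.mul_mem (mltw_const_mem 𝒜 ha₁) hX3mem)) (mltw_const_mem 𝒜 ha₃)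

end Fermat.Agent.MLT
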