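/-
MLT, stream [W] (helper8), file 1: **compatible frames of the `p`-power torsion** of an abelian
group `M` with `#M[p^j] = p^(2j)` for all `j`, and integer matrices of additive endomorphisms.

* `mltw_frame_lift` : a frame of `M[p^n]` lifts along multiplication by `p` to a frame of
  `M[p^(n+1)]`;
* `MltwFrames M p` : a compatible system of frames `(e₁ n, e₂ n)` of `M[p^n]`, `p • e n.succ = e n`;
  `mltw_exists_frames`;
* `MltwRepr e₁ e₂ φ A` : the integer matrix `A` represents the additive endomorphism `φ` on the pair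
  `(e₁, e₂)`; existence, uniqueness modulo `q`, products, compatibility with the levels.
-/
import Mathlib
import Fermat.Agent.Lib.ET.TorsionFrame

set_option autoImplicit false
set_option linter.unusedSectionVars false
set_option linter.unusedVariables false
set_option linter.style.haveILetI false

namespace Fermat.Agent.MLT

open Fermat.Agent.ET

variable {M : Type*} [AddCommGroup M]

/-- the trivial frame of level `1` -/
theorem mltw_frame_zero (p : ℕ) : EtfFrame M (p ^ 0) (0 : M) 0 := by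
  refine ⟨by simp, by simp, ?_, ?_⟩
  · intro x hx
    refine ⟨0, 0, ?_⟩
    simpa using hx
  · intro u v _
    simp

/-- **any lifts of a frame of level `p ^ n`, `n > 0`, form a frame of level `p ^ (n + 1)`** -/
theorem mltw_frame_of_lift (p : ℕ) [Fact p.Prime] {n : ℕ} (hn : 0 < n) {e₁ e₂ f₁ f₂ : M}
    (F : EtfFrame M (p ^ n) e₁ e₂) (hf₁ : p • f₁ = e₁) (hf₂ : p • f₂ = e₂) :
    EtfFrame M (p ^ (n + 1)) f₁ f₂ := by
  have hp : p.Prime := Fact.out
  have hf₁t : (p ^ (n + 1)) • f₁ = 0 := by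
    rw [pow_succ, mul_smul, hf₁, F.tor₁]
  have hf₂t : (p ^ (n + 1)) • f₂ = 0 := by
    rw [pow_succ, mul_smul, hf₂, F.tor₂]
  refine ⟨hf₁t, hf₂t, ?_, ?_⟩
  · -- span
    intro x hx
    have hpx : (p ^ n) • (p • x) = 0 := by
      rw [← mul_smul, ← pow_succ]; exact hx
    obtain ⟨u', v', huv⟩ := F.span (p • x) hpx
    set y : M := x - (u' • f₁ + v' • f₂) with hy
    have hpy : p • y = 0 := by
      rw [hy, smul_sub, huv, smul_add, smul_comm p u' f₁, smul_comm p v' f₂, hf₁, hf₂, sub_self]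
    have hpy' : (p ^ n) • y = 0 := by
      obtain ⟨k, rfl⟩ : ∃ k, n = k + 1 := ⟨n - 1, by omega⟩
      rw [pow_succ, mul_smul, hpy, smul_zero]
    obtain ⟨a, b, hab⟩ := F.span y hpy'
    refine ⟨u' + a * p, v' + b * p, ?_⟩
    have hx' : x = y + (u' • f₁ + v' • f₂) := by rw [hy]; abel
    rw [hx', hab, ← hf₁, ← hf₂, add_smul, add_smul, mul_smul, mul_smul, natCast_zsmul,
      natCast_zsmul]
    abel
  · -- independence
    intro u v huv
    have hind : ∀ u v : ℤ, u • ((p ^ (n + 1 - 1)) • f₁) + v • ((p ^ (n + 1 - 1)) • f₂) = 0 →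
        (p : ℤ) ∣ u ∧ (p : ℤ) ∣ v := by
      intro u v h
      obtain ⟨k, rfl⟩ : ∃ k, n = k + 1 := ⟨n - 1, by omega⟩
      have e : ∀ g g' : M, p • g = g' → (p ^ (k + 1 + 1 - 1)) • g = (p ^ k) • g' := by
        intro g g' hg
        rw [← hg, ← mul_smul, ← pow_succ]
        rfl
      rw [e f₁ e₁ hf₁, e f₂ e₂ hf₂, ← natCast_zsmul e₁ (p ^ k), ← natCast_zsmul e₂ (p ^ k),
        ← mul_smul, ← mul_smul] at h
      obtain ⟨d1, d2⟩ := F.indep _ _ h
      have hpk : ((p ^ k : ℕ) : ℤ) ≠ 0 := by exact_mod_cast pow_ne_zero k hp.ne_zero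
      constructor
      · have : ((p ^ k : ℕ) : ℤ) * (p : ℤ) ∣ ((p ^ k : ℕ) : ℤ) * u := by
          have h' : ((p ^ (k + 1) : ℕ) : ℤ) = ((p ^ k : ℕ) : ℤ) * (p : ℤ) := by push_cast; ring
          rw [← h', mul_comm]; exact d1
        exact (mul_dvd_mul_iff_left hpk).mp this
      · have : ((p ^ k : ℕ) : ℤ) * (p : ℤ) ∣ ((p ^ k : ℕ) : ℤ) * v := by
          have h' : ((p ^ (k + 1) : ℕ) : ℤ) = ((p ^ k : ℕ) : ℤ) * (p : ℤ) := by push_cast; ring
          rw [← h', mul_comm]; exact d2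
        exact (mul_dvd_mul_iff_left hpk).mp this
    exact etf_indep_lift (N := n + 1) hind huv

/-- multiplication by `p` from `M[p^(n+1)]` onto `M[p^n]` is surjective -/
theorem mltw_exists_lift (p : ℕ) [Fact p.Prime]
    (hcard : ∀ j : ℕ, Nat.card {P : M // (p ^ j) • P = 0} = p ^ (2 * j))
    {n : ℕ} {e : M} (he : (p ^ n) • e = 0) : ∃ f : M, p • f = e := by
  have hp : p.Prime := Fact.out
  have hc : ∀ j : ℕ, Nat.card (etfTor M (p ^ j)) = p ^ (2 * j) := fun j => by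
    rw [etfTor_card]; exact hcard j
  have hc1 : Nat.card (etfTor M p) = p ^ 2 := by
    have := hc 1
    rwa [pow_one, mul_one] at this
  have hmul : Nat.card (etfTor M (p * p ^ n)) =
      Nat.card (etfTor M p) * Nat.card (etfTor M (p ^ n)) := by
    rw [← pow_succ', hc, hc, hc1, ← pow_add]
    congr 1
    ring
  have hfin : Nat.card (etfTor M (p * p ^ n)) ≠ 0 := by
    rw [← pow_succ', hc]
    exact pow_ne_zero _ hp.ne_zero
  have ha : Nat.card (etfTor M p) ≠ 0 := by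
    rw [hc1]; exact pow_ne_zero _ hp.ne_zero
  obtain ⟨f, -, hf⟩ := etf_smul_surj p (p ^ n) hfin hmul ha he
  exact ⟨f, hf⟩

/-- **lifting a frame one level up** -/
theorem mltw_frame_lift (p : ℕ) [Fact p.Prime]
    (hcard : ∀ j : ℕ, Nat.card {P : M // (p ^ j) • P = 0} = p ^ (2 * j))
    {n : ℕ} {e₁ e₂ : M} (F : EtfFrame M (p ^ n) e₁ e₂) :
    ∃ f₁ f₂ : M, EtfFrame M (p ^ (n + 1)) f₁ f₂ ∧ p • f₁ = e₁ ∧ p • f₂ = e₂ := by
  have hp : p.Prime := Fact.out
  rcases Nat.eq_zero_or_pos n with rfl | hn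
  · -- level `0`: any frame of `M[p]`
    obtain ⟨f₁, f₂, G⟩ := etf_exists_frame (M := M) p 1 (fun j _ => hcard j)
    have h1 : e₁ = 0 := by simpa using F.tor₁
    have h2 : e₂ = 0 := by simpa using F.tor₂
    refine ⟨f₁, f₂, by simpa using G, ?_, ?_⟩
    · rw [h1]; simpa using G.tor₁
    · rw [h2]; simpa using G.tor₂
  obtain ⟨f₁, hf₁⟩ := mltw_exists_lift p hcard F.tor₁
  obtain ⟨f₂, hf₂⟩ := mltw_exists_lift p hcard F.tor₂
  exact ⟨f₁, f₂, mltw_frame_of_lift p hn F hf₁ hf₂, hf₁, hf₂⟩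

/-- a compatible system of frames of the `p`-power torsion -/
structure MltwFrames (M : Type*) [AddCommGroup M] (p : ℕ) where
  /-- the first vectors -/
  e₁ : ℕ → M
  /-- the second vectors -/
  e₂ : ℕ → M
  frame : ∀ n, EtfFrame M (p ^ n) (e₁ n) (e₂ n)
  compat₁ : ∀ n, p • e₁ (n + 1) = e₁ n
  compat₂ : ∀ n, p • e₂ (n + 1) = e₂ n

/-- the recursive choice of the frames -/
noncomputable def mltwFrameSeq (p : ℕ) [Fact p.Prime]
    (hcard : ∀ j : ℕ, Nat.card {P : M // (p ^ j) • P = 0} = p ^ (2 * j)) :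
    (n : ℕ) → {e : M × M // EtfFrame M (p ^ n) e.1 e.2}
  | 0 => ⟨(0, 0), mltw_frame_zero p⟩
  | n + 1 =>
    let prev := mltwFrameSeq p hcard n
    ⟨(Classical.choose (mltw_frame_lift p hcard prev.2),
      Classical.choose (Classical.choose_spec (mltw_frame_lift p hcard prev.2))),
      (Classical.choose_spec (Classical.choose_spec (mltw_frame_lift p hcard prev.2))).1⟩

theorem mltwFrameSeq_compat (p : ℕ) [Fact p.Prime]
    (hcard : ∀ j : ℕ, Nat.card {P : M // (p ^ j) • P = 0} = p ^ (2 * j)) (n : ℕ) :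
    p • (mltwFrameSeq p hcard (n + 1)).1.1 = (mltwFrameSeq p hcard n).1.1 ∧
    p • (mltwFrameSeq p hcard (n + 1)).1.2 = (mltwFrameSeq p hcard n).1.2 :=
  (Classical.choose_spec (Classical.choose_spec
    (mltw_frame_lift p hcard (mltwFrameSeq p hcard n).2))).2

/-- **existence of compatible frames** -/
noncomputable def mltwFramesOf (p : ℕ) [Fact p.Prime]
    (hcard : ∀ j : ℕ, Nat.card {P : M // (p ^ j) • P = 0} = p ^ (2 * j)) : MltwFrames M p where
  e₁ n := (mltwFrameSeq p hcard n).1.1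
  e₂ n := (mltwFrameSeq p hcard n).1.2
  frame n := (mltwFrameSeq p hcard n).2
  compat₁ n := (mltwFrameSeq_compat p hcard n).1
  compat₂ n := (mltwFrameSeq_compat p hcard n).2

namespace MltwFrames

variable {p : ℕ} (F : MltwFrames M p)

theorem pow_smul_e₁ (n k : ℕ) : (p ^ k) • F.e₁ (n + k) = F.e₁ n := by
  induction k with
  | zero => simp
  | succ k ih =>
    rw [pow_succ, mul_smul, ← add_assoc, F.compat₁, ih]

theorem pow_smul_e₂ (n k : ℕ) : (p ^ k) • F.e₂ (n + k) = F.e₂ n := by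
  induction k with
  | zero => simp
  | succ k ih =>
    rw [pow_succ, mul_smul, ← add_assoc, F.compat₂, ih]

end MltwFrames

/-! ### Integer matrices of additive endomorphisms -/

/-- the integer matrix `A` represents `φ` on the pair `(e₁, e₂)` -/
def MltwRepr (e₁ e₂ : M) (φ : M →+ M) (A : Matrix (Fin 2) (Fin 2) ℤ) : Prop :=
  φ e₁ = A 0 0 • e₁ + A 1 0 • e₂ ∧ φ e₂ = A 0 1 • e₁ + A 1 1 • e₂

theorem mltwRepr_one (e₁ e₂ : M) : MltwRepr e₁ e₂ (AddMonoidHom.id M) 1 := by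
  constructor <;> simp

/-- existence of a representing matrix -/
theorem mltw_exists_repr {q : ℕ} {e₁ e₂ : M} (F : EtfFrame M q e₁ e₂) (φ : M →+ M) :
    ∃ A : Matrix (Fin 2) (Fin 2) ℤ, MltwRepr e₁ e₂ φ A := by
  have h1 : q • φ e₁ = 0 := by rw [← map_nsmul, F.tor₁, map_zero]
  have h2 : q • φ e₂ = 0 := by rw [← map_nsmul, F.tor₂, map_zero]
  obtain ⟨a, c, hac⟩ := F.span _ h1
  obtain ⟨b, d, hbd⟩ := F.span _ h2
  exact ⟨!![a, b; c, d], by simpa using hac, by simpa using hbd⟩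

/-- uniqueness modulo `q` -/
theorem mltwRepr_unique {q : ℕ} {e₁ e₂ : M} (F : EtfFrame M q e₁ e₂) {φ : M →+ M}
    {A B : Matrix (Fin 2) (Fin 2) ℤ} (hA : MltwRepr e₁ e₂ φ A) (hB : MltwRepr e₁ e₂ φ B)
    (i j : Fin 2) : (q : ℤ) ∣ A i j - B i j := by
  have h1 : (A 0 0 - B 0 0) • e₁ + (A 1 0 - B 1 0) • e₂ = 0 := by
    rw [sub_smul, sub_smul]
    have := hA.1.symm.trans hB.1
    rw [← sub_eq_zero] at this
    rw [← this]
    abel
  have h2 : (A 0 1 - B 0 1) • e₁ + (A 1 1 - B 1 1) • e₂ = 0 := by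
    rw [sub_smul, sub_smul]
    have := hA.2.symm.trans hB.2
    rw [← sub_eq_zero] at this
    rw [← this]
    abel
  obtain ⟨d00, d10⟩ := F.indep _ _ h1
  obtain ⟨d01, d11⟩ := F.indep _ _ h2
  fin_cases i <;> fin_cases j <;> assumption

/-- products -/
theorem MltwRepr.mul {e₁ e₂ : M} {φ ψ : M →+ M} {A B : Matrix (Fin 2) (Fin 2) ℤ}
    (hA : MltwRepr e₁ e₂ φ A) (hB : MltwRepr e₁ e₂ ψ B) :
    MltwRepr e₁ e₂ (φ.comp ψ) (A * B) := by
  constructor
  · rw [AddMonoidHom.comp_apply, hB.1, map_add, map_zsmul, map_zsmul, hA.1, hA.2,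
      Matrix.mul_apply, Matrix.mul_apply, Fin.sum_univ_two, Fin.sum_univ_two]
    simp only [smul_add, ← mul_smul, add_smul]
    rw [mul_comm (B 0 0) (A 0 0), mul_comm (B 0 0) (A 1 0), mul_comm (B 1 0) (A 0 1),
      mul_comm (B 1 0) (A 1 1)]
    abel
  · rw [AddMonoidHom.comp_apply, hB.2, map_add, map_zsmul, map_zsmul, hA.1, hA.2,
      Matrix.mul_apply, Matrix.mul_apply, Fin.sum_univ_two, Fin.sum_univ_two]
    simp only [smul_add, ← mul_smul, add_smul]
    rw [mul_comm (B 0 1) (A 0 0), mul_comm (B 0 1) (A 1 0), mul_comm (B 1 1) (A 0 1),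
      mul_comm (B 1 1) (A 1 1)]
    abel

/-- compatibility with the levels -/
theorem MltwRepr.smul {f₁ f₂ : M} {φ : M →+ M} {A : Matrix (Fin 2) (Fin 2) ℤ}
    (hA : MltwRepr f₁ f₂ φ A) (k : ℕ) : MltwRepr (k • f₁) (k • f₂) φ A := by
  constructor
  · rw [map_nsmul, hA.1, smul_add, smul_comm k (A 0 0) f₁, smul_comm k (A 1 0) f₂]
  · rw [map_nsmul, hA.2, smul_add, smul_comm k (A 0 1) f₁, smul_comm k (A 1 1) f₂]

end Fermat.Agent.MLT
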