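/-
MLT, stream [W] (helper8), file 2: **the `p`-adic matrices of a group acting on an abelian group
with a compatible system of frames of its `p`-power torsion**.

* `MltwCompat p` : the ring of compatible sequences in `∏ ZMod (p ^ n)`, `mltwCompatHom` its
  homomorphism to `ℤ_[p]` (`PadicInt.lift`);
* `mltwIntMat F g n` : chosen integer matrices of `g` on the frame of level `n`;
* `mltwMat F : G →* Matrix (Fin 2) (Fin 2) ℤ_[p]` : the `p`-adic matrices, with
  `mltwMat_spec` (congruent modulo `p ^ n` to an integer matrix representing `g` on the frame of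
  level `n`) and `mltwMat_repr` (every integer matrix congruent to it modulo `p ^ n` represents `g`).
-/
import Mathlib
import Fermat.Agent.Lib.MLT.Wloc.Frames

set_option autoImplicit false
set_option linter.unusedSectionVars false
set_option linter.unusedVariables false
set_option linter.style.haveILetI false

namespace Fermat.Agent.MLT

open Fermat.Agent.ET

/-! ### Compatible sequences -/

/-- the ring of compatible sequences in `∏ ZMod (p ^ n)` -/
def MltwCompat (p : ℕ) : Subring (∀ n : ℕ, ZMod (p ^ n)) where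
  carrier := {x | ∀ (m n : ℕ) (h : m ≤ n),
    ZMod.castHom (pow_dvd_pow p h) (ZMod (p ^ m)) (x n) = x m}
  mul_mem' := by
    intro a b ha hb m n h
    rw [Pi.mul_apply, map_mul, ha m n h, hb m n h, Pi.mul_apply]
  one_mem' := by
    intro m n h
    rw [Pi.one_apply, map_one, Pi.one_apply]
  add_mem' := by
    intro a b ha hb m n h
    rw [Pi.add_apply, map_add, ha m n h, hb m n h, Pi.add_apply]
  zero_mem' := by
    intro m n h
    rw [Pi.zero_apply, map_zero, Pi.zero_apply]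
  neg_mem' := by
    intro a ha m n h
    rw [Pi.neg_apply, map_neg, ha m n h, Pi.neg_apply]

theorem mem_mltwCompat {p : ℕ} {x : ∀ n : ℕ, ZMod (p ^ n)} :
    x ∈ MltwCompat p ↔ ∀ (m n : ℕ) (h : m ≤ n),
      ZMod.castHom (pow_dvd_pow p h) (ZMod (p ^ m)) (x n) = x m := Iff.rfl

/-- the projections of the ring of compatible sequences -/
def mltwCompatProj (p : ℕ) (n : ℕ) : MltwCompat p →+* ZMod (p ^ n) :=
  (Pi.evalRingHom (fun n : ℕ => ZMod (p ^ n)) n).comp (MltwCompat p).subtype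

theorem mltwCompatProj_apply (p n : ℕ) (x : MltwCompat p) : mltwCompatProj p n x = x.1 n := rfl

theorem mltwCompatProj_compat (p : ℕ) (k1 k2 : ℕ) (hk : k1 ≤ k2) :
    (ZMod.castHom (pow_dvd_pow p hk) (ZMod (p ^ k1))).comp (mltwCompatProj p k2) =
      mltwCompatProj p k1 := by
  ext x
  exact x.2 k1 k2 hk

/-- the homomorphism from the compatible sequences to `ℤ_[p]` -/
noncomputable def mltwCompatHom (p : ℕ) [Fact p.Prime] : MltwCompat p →+* ℤ_[p] :=
  PadicInt.lift (mltwCompatProj_compat p)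

theorem mltwCompatHom_spec (p : ℕ) [Fact p.Prime] (n : ℕ) (x : MltwCompat p) :
    PadicInt.toZModPow n (mltwCompatHom p x) = x.1 n := by
  have := PadicInt.lift_spec (mltwCompatProj_compat p) n
  exact RingHom.congr_fun this x

/-- a compatible sequence of integers -/
def mltwCompatOfInt (p : ℕ) (a : ℕ → ℤ)
    (ha : ∀ m n : ℕ, m ≤ n → ((p ^ m : ℕ) : ℤ) ∣ a n - a m) : MltwCompat p :=
  ⟨fun n => ((a n : ℤ) : ZMod (p ^ n)), by
    intro m n h
    rw [map_intCast, eq_comm, ZMod.intCast_eq_intCast_iff_dvd_sub]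
    exact ha m n h⟩

theorem mltwCompatOfInt_val (p : ℕ) (a : ℕ → ℤ)
    (ha : ∀ m n : ℕ, m ≤ n → ((p ^ m : ℕ) : ℤ) ∣ a n - a m) (n : ℕ) :
    (mltwCompatOfInt p a ha).1 n = ((a n : ℤ) : ZMod (p ^ n)) := rfl

/-! ### Congruent matrices represent the same endomorphism -/

variable {M : Type*} [AddCommGroup M]

theorem MltwRepr.congr {q : ℕ} {e₁ e₂ : M} {φ : M →+ M} {A B : Matrix (Fin 2) (Fin 2) ℤ}
    (hA : MltwRepr e₁ e₂ φ A) (h1 : q • e₁ = 0) (h2 : q • e₂ = 0)
    (hAB : ∀ i j, (q : ℤ) ∣ A i j - B i j) : MltwRepr e₁ e₂ φ B := by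
  have key : ∀ (e : M), q • e = 0 → ∀ i j, A i j • e = B i j • e := by
    intro e he i j
    obtain ⟨c, hc⟩ := hAB i j
    have : A i j = B i j + q * c := by rw [← hc]; ring
    rw [this, add_smul, mul_smul, natCast_zsmul, smul_comm, he, smul_zero, add_zero]
  constructor
  · rw [hA.1, key e₁ h1, key e₂ h2]
  · rw [hA.2, key e₁ h1, key e₂ h2]

/-! ### The matrices -/

variable {G : Type*} [Group G] [DistribMulAction G M] {p : ℕ}

/-- the chosen integer matrix of `g` on the frame of level `n` -/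
noncomputable def mltwIntMat (F : MltwFrames M p) (g : G) (n : ℕ) : Matrix (Fin 2) (Fin 2) ℤ :=
  Classical.choose (mltw_exists_repr (F.frame n) (DistribSMul.toAddMonoidHom M g))

theorem mltwIntMat_spec (F : MltwFrames M p) (g : G) (n : ℕ) :
    MltwRepr (F.e₁ n) (F.e₂ n) (DistribSMul.toAddMonoidHom M g) (mltwIntMat F g n) :=
  Classical.choose_spec (mltw_exists_repr (F.frame n) (DistribSMul.toAddMonoidHom M g))

/-- an integer matrix representing `g` at level `n` represents it at every level `m ≤ n` -/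
theorem MltwFrames.repr_of_le (F : MltwFrames M p) {φ : M →+ M} {A : Matrix (Fin 2) (Fin 2) ℤ}
    {m n : ℕ} (h : m ≤ n) (hA : MltwRepr (F.e₁ n) (F.e₂ n) φ A) :
    MltwRepr (F.e₁ m) (F.e₂ m) φ A := by
  obtain ⟨k, rfl⟩ := Nat.exists_eq_add_of_le h
  have := hA.smul (p ^ k)
  rwa [F.pow_smul_e₁, F.pow_smul_e₂] at this

theorem mltwIntMat_compat (F : MltwFrames M p) (g : G) (m n : ℕ) (h : m ≤ n) (i j : Fin 2) :
    ((p ^ m : ℕ) : ℤ) ∣ mltwIntMat F g n i j - mltwIntMat F g m i j :=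
  mltwRepr_unique (F.frame m) (F.repr_of_le h (mltwIntMat_spec F g n)) (mltwIntMat_spec F g m) i j

theorem mltwIntMat_mul (F : MltwFrames M p) (g h : G) (n : ℕ) (i j : Fin 2) :
    ((p ^ n : ℕ) : ℤ) ∣ mltwIntMat F (g * h) n i j - (mltwIntMat F g n * mltwIntMat F h n) i j := by
  have h1 := (mltwIntMat_spec F g n).mul (mltwIntMat_spec F h n)
  have h2 : (DistribSMul.toAddMonoidHom M g).comp (DistribSMul.toAddMonoidHom M h) =
      DistribSMul.toAddMonoidHom M (g * h) := by
    ext x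
    simp [mul_smul]
  rw [h2] at h1
  exact mltwRepr_unique (F.frame n) (mltwIntMat_spec F (g * h) n) h1 i j

theorem mltwIntMat_one (F : MltwFrames M p) (n : ℕ) (i j : Fin 2) :
    ((p ^ n : ℕ) : ℤ) ∣ mltwIntMat F (1 : G) n i j - (1 : Matrix (Fin 2) (Fin 2) ℤ) i j := by
  have h1 := mltwRepr_one (F.e₁ n) (F.e₂ n)
  have h2 : AddMonoidHom.id M = DistribSMul.toAddMonoidHom M (1 : G) := by
    ext x
    simp
  rw [h2] at h1
  exact mltwRepr_unique (F.frame n) (mltwIntMat_spec F (1 : G) n) h1 i j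

/-- the matrices with entries in the ring of compatible sequences -/
noncomputable def mltwMatC (F : MltwFrames M p) (g : G) :
    Matrix (Fin 2) (Fin 2) (MltwCompat p) :=
  fun i j => mltwCompatOfInt p (fun n => mltwIntMat F g n i j)
    (fun m n h => mltwIntMat_compat F g m n h i j)

theorem mltwMatC_val (F : MltwFrames M p) (g : G) (i j : Fin 2) (n : ℕ) :
    (mltwMatC F g i j).1 n = ((mltwIntMat F g n i j : ℤ) : ZMod (p ^ n)) := rfl

theorem mltwMatC_mul (F : MltwFrames M p) (g h : G) :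
    mltwMatC F (g * h) = mltwMatC F g * mltwMatC F h := by
  ext i j n
  rw [mltwMatC_val, Matrix.mul_apply, Fin.sum_univ_two, Subring.coe_add, Subring.coe_mul,
    Subring.coe_mul, Pi.add_apply, Pi.mul_apply, Pi.mul_apply, mltwMatC_val, mltwMatC_val,
    mltwMatC_val, mltwMatC_val, ← Int.cast_mul, ← Int.cast_mul, ← Int.cast_add,
    ZMod.intCast_eq_intCast_iff_dvd_sub]
  have := mltwIntMat_mul F g h n i j
  rw [Matrix.mul_apply, Fin.sum_univ_two] at this
  rw [← dvd_neg, neg_sub]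
  exact this

theorem mltwMatC_one (F : MltwFrames M p) : mltwMatC F (1 : G) = 1 := by
  ext i j n
  rw [mltwMatC_val]
  have h := mltwIntMat_one (G := G) F n i j
  have h' : (((1 : Matrix (Fin 2) (Fin 2) (MltwCompat p)) i j : MltwCompat p) :
      ∀ n : ℕ, ZMod (p ^ n)) n = (((1 : Matrix (Fin 2) (Fin 2) ℤ) i j : ℤ) : ZMod (p ^ n)) := by
    by_cases hij : i = j
    · subst hij
      simp
    · simp [Matrix.one_apply_ne hij]
  rw [h', ZMod.intCast_eq_intCast_iff_dvd_sub, ← dvd_neg, neg_sub]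
  exact h

variable [Fact p.Prime]

/-- **the `p`-adic matrices** of the action of `G` on the frames -/
noncomputable def mltwMat (F : MltwFrames M p) : G →* Matrix (Fin 2) (Fin 2) ℤ_[p] where
  toFun g := (mltwMatC F g).map (mltwCompatHom p)
  map_one' := by
    rw [mltwMatC_one]
    exact (RingHom.mapMatrix (mltwCompatHom p)).map_one
  map_mul' g h := by
    rw [mltwMatC_mul]
    exact (RingHom.mapMatrix (mltwCompatHom p)).map_mul _ _

theorem mltwMat_apply (F : MltwFrames M p) (g : G) (i j : Fin 2) :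
    mltwMat F g i j = mltwCompatHom p (mltwMatC F g i j) := rfl

theorem mltwMat_toZModPow (F : MltwFrames M p) (g : G) (n : ℕ) (i j : Fin 2) :
    PadicInt.toZModPow n (mltwMat F g i j) = ((mltwIntMat F g n i j : ℤ) : ZMod (p ^ n)) := by
  rw [mltwMat_apply, mltwCompatHom_spec, mltwMatC_val]

/-- **specification**: the `p`-adic matrix of `g` is congruent modulo `p ^ n` to an integer matrix
representing `g` on the frame of level `n` -/
theorem mltwMat_spec (F : MltwFrames M p) (g : G) (n : ℕ) :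
    ∃ A : Matrix (Fin 2) (Fin 2) ℤ,
      MltwRepr (F.e₁ n) (F.e₂ n) (DistribSMul.toAddMonoidHom M g) A ∧
      ∀ i j, mltwMat F g i j - ((A i j : ℤ) : ℤ_[p]) ∈ Ideal.span {((p ^ n : ℕ) : ℤ_[p])} := by
  refine ⟨mltwIntMat F g n, mltwIntMat_spec F g n, fun i j => ?_⟩
  rw [Nat.cast_pow, ← PadicInt.ker_toZModPow, RingHom.mem_ker, map_sub, map_intCast,
    mltwMat_toZModPow, sub_self]

/-- every integer matrix congruent to the `p`-adic matrix of `g` modulo `p ^ n` represents `g` on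
the frame of level `n` -/
theorem mltwMat_repr (F : MltwFrames M p) (g : G) (n : ℕ) (B : Matrix (Fin 2) (Fin 2) ℤ)
    (hB : ∀ i j, mltwMat F g i j - ((B i j : ℤ) : ℤ_[p]) ∈ Ideal.span {((p ^ n : ℕ) : ℤ_[p])}) :
    MltwRepr (F.e₁ n) (F.e₂ n) (DistribSMul.toAddMonoidHom M g) B := by
  refine (mltwIntMat_spec F g n).congr (F.frame n).tor₁ (F.frame n).tor₂ fun i j => ?_
  have h := hB i j
  rw [Nat.cast_pow, ← PadicInt.ker_toZModPow, RingHom.mem_ker, map_sub, map_intCast,
    mltwMat_toZModPow, sub_eq_zero, ZMod.intCast_eq_intCast_iff_dvd_sub] at h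
  rw [← dvd_neg, neg_sub]
  exact h

/-- the `p`-adic matrix is determined modulo `p ^ n` by any representing integer matrix -/
theorem mltwMat_sub_mem_of_repr (F : MltwFrames M p) (g : G) (n : ℕ)
    {B : Matrix (Fin 2) (Fin 2) ℤ}
    (hB : MltwRepr (F.e₁ n) (F.e₂ n) (DistribSMul.toAddMonoidHom M g) B) (i j : Fin 2) :
    mltwMat F g i j - ((B i j : ℤ) : ℤ_[p]) ∈ Ideal.span {((p ^ n : ℕ) : ℤ_[p])} := by
  rw [Nat.cast_pow, ← PadicInt.ker_toZModPow, RingHom.mem_ker, map_sub, map_intCast,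
    mltwMat_toZModPow, sub_eq_zero, ZMod.intCast_eq_intCast_iff_dvd_sub, ← dvd_neg, neg_sub]
  exact mltwRepr_unique (F.frame n) (mltwIntMat_spec F g n) hB i j

/-- an element fixing the frame of level `n` has `p`-adic matrix `≡ 1` modulo `p ^ n` -/
theorem mltwMat_sub_one_mem (F : MltwFrames M p) (g : G) (n : ℕ)
    (h1 : g • F.e₁ n = F.e₁ n) (h2 : g • F.e₂ n = F.e₂ n) (i j : Fin 2) :
    (mltwMat F g - 1) i j ∈ Ideal.span {((p ^ n : ℕ) : ℤ_[p])} := by
  have hB : MltwRepr (F.e₁ n) (F.e₂ n) (DistribSMul.toAddMonoidHom M g) 1 := by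
    constructor
    · show g • F.e₁ n = _
      rw [h1]
      simp
    · show g • F.e₂ n = _
      rw [h2]
      simp
  have := mltwMat_sub_mem_of_repr F g n hB i j
  rw [Matrix.sub_apply]
  convert this using 2
  by_cases hij : i = j
  · subst hij
    simp
  · simp [Matrix.one_apply_ne hij]

/-- an element of `ℤ_[p]` divisible by all powers of `p` vanishes -/
theorem mltw_padic_eq_zero {x : ℤ_[p]}
    (hx : ∀ n : ℕ, x ∈ Ideal.span {((p ^ n : ℕ) : ℤ_[p])}) : x = 0 := by
  by_contra h0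
  obtain ⟨k, hk⟩ : ∃ k : ℕ, ‖x‖ = (p : ℝ) ^ (-(k : ℤ)) :=
    ⟨x.valuation, PadicInt.norm_eq_zpow_neg_valuation h0⟩
  have h1 := hx (k + 1)
  rw [Nat.cast_pow, ← PadicInt.norm_le_pow_iff_mem_span_pow, hk] at h1
  have hp1 : (1 : ℝ) < p := by exact_mod_cast (Fact.out : p.Prime).one_lt
  have := (zpow_le_zpow_iff_right₀ hp1).mp h1
  push_cast at this
  omega

/-- an element fixing all the frames has `p`-adic matrix `1` -/
theorem mltwMat_eq_one (F : MltwFrames M p) (g : G)
    (h1 : ∀ n, g • F.e₁ n = F.e₁ n) (h2 : ∀ n, g • F.e₂ n = F.e₂ n) : mltwMat F g = 1 := by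
  ext i j
  have := mltw_padic_eq_zero (x := (mltwMat F g - 1) i j)
    (fun n => mltwMat_sub_one_mem F g n (h1 n) (h2 n) i j)
  rw [Matrix.sub_apply, sub_eq_zero] at this
  exact this

/-- trace and determinant modulo `p ^ n` -/
theorem mltwMat_trace_det (F : MltwFrames M p) (g : G) (n : ℕ)
    {B : Matrix (Fin 2) (Fin 2) ℤ}
    (hB : MltwRepr (F.e₁ n) (F.e₂ n) (DistribSMul.toAddMonoidHom M g) B) :
    (mltwMat F g).trace - ((B.trace : ℤ) : ℤ_[p]) ∈ Ideal.span {((p ^ n : ℕ) : ℤ_[p])} ∧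
    (mltwMat F g).det - ((B.det : ℤ) : ℤ_[p]) ∈ Ideal.span {((p ^ n : ℕ) : ℤ_[p])} := by
  have h := mltwMat_sub_mem_of_repr F g n hB
  set I := Ideal.span {((p ^ n : ℕ) : ℤ_[p])} with hI
  constructor
  · rw [Matrix.trace_fin_two, Matrix.trace_fin_two]
    have e : mltwMat F g 0 0 + mltwMat F g 1 1 - ((B 0 0 + B 1 1 : ℤ) : ℤ_[p]) =
        (mltwMat F g 0 0 - ((B 0 0 : ℤ) : ℤ_[p])) + (mltwMat F g 1 1 - ((B 1 1 : ℤ) : ℤ_[p])) := by
      push_cast
      ring
    rw [e]
    exact I.add_mem (h 0 0) (h 1 1)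
  · rw [Matrix.det_fin_two, Matrix.det_fin_two]
    have e : mltwMat F g 0 0 * mltwMat F g 1 1 - mltwMat F g 0 1 * mltwMat F g 1 0 -
        ((B 0 0 * B 1 1 - B 0 1 * B 1 0 : ℤ) : ℤ_[p]) =
        mltwMat F g 0 0 * (mltwMat F g 1 1 - ((B 1 1 : ℤ) : ℤ_[p])) +
        (mltwMat F g 0 0 - ((B 0 0 : ℤ) : ℤ_[p])) * ((B 1 1 : ℤ) : ℤ_[p]) -
        (mltwMat F g 0 1 * (mltwMat F g 1 0 - ((B 1 0 : ℤ) : ℤ_[p])) +
        (mltwMat F g 0 1 - ((B 0 1 : ℤ) : ℤ_[p])) * ((B 1 0 : ℤ) : ℤ_[p])) := by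
      push_cast
      ring
    rw [e]
    exact I.sub_mem (I.add_mem (I.mul_mem_left _ (h 1 1)) (I.mul_mem_right _ (h 0 0)))
      (I.add_mem (I.mul_mem_left _ (h 1 0)) (I.mul_mem_right _ (h 0 1)))

end Fermat.Agent.MLT
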