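/-
MLT, stream [W] (helper8), file 3: **the `p`-adic Tate module of `W`** as a `GaloisRepAdic`.

* `MltwPt W` : the group `W(ℚ̄)`; `mltw_card` : its torsion counts;
* `mltwTateMat W p F` : the `p`-adic matrices of `G_ℚ` on a compatible system `F` of frames of
  `W[p^∞]`; `mltwTateMat_cts` : continuity;
* `mltwTateRep W p F 𝒪 hp` : the Tate module with coefficients in a complete local ring `𝒪` with
  `p ∈ 𝔪`;
* `mltwTateRep_match` : it matches `W` (`S58Match`).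
-/
import Mathlib
import Fermat.Agent.Lib.MLT.Wloc.PadicMat
import Fermat.Agent.Lib.S58.Match
import Fermat.Agent.Lib.S53.MatInterface
import Fermat.Agent.Lib.T1.Asm.PadicAlgebra

set_option autoImplicit false
set_option linter.unusedSectionVars false
set_option linter.unusedVariables false
set_option linter.style.haveILetI false

namespace Fermat.Agent.MLT

open Fermat.Agent.ET Fermat.Agent.S58 Fermat.Agent.S53Lib Fermat.Agent.T1 IsLocalRing
open WeierstrassCurve WeierstrassCurve.Affine.Point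
open scoped WeierstrassCurve.Affine

local notation "Qb" => AlgebraicClosure ℚ
local notation "GQ" => (AlgebraicClosure ℚ ≃ₐ[ℚ] AlgebraicClosure ℚ)

/-- the group `W(ℚ̄)` -/
noncomputable abbrev MltwPt (W : WeierstrassCurve ℤ) := ((s58E W)⁄Qb).Point

/-- the torsion counts of `W(ℚ̄)` -/
theorem mltw_card (W : WeierstrassCurve ℤ) (hΔ : W.Δ ≠ 0) (p : ℕ) [Fact p.Prime] (j : ℕ) :
    Nat.card {P : MltwPt W // (p ^ j) • P = 0} = p ^ (2 * j) := by
  rw [s58m_card W hΔ (pow_pos (Fact.out : p.Prime).pos j), ← pow_mul, mul_comm]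

/-- a compatible system of frames of `W[p^∞]` exists -/
noncomputable def mltwTateFrames (W : WeierstrassCurve ℤ) (hΔ : W.Δ ≠ 0) (p : ℕ) [Fact p.Prime] :
    MltwFrames (MltwPt W) p :=
  mltwFramesOf p (mltw_card W hΔ p)

/-- the `p`-adic matrices of `G_ℚ` on `W[p^∞]` with respect to the frames `F` -/
noncomputable def mltwTateMat (W : WeierstrassCurve ℤ) (p : ℕ) [Fact p.Prime]
    (F : MltwFrames (MltwPt W) p) : GQ →* Matrix (Fin 2) (Fin 2) ℤ_[p] :=
  mltwMat F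

/-- an element of `G_ℚ` acting trivially on `W[p ^ n]` fixes the frame of level `n` -/
theorem mltw_fix_frame (W : WeierstrassCurve ℤ) {p : ℕ} (F : MltwFrames (MltwPt W) p) (n : ℕ)
    (σ : GQ) (hσ : ∀ P : S58Tors W (p ^ n), σ • P = P) :
    σ • F.e₁ n = F.e₁ n ∧ σ • F.e₂ n = F.e₂ n := by
  have h1 : F.e₁ n ∈ Submodule.torsionBy ℤ (MltwPt W) ((p ^ n : ℕ) : ℤ) := by
    rw [Submodule.mem_torsionBy_iff, natCast_zsmul]
    exact (F.frame n).tor₁
  have h2 : F.e₂ n ∈ Submodule.torsionBy ℤ (MltwPt W) ((p ^ n : ℕ) : ℤ) := by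
    rw [Submodule.mem_torsionBy_iff, natCast_zsmul]
    exact (F.frame n).tor₂
  exact ⟨congrArg Subtype.val (hσ ⟨F.e₁ n, h1⟩), congrArg Subtype.val (hσ ⟨F.e₂ n, h2⟩)⟩

/-- **continuity** of the `p`-adic matrices -/
theorem mltwTateMat_cts (W : WeierstrassCurve ℤ) (hΔ : W.Δ ≠ 0) (p : ℕ) [Fact p.Prime]
    (F : MltwFrames (MltwPt W) p) : MatCts ℤ_[p] (mltwTateMat W p F) := by
  intro n
  have hp : p.Prime := Fact.out
  haveI : Finite (Fermat.Agent.S13Lib.Tors (s58E W) (p ^ n)) :=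
    s58m_finite W hΔ (pow_pos hp.pos n)
  obtain ⟨L, hL, -, h⟩ := Fermat.Agent.LR.lre_exists_level (s58E W) (p ^ n)
  refine ⟨L, hL, fun σ hσ i j => ?_⟩
  obtain ⟨h1, h2⟩ := mltw_fix_frame W F n σ (h σ hσ)
  have := mltwMat_sub_one_mem F σ n h1 h2 i j
  rw [PadicInt.maximalIdeal_eq_span_p, Ideal.span_singleton_pow]
  rwa [Nat.cast_pow] at this

/-- the matrix of `σ` on `W[q]` in the basis given by a frame -/
theorem mltw_toMatrix_of_repr (W : WeierstrassCurve ℤ) {q : ℕ} {e₁ e₂ : MltwPt W}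
    (σ : GQ) {A : Matrix (Fin 2) (Fin 2) ℤ}
    (hA : MltwRepr e₁ e₂ (DistribSMul.toAddMonoidHom (MltwPt W) σ) A)
    (b : Module.Basis (Fin 2) (ZMod q) (S58Tors W q))
    (hb0 : ((b 0 : S58Tors W q) : MltwPt W) = e₁) (hb1 : ((b 1 : S58Tors W q) : MltwPt W) = e₂) :
    LinearMap.toMatrix b b (s58Gal W q σ) = A.map (Int.castRingHom (ZMod q)) := by
  rw [← LinearMap.toMatrix_toLin b b (A.map (Int.castRingHom (ZMod q)))]
  congr 1
  refine b.ext fun j => ?_
  rw [Matrix.toLin_self, Fin.sum_univ_two, galoisRepModuleEnd_apply]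
  apply Subtype.ext
  simp only [Matrix.map_apply, Int.coe_castRingHom, Int.cast_smul_eq_zsmul]
  rw [Submodule.coe_add, Submodule.coe_smul, Submodule.coe_smul, hb0, hb1]
  fin_cases j
  · show σ • ((b 0 : S58Tors W q) : MltwPt W) = _
    rw [hb0]
    exact hA.1
  · show σ • ((b 1 : S58Tors W q) : MltwPt W) = _
    rw [hb1]
    exact hA.2

/-- trace and determinant of `σ` on `W[q]` from an integer matrix on a frame -/
theorem mltw_trace_det_of_repr (W : WeierstrassCurve ℤ) {q : ℕ} {e₁ e₂ : MltwPt W}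
    (Fr : EtfFrame (MltwPt W) q e₁ e₂) (σ : GQ) {A : Matrix (Fin 2) (Fin 2) ℤ}
    (hA : MltwRepr e₁ e₂ (DistribSMul.toAddMonoidHom (MltwPt W) σ) A) :
    LinearMap.trace (ZMod q) (S58Tors W q) (s58Gal W q σ) = ((A.trace : ℤ) : ZMod q) ∧
      LinearMap.det (s58Gal W q σ) = ((A.det : ℤ) : ZMod q) := by
  obtain ⟨b, hb0, hb1⟩ := etf_frame_basis (M := MltwPt W) Fr
  have hmat := mltw_toMatrix_of_repr W σ hA b hb0 hb1
  constructor
  · rw [LinearMap.trace_eq_matrix_trace (ZMod q) b, hmat, Matrix.trace_fin_two,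
      Matrix.trace_fin_two]
    simp
  · rw [← LinearMap.det_toMatrix b, hmat, Matrix.det_fin_two, Matrix.det_fin_two]
    simp

section Coeff

variable (p : ℕ) [Fact p.Prime] (𝒪 : Type) [CommRing 𝒪] [IsLocalRing 𝒪]
  [IsAdicComplete (maximalIdeal 𝒪) 𝒪] (hp : (p : 𝒪) ∈ maximalIdeal 𝒪)

/-- the canonical homomorphism `ℤ_[p] → 𝒪` is local -/
theorem mltw_padicHom_local : IsLocalHom (tePadicHom p 𝒪 hp) := by
  refine ⟨fun x hx => ?_⟩
  by_contra hnu
  have hx' : x ∈ maximalIdeal ℤ_[p] := (IsLocalRing.mem_maximalIdeal x).mpr hnu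
  rw [PadicInt.maximalIdeal_eq_span_p, Ideal.mem_span_singleton] at hx'
  obtain ⟨y, rfl⟩ := hx'
  rw [map_mul, map_natCast] at hx
  exact (IsLocalRing.mem_maximalIdeal _).mp (Ideal.mul_mem_right _ _ hp) hx

/-- the Tate module of `W` with coefficients in `𝒪` -/
noncomputable def mltwTateRep (W : WeierstrassCurve ℤ) (hΔ : W.Δ ≠ 0)
    (F : MltwFrames (MltwPt W) p) : GaloisRepAdic 𝒪 :=
  ofMat (mapMat (tePadicHom p 𝒪 hp) (mltwTateMat W p F))
    ((mltwTateMat_cts W hΔ p F).map _ (mltw_padicHom_local p 𝒪 hp))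

theorem mltwTateRep_ρ (W : WeierstrassCurve ℤ) (hΔ : W.Δ ≠ 0)
    (F : MltwFrames (MltwPt W) p) (σ : GQ) :
    (mltwTateRep p 𝒪 hp W hΔ F).ρ σ =
      Matrix.toLin' ((mltwMat F σ).map (tePadicHom p 𝒪 hp)) := rfl

theorem mltwTateRep_trace (W : WeierstrassCurve ℤ) (hΔ : W.Δ ≠ 0)
    (F : MltwFrames (MltwPt W) p) (σ : GQ) :
    LinearMap.trace 𝒪 _ ((mltwTateRep p 𝒪 hp W hΔ F).ρ σ) =
      tePadicHom p 𝒪 hp (mltwMat F σ).trace := by
  show LinearMap.trace 𝒪 (Fin 2 → 𝒪)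
    (Matrix.toLin' ((mltwMat F σ).map (tePadicHom p 𝒪 hp))) = _
  rw [Matrix.trace_toLin'_eq, Matrix.trace_fin_two, Matrix.trace_fin_two, map_add]
  rfl

theorem mltwTateRep_det (W : WeierstrassCurve ℤ) (hΔ : W.Δ ≠ 0)
    (F : MltwFrames (MltwPt W) p) (σ : GQ) :
    LinearMap.det ((mltwTateRep p 𝒪 hp W hΔ F).ρ σ) =
      tePadicHom p 𝒪 hp (mltwMat F σ).det := by
  show LinearMap.det (M := Fin 2 → 𝒪)
    (Matrix.toLin' ((mltwMat F σ).map (tePadicHom p 𝒪 hp))) = _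
  rw [LinearMap.det_toLin', ← RingHom.mapMatrix_apply, ← RingHom.map_det]

/-- **the Tate module matches `W`** -/
theorem mltwTateRep_match (W : WeierstrassCurve ℤ) (hΔ : W.Δ ≠ 0)
    (F : MltwFrames (MltwPt W) p) : S58Match W p (mltwTateRep p 𝒪 hp W hΔ F) := by
  intro σ m n hn
  subst hn
  obtain ⟨A, hA, hAr⟩ := mltwMat_spec F σ m
  obtain ⟨ht, hd⟩ := mltw_trace_det_of_repr W (F.frame m) σ hA
  obtain ⟨h1, h2⟩ := mltwMat_trace_det F σ m hA
  have hmap : ∀ x : ℤ_[p], ∀ a : ℤ, x - ((a : ℤ) : ℤ_[p]) ∈ Ideal.span {((p ^ m : ℕ) : ℤ_[p])} →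
      tePadicHom p 𝒪 hp x - ((a : ℤ) : 𝒪) ∈ Ideal.span {((p ^ m : ℕ) : 𝒪)} := by
    intro x a hx
    obtain ⟨c, hc⟩ := Ideal.mem_span_singleton'.mp hx
    rw [Ideal.mem_span_singleton']
    refine ⟨tePadicHom p 𝒪 hp c, ?_⟩
    have := congrArg (tePadicHom p 𝒪 hp) hc
    rw [map_mul, map_natCast, map_sub, map_intCast] at this
    exact this
  refine ⟨A.trace, A.det, ht, hd, ?_, ?_⟩
  · rw [mltwTateRep_trace]
    exact hmap _ _ h1
  · rw [mltwTateRep_det]
    exact hmap _ _ h2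

end Coeff

end Fermat.Agent.MLT
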