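/-
MLT, stream [W] (helper8), file 4: **the local properties of the Tate module of `W` away from `p`
and its determinant and Frobenius polynomials**.

* `mltw_det_cyclo_of_match` : a representation matching `W` has cyclotomic determinant;
* `mltwTateRep_unram` : the Tate module is unramified at the good primes `q ≠ p`;
* `mltwTateRep_unip` : unipotent inertia at the semistable bad primes `q ≠ p`;
* `mltwTateRep_frob` : the characteristic polynomials of the Frobenius elements at the good primes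
  `ℓ ≠ p`.
-/
import Mathlib
import Fermat.Agent.Lib.MLT.Wloc.TateRep
import Fermat.Agent.Lib.S58.Det
import Fermat.Agent.Lib.S58.Unipotent
import Fermat.Agent.Lib.S58.LocalFinal
import Fermat.Agent.Lib.S58.ET

set_option autoImplicit false
set_option linter.unusedSectionVars false
set_option linter.unusedVariables false
set_option linter.style.haveILetI false
set_option linter.overlappingInstances false

namespace Fermat.Agent.MLT

open Fermat.Agent.ET Fermat.Agent.S58 Fermat.Agent.S53Lib Fermat.Agent.T1 IsLocalRing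
open WeierstrassCurve WeierstrassCurve.Affine.Point Polynomial
open scoped WeierstrassCurve.Affine

local notation "Qb" => AlgebraicClosure ℚ
local notation "GQ" => (AlgebraicClosure ℚ ≃ₐ[ℚ] AlgebraicClosure ℚ)

/-- **a representation matching `W` has cyclotomic determinant** -/
theorem mltw_det_cyclo_of_match (W : WeierstrassCurve ℤ) (hΔ : W.Δ ≠ 0) {p : ℕ} (hp : p.Prime)
    {A : Type} [CommRing A] [IsLocalRing A] (hpA : (p : A) ∈ maximalIdeal A)
    (ρ : GaloisRepAdic A) (hm : S58Match W p ρ) : ρ.DetIsCyclotomic p := by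
  refine ⟨hpA, fun n σ a ha => ?_⟩
  obtain ⟨t, d, ht, hd, h1, h2⟩ := hm σ n (p ^ n) rfl
  have hnpos : 0 < p ^ n := pow_pos hp.pos n
  haveI : NeZero (p ^ n) := ⟨hnpos.ne'⟩
  obtain ⟨d', -, hd'⟩ := s58d_exists_det W hnpos σ
  have hcyc := s58d_det_cyclo W hΔ (s58_et W hΔ) hp (rfl : p ^ n = p ^ n) σ d' hd'
  have hz := Fermat.Agent.CFT.Pinf.zetaQbar_spec (p ^ n)
  have h3 : Fermat.Agent.CFT.Pinf.zetaQbar (p ^ n) ^ d' = Fermat.Agent.CFT.Pinf.zetaQbar (p ^ n) ^ a := by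
    rw [← hcyc _ hz.pow_eq_one, ha _ hz.pow_eq_one]
  have hz0 : Fermat.Agent.CFT.Pinf.zetaQbar (p ^ n) ≠ 0 := hz.ne_zero hnpos.ne'
  have h3' : Fermat.Agent.CFT.Pinf.zetaQbar (p ^ n) ^ ((d' : ℤ) - (a : ℤ)) = 1 := by
    rw [zpow_sub₀ hz0, zpow_natCast, zpow_natCast, h3, div_self (pow_ne_zero _ hz0)]
  have h3'' := (hz.zpow_eq_one_iff_dvd _).mp h3'
  have h4 : ((d' : ℕ) : ZMod (p ^ n)) = ((a : ℕ) : ZMod (p ^ n)) := by
    have := (ZMod.intCast_eq_intCast_iff_dvd_sub (a : ℤ) (d' : ℤ) (p ^ n)).mpr h3''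
    exact_mod_cast this.symm
  have h5 : (((d - (a : ℤ) : ℤ)) : ZMod (p ^ n)) = 0 := by
    push_cast
    rw [← hd, hd', h4, sub_self]
  have h6 := s58a_intCast_mem (A := A) h5
  have e : LinearMap.det (ρ.ρ σ) - (a : A) = (LinearMap.det (ρ.ρ σ) - (d : A)) +
      ((d - (a : ℤ) : ℤ) : A) := by
    push_cast
    ring
  rw [e]
  exact Ideal.add_mem _ h2 h6

/-- good reduction at `r ∤ n`: inertia at `r` fixes every `n`-torsion point -/
theorem mltw_inertia_fix_of_good (W : WeierstrassCurve ℤ) (hΔ : W.Δ ≠ 0) {r n : ℕ} (hr : r.Prime)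
    (hgood : ¬ (r : ℤ) ∣ W.Δ) (hrn : ¬ r ∣ n) (A : ValuationSubring Qb) (hA : A.LiesOverPrime r)
    {σ : GQ} (hσ : σ ∈ A.inertiaSubgroupIn ℚ) (Q : MltwPt W) (hQ : n • Q = 0) : σ • Q = Q := by
  refine s58l_inertia_fix W hΔ hr hrn A hA hσ Q hQ ?_
  rcases Q with _ | ⟨x, y, h⟩
  · trivial
  · obtain ⟨hx, hy⟩ := s58l_integral W hΔ hr hrn A hA h hQ
    obtain ⟨ha₁, ha₂, ha₃, ha₄, ha₆⟩ := s58l_a_mem W A
    have hΔ1 : A.valuation ((s58E W)⁄Qb).Δ = 1 := by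
      rw [s58l_Δ_eq]
      exact Fermat.Agent.S05Lib.qv_valuation_intCast_eq_one A hr hA hgood
    exact s58l_ns_of_good ha₁ ha₂ ha₃ ha₄ hΔ1 h.1 hx hy

section Coeff

variable (p : ℕ) [Fact p.Prime] (𝒪 : Type) [CommRing 𝒪] [IsLocalRing 𝒪]
  [IsAdicComplete (maximalIdeal 𝒪) 𝒪] (hp : (p : 𝒪) ∈ maximalIdeal 𝒪)

/-- the determinant of the Tate module is cyclotomic -/
theorem mltwTateRep_detCyclo (W : WeierstrassCurve ℤ) (hΔ : W.Δ ≠ 0)
    (F : MltwFrames (MltwPt W) p) : (mltwTateRep p 𝒪 hp W hΔ F).DetIsCyclotomic p :=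
  mltw_det_cyclo_of_match W hΔ Fact.out hp _ (mltwTateRep_match p 𝒪 hp W hΔ F)

/-- an element acting trivially on `W[p^∞]` acts trivially on the Tate module -/
theorem mltwTateRep_eq_one (W : WeierstrassCurve ℤ) (hΔ : W.Δ ≠ 0)
    (F : MltwFrames (MltwPt W) p) (σ : GQ)
    (hσ : ∀ (n : ℕ) (Q : MltwPt W), (p ^ n) • Q = 0 → σ • Q = Q) :
    (mltwTateRep p 𝒪 hp W hΔ F).ρ σ = 1 := by
  have h1 : mltwMat F σ = 1 :=
    mltwMat_eq_one F σ (fun n => hσ n _ (F.frame n).tor₁) (fun n => hσ n _ (F.frame n).tor₂)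
  rw [mltwTateRep_ρ, h1, Matrix.map_one _ (_root_.map_zero _) (_root_.map_one _), Matrix.toLin'_one]
  rfl

/-- **the Tate module is unramified at the good primes `q ≠ p`** -/
theorem mltwTateRep_unram (W : WeierstrassCurve ℤ) (hΔ : W.Δ ≠ 0)
    (F : MltwFrames (MltwPt W) p) {q : ℕ} (hq : q.Prime) (hqp : q ≠ p)
    (hgood : ¬ (q : ℤ) ∣ W.Δ) : (mltwTateRep p 𝒪 hp W hΔ F).IsUnramifiedAt q := by
  intro P hP σ hσ
  refine mltwTateRep_eq_one p 𝒪 hp W hΔ F σ fun n Q hQ => ?_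
  have hqn : ¬ q ∣ p ^ n := fun h =>
    hqp ((Nat.prime_dvd_prime_iff_eq hq Fact.out).mp (hq.dvd_of_dvd_pow h))
  exact mltw_inertia_fix_of_good W hΔ hq hgood hqn P hP hσ Q hQ

variable [IsDomain 𝒪] [IsDiscreteValuationRing 𝒪]

/-- **unipotent inertia at the semistable primes `q ≠ p`**, `p` odd -/
theorem mltwTateRep_unip (hp2 : p ≠ 2) (W : WeierstrassCurve ℤ) (hΔ : W.Δ ≠ 0)
    (hss : W.IsSemistableModel) (F : MltwFrames (MltwPt W) p) {q : ℕ} (hq : q.Prime)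
    (hqp : q ≠ p) : (mltwTateRep p 𝒪 hp W hΔ F).IsUnipotentOnInertiaAt q := by
  have hpp : p.Prime := Fact.out
  refine s58a_unipotent W hΔ (s58_et W hΔ) hpp hp _ (mltwTateRep_match p 𝒪 hp W hΔ F) hq hqp ?_
  intro m P hP
  have hqn : ¬ q ∣ p ^ m := fun h =>
    hqp ((Nat.prime_dvd_prime_iff_eq hq hpp).mp (hq.dvd_of_dvd_pow h))
  exact s58l_fixed W hΔ hq (hss q hq) (hpp.odd_of_ne_two hp2).pow hqn P hP

/-- **the Frobenius polynomials at the good primes `ℓ ≠ p`** -/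
theorem mltwTateRep_frob (W : WeierstrassCurve ℤ) (hΔ : W.Δ ≠ 0)
    (F : MltwFrames (MltwPt W) p) {ℓ : ℕ} (hℓ : ℓ.Prime) (hℓp : ℓ ≠ p)
    (hgood : ¬ (ℓ : ℤ) ∣ W.Δ) (A : ValuationSubring Qb) (hA : A.LiesOverPrime ℓ) (σ : GQ)
    (hσ : A.IsFrobeniusAt σ ℓ) :
    LinearMap.charpoly ((mltwTateRep p 𝒪 hp W hΔ F).ρ σ) =
      X ^ 2 - C (((W.apOfModel ℓ : ℤ) : 𝒪)) * X + C ((ℓ : 𝒪)) := by
  obtain ⟨ht, hd⟩ := s58m_trace_det_frob W (s58_et W hΔ) (Fact.out : p.Prime) hp _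
    (mltwTateRep_match p 𝒪 hp W hΔ F) hℓ hgood (Ne.symm hℓp) A hA σ hσ
  rw [s58c_charpoly_eq (mltwTateRep p 𝒪 hp W hΔ F).finrank_eq, ht, hd]

end Coeff

end Fermat.Agent.MLT
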