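/-
MLT, stream [W] (helper8), file 9: **`W[p^n]` has a Hopf order over `ℤ_(p)` when `W` has good
reduction at `p`** (ordinary or supersingular).

Criterion `alph_end`: at one place `𝒱 ∣ p` a finite family of `𝒱`-integral, inertia-equivariant,
separating functions `m` on `V = W[p^n](ℚ̄)` with `m (x + y) ∈ 𝒱[m] ⊗ 𝒱[m]`.  We take
`m(P) = (x, y)(P + A₀)` with `A₀` a point of prime order `l ∉ {2, 3, 7, p}` (inertia-fixed and
integral) and compute `(P + Q) + A₀ = ((P + A₀) + ((Q + A₀) + 2A₀)) + (-3A₀)`: all three additions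
are generic chords, because `P' + c A₀` (`P'` of `p`-power order, `l ∤ c`) is never in the kernel of
reduction.

* `mltw_hasOrder_tors` : `AlphHasOrder p (S58Tors W (p ^ n))`.
-/
import Mathlib
import Fermat.Agent.Lib.MLT.Wloc.AdjoinInv
import Fermat.Agent.Lib.MLT.Wloc.TateProps
import Fermat.Agent.Lib.Alpha.Hopf.End
import Fermat.Agent.Lib.Alpha.Mod.Comul
import Fermat.Agent.Lib.Helper6.FrobeniusExists

set_option autoImplicit false
set_option linter.unusedSectionVars false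
set_option linter.unusedVariables false
set_option linter.style.haveILetI false

namespace Fermat.Agent.MLT

open Fermat.Agent.ET Fermat.Agent.S58 Fermat.Agent.Alpha WeierstrassCurve
open WeierstrassCurve.Affine.Point
open scoped WeierstrassCurve.Affine

local notation "Qb" => AlgebraicClosure ℚ
local notation "GQ" => (AlgebraicClosure ℚ ≃ₐ[ℚ] AlgebraicClosure ℚ)

variable (W : WeierstrassCurve ℤ)

/-- good reduction over `ℚ̄` at a place over a good prime -/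
theorem mltw_good (hΔ : W.Δ ≠ 0) {p : ℕ} (hp : p.Prime) (hgood : ¬ (p : ℤ) ∣ W.Δ)
    (𝒱 : ValuationSubring Qb) (h𝒱 : 𝒱.LiesOverPrime p) : MltwGood 𝒱 ((s58E W)⁄Qb) := by
  obtain ⟨ha₁, ha₂, ha₃, ha₄, ha₆⟩ := s58l_a_mem W 𝒱
  refine ⟨ha₁, ha₂, ha₃, ha₄, ha₆, ?_⟩
  rw [s58l_Δ_eq]
  exact Fermat.Agent.S05Lib.qv_valuation_intCast_eq_one 𝒱 hp h𝒱 hgood

/-- a point of exact prime order `l` -/
theorem mltw_exists_order (hΔ : W.Δ ≠ 0) {l : ℕ} (hl : l.Prime) :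
    ∃ A₀ : MltwPt W, A₀ ≠ 0 ∧ l • A₀ = 0 := by
  have hcard := s58m_card W hΔ hl.pos
  have hfin : Finite {P : MltwPt W // l • P = 0} :=
    Nat.finite_of_card_ne_zero (by rw [hcard]; exact pow_ne_zero 2 hl.ne_zero)
  have h1 : 1 < Nat.card {P : MltwPt W // l • P = 0} := by
    rw [hcard]
    exact Nat.one_lt_pow two_ne_zero hl.one_lt
  haveI : Nontrivial {P : MltwPt W // l • P = 0} := Finite.one_lt_card_iff_nontrivial.mp h1
  obtain ⟨P, hP⟩ := exists_ne (⟨0, nsmul_zero l⟩ : {P : MltwPt W // l • P = 0})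
  exact ⟨P.1, fun h => hP (Subtype.ext h), P.2⟩

section Aux

variable {W} {l : ℕ} (hl : l.Prime) {A₀ : MltwPt W} (hA0 : A₀ ≠ 0) (hlA : l • A₀ = 0)

include hl hA0 hlA in
/-- the multiples of `A₀` -/
theorem mltw_zsmul_eq_zero_iff (c : ℤ) : c • A₀ = 0 ↔ (l : ℤ) ∣ c := by
  haveI : Fact l.Prime := ⟨hl⟩
  have hord : addOrderOf A₀ = l := addOrderOf_eq_prime hlA hA0
  rw [← addOrderOf_dvd_iff_zsmul_eq_zero, hord]

variable {p : ℕ} (hp : p.Prime) (hpl : p ≠ l) {𝒱 : ValuationSubring Qb}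
  (h𝒱 : 𝒱.LiesOverPrime p) (hg : MltwGood 𝒱 ((s58E W)⁄Qb)) [((s58E W)⁄Qb).IsElliptic]

include hl hA0 hlA hp hpl h𝒱 hg in
/-- `P + c A₀` is outside the kernel of reduction -/
theorem mltw_aux_not_E1 {n : ℕ} {P : MltwPt W} (hP : (p ^ n) • P = 0) {c : ℤ}
    (hc : ¬ (l : ℤ) ∣ c) : ¬ EtgE1 𝒱 ((s58E W)⁄Qb) (P + c • A₀) := by
  have hlval : 𝒱.valuation ((l : ℕ) : Qb) = 1 := by
    have h := Fermat.Agent.S05Lib.qv_valuation_intCast_eq_one 𝒱 hp h𝒱 (n := (l : ℤ))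
      (by
        intro h
        exact hpl ((Nat.prime_dvd_prime_iff_eq hp hl).mp (Int.natCast_dvd_natCast.mp h)))
    simpa using h
  refine mltw_not_E1_of_torsion hg (k := p ^ n) (l := l) hlval ?_ ?_
  · rw [smul_add, hP, zero_add, ← natCast_zsmul, ← mul_smul]
    intro h
    have h1 := (mltw_zsmul_eq_zero_iff hl hA0 hlA _).mp h
    have h2 : IsCoprime (l : ℤ) ((p ^ n : ℕ) : ℤ) := by
      rw [Int.isCoprime_iff_gcd_eq_one, Int.gcd_natCast_natCast]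
      exact Nat.Coprime.pow_right n ((Nat.coprime_primes hl hp).mpr (Ne.symm hpl))
    exact hc (h2.dvd_of_dvd_mul_left h1)
  · rw [smul_add, hP, zero_add, smul_comm l (p ^ n) (c • A₀), smul_comm l c A₀, hlA, smul_zero,
      nsmul_zero]

include hl hA0 hlA hp hpl h𝒱 hg in
/-- `P + c A₀` is nonzero -/
theorem mltw_aux_ne_zero {n : ℕ} {P : MltwPt W} (hP : (p ^ n) • P = 0) {c : ℤ}
    (hc : ¬ (l : ℤ) ∣ c) : P + c • A₀ ≠ 0 := by
  intro h
  apply mltw_aux_not_E1 hl hA0 hlA hp hpl h𝒱 hg hP hc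
  rw [h]
  exact etgE1_zero 𝒱 _

include hl hA0 hlA hp hpl h𝒱 hg in
/-- the coordinates of `P + c A₀` are integral -/
theorem mltw_aux_mem {n : ℕ} {P : MltwPt W} (hP : (p ^ n) • P = 0) {c : ℤ}
    (hc : ¬ (l : ℤ) ∣ c) : mltwPX (P + c • A₀) ∈ 𝒱 ∧ mltwPY (P + c • A₀) ∈ 𝒱 := by
  obtain ⟨x, y, h, hT, hx, hy⟩ :=
    mltw_coords_of_not_E1 hg (mltw_aux_not_E1 hl hA0 hlA hp hpl h𝒱 hg hP hc)
  rw [hT]
  exact ⟨hx, hy⟩

include hl hA0 hlA hp hpl h𝒱 hg in
/-- **unit differences** of the `x`-coordinates of `P + c₁ A₀` and `Q + c₂ A₀` -/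
theorem mltw_aux_unit {n : ℕ} {P Q : MltwPt W} (hP : (p ^ n) • P = 0) (hQ : (p ^ n) • Q = 0)
    {c₁ c₂ : ℤ} (h1 : ¬ (l : ℤ) ∣ c₁) (h2 : ¬ (l : ℤ) ∣ c₂) (hs : ¬ (l : ℤ) ∣ c₁ - c₂)
    (ha : ¬ (l : ℤ) ∣ c₁ + c₂) :
    𝒱.valuation (mltwPX (P + c₁ • A₀) - mltwPX (Q + c₂ • A₀)) = 1 := by
  obtain ⟨x₁, y₁, hn₁, hT₁, hx₁, -⟩ :=
    mltw_coords_of_not_E1 hg (mltw_aux_not_E1 hl hA0 hlA hp hpl h𝒱 hg hP h1)
  obtain ⟨x₂, y₂, hn₂, hT₂, hx₂, -⟩ :=
    mltw_coords_of_not_E1 hg (mltw_aux_not_E1 hl hA0 hlA hp hpl h𝒱 hg hQ h2)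
  rw [hT₁, hT₂, mltwPX_some, mltwPX_some]
  refine mltw_unit_sub hg hn₁ hn₂ hx₁ hx₂ ?_ ?_
  · rw [← hT₁, ← hT₂]
    have e : (P + c₁ • A₀) - (Q + c₂ • A₀) = (P - Q) + (c₁ - c₂) • A₀ := by
      rw [sub_zsmul]; abel
    rw [e]
    have hPQ : (p ^ n) • (P - Q) = 0 := by rw [nsmul_sub, hP, hQ, sub_zero]
    exact mltw_aux_not_E1 hl hA0 hlA hp hpl h𝒱 hg hPQ hs
  · rw [← hT₁, ← hT₂]
    have e : (P + c₁ • A₀) + (Q + c₂ • A₀) = (P + Q) + (c₁ + c₂) • A₀ := by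
      rw [add_zsmul]; abel
    rw [e]
    have hPQ : (p ^ n) • (P + Q) = 0 := by rw [nsmul_add, hP, hQ, add_zero]
    exact mltw_aux_not_E1 hl hA0 hlA hp hpl h𝒱 hg hPQ ha

end Aux

/-! ### The coordinate functions and the Galois action -/

theorem mltwPX_smul (σ : GQ) (T : MltwPt W) : mltwPX (σ • T) = σ (mltwPX T) := by
  rcases T with _ | ⟨x, y, h⟩
  · have h0 : σ • (0 : MltwPt W) = 0 := rfl
    show mltwPX (σ • (0 : MltwPt W)) = σ (mltwPX (0 : MltwPt W))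
    rw [h0]
    exact (map_zero σ).symm
  · rfl

theorem mltwPY_smul (σ : GQ) (T : MltwPt W) : mltwPY (σ • T) = σ (mltwPY T) := by
  rcases T with _ | ⟨x, y, h⟩
  · have h0 : σ • (0 : MltwPt W) = 0 := rfl
    show mltwPY (σ • (0 : MltwPt W)) = σ (mltwPY (0 : MltwPt W))
    rw [h0]
    exact (map_zero σ).symm
  · rfl

/-- an affine point is determined by its coordinates -/
theorem mltw_pt_ext {T₁ T₂ : MltwPt W} (h1 : T₁ ≠ 0) (h2 : T₂ ≠ 0)
    (hx : mltwPX T₁ = mltwPX T₂) (hy : mltwPY T₁ = mltwPY T₂) : T₁ = T₂ := by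
  rcases T₁ with _ | ⟨x₁, y₁, hn₁⟩
  · exact absurd rfl h1
  rcases T₂ with _ | ⟨x₂, y₂, hn₂⟩
  · exact absurd rfl h2
  simp only [mltwPX_some, mltwPY_some] at hx hy
  subst hx hy
  rfl

/-! ### The main theorem -/

/-- the chart functions `(x, y)(P + A₀)` -/
noncomputable def mltwChart (A₀ : MltwPt W) (N : ℕ) : Fin 2 → S58Tors W N → Qb :=
  fun i v => if i = 0 then mltwPX ((v : MltwPt W) + (1 : ℤ) • A₀)
    else mltwPY ((v : MltwPt W) + (1 : ℤ) • A₀)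

/-- **`W[p^n]` has a Hopf order over `ℤ_(p)` at a prime `p` of good reduction** -/
theorem mltw_hasOrder_tors (hΔ : W.Δ ≠ 0) (p : ℕ) [Fact p.Prime] (hgood : ¬ (p : ℤ) ∣ W.Δ)
    (n : ℕ) : AlphHasOrder p (S58Tors W (p ^ n)) := by
  classical
  have hp : p.Prime := Fact.out
  -- the auxiliary prime and point
  obtain ⟨l, hl, hpl, hl511⟩ : ∃ l : ℕ, l.Prime ∧ p ≠ l ∧ (l = 5 ∨ l = 11) := by
    by_cases h : p = 11
    · exact ⟨5, by norm_num, by omega, Or.inl rfl⟩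
    · exact ⟨11, by norm_num, h, Or.inr rfl⟩
  have hdiv : ¬ (l : ℤ) ∣ 1 ∧ ¬ (l : ℤ) ∣ 2 ∧ ¬ (l : ℤ) ∣ 3 ∧ ¬ (l : ℤ) ∣ 4 ∧ ¬ (l : ℤ) ∣ 7 ∧
      ¬ (l : ℤ) ∣ -1 ∧ ¬ (l : ℤ) ∣ -2 ∧ ¬ (l : ℤ) ∣ -3 := by
    rcases hl511 with rfl | rfl <;> norm_num
  obtain ⟨d1, d2, d3, d4, d7, dm1, dm2, dm3⟩ := hdiv
  obtain ⟨A₀, hA0, hlA⟩ := mltw_exists_order W hΔ hl
  obtain ⟨𝒱, h𝒱⟩ := Fermat.Agent.Lib.Helper6.exists_valuationSubring_liesOverPrime Qb hp
  have hg := mltw_good W hΔ hp hgood 𝒱 h𝒱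
  haveI := s58l_isElliptic W hΔ
  haveI : Finite (S58Tors W (p ^ n)) := s58m_finite W hΔ (pow_pos hp.pos n)
  haveI : Fintype (S58Tors W (p ^ n)) := Fintype.ofFinite _
  have htor : ∀ v : S58Tors W (p ^ n), (p ^ n) • (v : MltwPt W) = 0 :=
    fun v => s58l_nsmul_eq_zero W v
  have hzero : (p ^ n) • (0 : MltwPt W) = 0 := nsmul_zero _
  -- abbreviations
  have hE1 := @mltw_aux_not_E1 W l hl A₀ hA0 hlA p hp hpl 𝒱 h𝒱 hg _ n
  have hne := @mltw_aux_ne_zero W l hl A₀ hA0 hlA p hp hpl 𝒱 h𝒱 hg _ n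
  have hmem := @mltw_aux_mem W l hl A₀ hA0 hlA p hp hpl 𝒱 h𝒱 hg _ n
  have hunit := @mltw_aux_unit W l hl A₀ hA0 hlA p hp hpl 𝒱 h𝒱 hg _ n
  set m := mltwChart W A₀ (p ^ n) with hm
  have hm0 : ∀ v, m 0 v = mltwPX ((v : MltwPt W) + (1 : ℤ) • A₀) := fun v => if_pos rfl
  have hm1 : ∀ v, m 1 v = mltwPY ((v : MltwPt W) + (1 : ℤ) • A₀) := fun v =>
    if_neg (by decide)
  refine alph_end p 𝒱 h𝒱 ?_ m ?_ ?_ ?_ ?_
  · -- open stabilisers
    intro x
    haveI : Finite (Fermat.Agent.S13Lib.Tors (s58E W) (p ^ n)) :=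
      s58m_finite W hΔ (pow_pos hp.pos n)
    obtain ⟨L, hL, -, h⟩ := Fermat.Agent.LR.lre_exists_level (s58E W) (p ^ n)
    exact ⟨L, hL, fun σ hσ => h σ hσ x⟩
  · -- integrality
    intro i v
    by_cases hi : i = 0
    · subst hi
      rw [hm0]
      exact (hmem (htor v) d1).1
    · have hi1 : i = 1 := Fin.eq_one_of_ne_zero i hi
      subst hi1
      rw [hm1]
      exact (hmem (htor v) d1).2
  · -- inertia-equivariance
    intro i τ hτ v
    have hpl' : ¬ p ∣ l := fun h => hpl ((Nat.prime_dvd_prime_iff_eq hp hl).mp h)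
    have hfix : τ • A₀ = A₀ := mltw_inertia_fix_of_good W hΔ hp hgood hpl' 𝒱 h𝒱 hτ A₀ hlA
    have hpt : ((τ • v : S58Tors W (p ^ n)) : MltwPt W) + (1 : ℤ) • A₀ =
        τ • ((v : MltwPt W) + (1 : ℤ) • A₀) := by
      have hadd : τ • ((v : MltwPt W) + A₀) = τ • (v : MltwPt W) + τ • A₀ :=
        map_add (Affine.Point.map (W' := (s58E W).toAffine) τ.toAlgHom) (v : MltwPt W) A₀
      rw [one_zsmul, hadd, hfix]
      rfl
    by_cases hi : i = 0
    · subst hi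
      rw [hm0, hm0, hpt, mltwPX_smul]
    · have hi1 : i = 1 := Fin.eq_one_of_ne_zero i hi
      subst hi1
      rw [hm1, hm1, hpt, mltwPY_smul]
  · -- separation
    intro v w hvw
    by_contra hall
    push Not at hall
    have h0 := hall 0
    have h1 := hall 1
    rw [hm0, hm0] at h0
    rw [hm1, hm1] at h1
    have := mltw_pt_ext W (hne (htor v) d1) (hne (htor w) d1) h0 h1
    exact hvw (Subtype.ext (add_right_cancel this))
  · -- comultiplication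
    intro i
    refine alpm_hcomul_of_adjoin 𝒱 m i ?_
    set 𝒜 := Algebra.adjoin ↥𝒱 (Set.range
      (Sum.elim (fun i (q : S58Tors W (p ^ n) × S58Tors W (p ^ n)) => m i q.1)
        (fun i (q : S58Tors W (p ^ n) × S58Tors W (p ^ n)) => m i q.2))) with h𝒜
    have hgen : ∀ j, Sum.elim (fun i (q : S58Tors W (p ^ n) × S58Tors W (p ^ n)) => m i q.1)
        (fun i (q : S58Tors W (p ^ n) × S58Tors W (p ^ n)) => m i q.2) j ∈ 𝒜 :=
      fun j => Algebra.subset_adjoin ⟨j, rfl⟩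
    -- the two translated coordinates
    have a1 : MltwAff ((s58E W)⁄Qb) 𝒜
        (fun q : S58Tors W (p ^ n) × S58Tors W (p ^ n) => (q.1 : MltwPt W) + (1 : ℤ) • A₀) := by
      refine ⟨fun q => hne (htor q.1) d1, ?_, ?_⟩
      · have := hgen (Sum.inl 0)
        convert this using 1
        funext q
        exact (hm0 q.1).symm
      · have := hgen (Sum.inl 1)
        convert this using 1
        funext q
        exact (hm1 q.1).symm
    have a2 : MltwAff ((s58E W)⁄Qb) 𝒜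
        (fun q : S58Tors W (p ^ n) × S58Tors W (p ^ n) => (q.2 : MltwPt W) + (1 : ℤ) • A₀) := by
      refine ⟨fun q => hne (htor q.2) d1, ?_, ?_⟩
      · have := hgen (Sum.inr 0)
        convert this using 1
        funext q
        exact (hm0 q.2).symm
      · have := hgen (Sum.inr 1)
        convert this using 1
        funext q
        exact (hm1 q.2).symm
    -- the constants
    have aC : MltwAff ((s58E W)⁄Qb) 𝒜
        (fun _ : S58Tors W (p ^ n) × S58Tors W (p ^ n) => (0 : MltwPt W) + (2 : ℤ) • A₀) := by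
      obtain ⟨x, y, h, hT, hx, hy⟩ := mltw_coords_of_not_E1 hg (hE1 hzero d2)
      rw [hT]
      exact MltwAff.const 𝒜 h hx hy
    have aB : MltwAff ((s58E W)⁄Qb) 𝒜
        (fun _ : S58Tors W (p ^ n) × S58Tors W (p ^ n) => (0 : MltwPt W) + (-3 : ℤ) • A₀) := by
      obtain ⟨x, y, h, hT, hx, hy⟩ := mltw_coords_of_not_E1 hg (hE1 hzero dm3)
      rw [hT]
      exact MltwAff.const 𝒜 h hx hy
    -- `Q + 3 A₀`
    have a3 : MltwAff ((s58E W)⁄Qb) 𝒜
        (fun q : S58Tors W (p ^ n) × S58Tors W (p ^ n) => (q.2 : MltwPt W) + (3 : ℤ) • A₀) := by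
      have := MltwAff.add hg.a₁ hg.a₂ hg.a₃ a2 aC
        (fun q => hunit (htor q.2) hzero d1 d2 (by rw [show (1 : ℤ) - 2 = -1 by norm_num]; exact dm1)
          (by rw [show (1 : ℤ) + 2 = 3 by norm_num]; exact d3))
      convert this using 1
      funext q
      rw [add_add_add_comm, add_zero, ← add_zsmul]
      norm_num
    -- `P + Q + 4 A₀`
    have a4 : MltwAff ((s58E W)⁄Qb) 𝒜
        (fun q : S58Tors W (p ^ n) × S58Tors W (p ^ n) =>
          ((q.1 : MltwPt W) + (q.2 : MltwPt W)) + (4 : ℤ) • A₀) := by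
      have := MltwAff.add hg.a₁ hg.a₂ hg.a₃ a1 a3
        (fun q => hunit (htor q.1) (htor q.2) d1 d3
          (by rw [show (1 : ℤ) - 3 = -2 by norm_num]; exact dm2)
          (by rw [show (1 : ℤ) + 3 = 4 by norm_num]; exact d4))
      convert this using 1
      funext q
      rw [add_add_add_comm, ← add_zsmul]
      norm_num
    -- `P + Q + A₀`
    have a5 : MltwAff ((s58E W)⁄Qb) 𝒜
        (fun q : S58Tors W (p ^ n) × S58Tors W (p ^ n) =>
          ((q.1 : MltwPt W) + (q.2 : MltwPt W)) + (1 : ℤ) • A₀) := by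
      have hPQ : ∀ q : S58Tors W (p ^ n) × S58Tors W (p ^ n),
          (p ^ n) • ((q.1 : MltwPt W) + (q.2 : MltwPt W)) = 0 := fun q => by
        rw [nsmul_add, htor, htor, add_zero]
      have := MltwAff.add hg.a₁ hg.a₂ hg.a₃ a4 aB
        (fun q => hunit (hPQ q) hzero d4 dm3
          (by rw [show (4 : ℤ) - -3 = 7 by norm_num]; exact d7)
          (by rw [show (4 : ℤ) + -3 = 1 by norm_num]; exact d1))
      convert this using 1
      funext q
      rw [add_add_add_comm, add_zero, ← add_zsmul]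
      norm_num
    -- conclusion
    have hcoe : ∀ q : S58Tors W (p ^ n) × S58Tors W (p ^ n),
        ((q.1 + q.2 : S58Tors W (p ^ n)) : MltwPt W) = (q.1 : MltwPt W) + (q.2 : MltwPt W) :=
      fun q => rfl
    by_cases hi : i = 0
    · subst hi
      have := a5.2.1
      convert this using 1
      funext q
      show m 0 (q.1 + q.2) = _
      rw [hm0, hcoe]
    · have hi1 : i = 1 := Fin.eq_one_of_ne_zero i hi
      subst hi1
      have := a5.2.2
      convert this using 1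
      funext q
      show m 1 (q.1 + q.2) = _
      rw [hm1, hcoe]

end Fermat.Agent.MLT
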