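/-
MLT, stream [W] (helper8), file 5: **the residual representation of the Tate module of `W` is
`W[p] ⊗ k`**.

* `mltwTateRep_residual` : `(mltwTateRep p 𝒪 hp W hΔ F).residual` is equivalent to the base change
  of `residualGaloisRepOf (W_ℚ) p` along any `ι : ZMod p →+* ResidueField 𝒪`.
-/
import Mathlib
import Fermat.Agent.Lib.MLT.Wloc.TateRep

set_option autoImplicit false
set_option linter.unusedSectionVars false
set_option linter.unusedVariables false
set_option linter.style.haveILetI false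

namespace Fermat.Agent.MLT

open Fermat.Agent.ET Fermat.Agent.S58 Fermat.Agent.S53Lib Fermat.Agent.T1 IsLocalRing
open WeierstrassCurve WeierstrassCurve.Affine.Point
open scoped WeierstrassCurve.Affine

local notation "Qb" => AlgebraicClosure ℚ
local notation "GQ" => (AlgebraicClosure ℚ ≃ₐ[ℚ] AlgebraicClosure ℚ)

variable (p : ℕ) [Fact p.Prime] (𝒪 : Type) [CommRing 𝒪] [IsLocalRing 𝒪]
  [IsAdicComplete (maximalIdeal 𝒪) 𝒪] (hp : (p : 𝒪) ∈ maximalIdeal 𝒪)

/-- **the residual representation of the Tate module** -/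
theorem mltwTateRep_residual (W : WeierstrassCurve ℤ) (hΔ : W.Δ ≠ 0)
    (F : MltwFrames (MltwPt W) p)
    (hcard : Nat.card (Submodule.torsionBy ℤ
        ((W.map (Int.castRingHom ℚ))⁄Qb).Point p) = p ^ 2)
    (hker : GaloisFactorsThroughFiniteLevel
      (WeierstrassCurve.Affine.Point.galoisRepModuleEnd (K := Qb) ℚ
        (W.map (Int.castRingHom ℚ)) p))
    (ι : ZMod p →+* ResidueField 𝒪) :
    (mltwTateRep p 𝒪 hp W hΔ F).residual.IsEquiv
      ((WeierstrassCurve.residualGaloisRepOf (W.map (Int.castRingHom ℚ)) p hcard hker).baseChangeAlong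
        ι) := by
  set ρbar := WeierstrassCurve.residualGaloisRepOf (W.map (Int.castRingHom ℚ)) p hcard hker
    with hρbar
  -- the basis of `W[p]` given by the frame of level `1`
  have Fr : EtfFrame (MltwPt W) p (F.e₁ 1) (F.e₂ 1) := by
    have := F.frame 1
    rwa [pow_one] at this
  obtain ⟨b, hb0, hb1⟩ := etf_frame_basis (M := MltwPt W) Fr
  let b' : Module.Basis (Fin 2) (ZMod p) ρbar.V := b
  set r := mapMat (tePadicHom p 𝒪 hp) (mltwTateMat W p F) with hr
  have hcts : MatCts 𝒪 r := (mltwTateMat_cts W hΔ p F).map _ (mltw_padicHom_local p 𝒪 hp)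
  have hrep : mltwTateRep p 𝒪 hp W hΔ F = ofMat r hcts := rfl
  rw [hrep]
  refine ⟨⟨(residualBasis (ofMat r hcts) (ofMatBasis r hcts)).equiv
    (resBaseChangeBasis ι ρbar b') (Equiv.refl _), fun σ x => ?_⟩⟩
  apply basis_equiv_intertwine
  rw [toMatrix_residual, toMatrix_resBaseChange, toMatrixRep_ofMat]
  -- the integer matrix of level `1`
  obtain ⟨A, hA, hAr⟩ := mltwMat_spec F σ 1
  have hA' : MltwRepr (F.e₁ 1) (F.e₂ 1) (DistribSMul.toAddMonoidHom (MltwPt W) σ) A := hA
  have hmat : LinearMap.toMatrix b' b' (ρbar.ρ σ) = A.map (Int.castRingHom (ZMod p)) :=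
    mltw_toMatrix_of_repr W σ hA' b hb0 hb1
  rw [hmat]
  ext i j
  rw [Matrix.map_apply, Matrix.map_apply, Matrix.map_apply, hr, mapMat_apply, Matrix.map_apply,
    Int.coe_castRingHom, map_intCast]
  have h1 := hAr i j
  rw [pow_one] at h1
  obtain ⟨c, hc⟩ := Ideal.mem_span_singleton'.mp h1
  have h2 : tePadicHom p 𝒪 hp (mltwTateMat W p F σ i j) =
      ((A i j : ℤ) : 𝒪) + tePadicHom p 𝒪 hp c * (p : 𝒪) := by
    have := congrArg (tePadicHom p 𝒪 hp) hc
    rw [map_mul, map_natCast, map_sub, map_intCast] at this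
    rw [this]
    show tePadicHom p 𝒪 hp (mltwMat F σ i j) =
      ((A i j : ℤ) : 𝒪) + (tePadicHom p 𝒪 hp (mltwMat F σ i j) - ((A i j : ℤ) : 𝒪))
    ring
  rw [h2, map_add, map_mul, (residue_eq_zero_iff _).mpr hp, mul_zero, add_zero, map_intCast]

end Fermat.Agent.MLT
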