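/-
MLT, stream [W] (helper8), file 6: **contract W-TATE from the two local claims at `p`**.

* `MltwFlatClaim` : the Tate module of a semistable `W` with good supersingular reduction at `p` is
  flat at `p` (for every system of frames);
* `MltwOrdClaim` : for `W` semistable, not good supersingular at `p` (good ordinary or
  multiplicative), the Tate module is ordinary at `p` for a suitable (adapted) system of frames;
* `mltw_tate_of_claims` : the two claims give `MltWlocTateContract`.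
-/
import Mathlib
import Fermat.Agent.Lib.MLT.Contracts.Wloc
import Fermat.Agent.Lib.MLT.Wloc.TateProps
import Fermat.Agent.Lib.MLT.Wloc.TateRes

set_option autoImplicit false
set_option linter.unusedSectionVars false
set_option linter.unusedVariables false
set_option linter.style.haveILetI false
set_option linter.overlappingInstances false

namespace Fermat.Agent.MLT

open Fermat.Agent.ET Fermat.Agent.S58 Fermat.Agent.S53Lib Fermat.Agent.T1 IsLocalRing
open WeierstrassCurve WeierstrassCurve.Affine.Point Polynomial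
open scoped WeierstrassCurve.Affine

local notation "Qb" => AlgebraicClosure ℚ
local notation "GQ" => (AlgebraicClosure ℚ ≃ₐ[ℚ] AlgebraicClosure ℚ)

/-- **claim FLAT**: good supersingular reduction at `p` makes the Tate module flat at `p` -/
def MltwFlatClaim : Prop :=
  ∀ (p : ℕ) [Fact p.Prime], (p = 3 ∨ p = 5) →
  ∀ (W : WeierstrassCurve ℤ) (hΔ : W.Δ ≠ 0), W.IsSemistableModel → MltwSupersingular W p →
  ∀ (𝒪 : Type) [CommRing 𝒪] [IsDomain 𝒪] [IsDiscreteValuationRing 𝒪]
    [IsAdicComplete (maximalIdeal 𝒪) 𝒪] [CharZero 𝒪] [Finite (ResidueField 𝒪)]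
    (hp : (p : 𝒪) ∈ maximalIdeal 𝒪) (F : MltwFrames (MltwPt W) p),
    (mltwTateRep p 𝒪 hp W hΔ F).IsFlatAt p

/-- **claim ORD**: good ordinary or multiplicative reduction at `p` makes the Tate module ordinary
at `p`, for a suitable system of frames -/
def MltwOrdClaim : Prop :=
  ∀ (p : ℕ) [Fact p.Prime], (p = 3 ∨ p = 5) →
  ∀ (W : WeierstrassCurve ℤ) (hΔ : W.Δ ≠ 0), W.IsSemistableModel → ¬ MltwSupersingular W p →
  ∀ (𝒪 : Type) [CommRing 𝒪] [IsDomain 𝒪] [IsDiscreteValuationRing 𝒪]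
    [IsAdicComplete (maximalIdeal 𝒪) 𝒪] [CharZero 𝒪] [Finite (ResidueField 𝒪)]
    (hp : (p : 𝒪) ∈ maximalIdeal 𝒪), ∃ F : MltwFrames (MltwPt W) p,
    (mltwTateRep p 𝒪 hp W hΔ F).IsOrdinaryAt p

/-- the properties of the Tate module away from `p` -/
theorem mltwTateRep_isTate (p : ℕ) [Fact p.Prime] (hp2 : p ≠ 2) (W : WeierstrassCurve ℤ)
    (hΔ : W.Δ ≠ 0) (hss : W.IsSemistableModel)
    (𝒪 : Type) [CommRing 𝒪] [IsDomain 𝒪] [IsDiscreteValuationRing 𝒪]
    [IsAdicComplete (maximalIdeal 𝒪) 𝒪] (hp : (p : 𝒪) ∈ maximalIdeal 𝒪)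
    (F : MltwFrames (MltwPt W) p)
    (hflat : MltwSupersingular W p → (mltwTateRep p 𝒪 hp W hΔ F).IsFlatAt p)
    (hord : ¬ MltwSupersingular W p → (mltwTateRep p 𝒪 hp W hΔ F).IsOrdinaryAt p) :
    MltwIsTate W p (mltwTateRep p 𝒪 hp W hΔ F) where
  det := mltwTateRep_detCyclo p 𝒪 hp W hΔ F
  unram q hq hqp hgood := mltwTateRep_unram p 𝒪 hp W hΔ F hq hqp hgood
  unip q hq hqp _ := mltwTateRep_unip p 𝒪 hp hp2 W hΔ hss F hq hqp
  frob ℓ hℓ hℓp hgood A hA σ hσ := mltwTateRep_frob p 𝒪 hp W hΔ F hℓ hℓp hgood A hA σ hσ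
  flat := hflat
  ord := hord

/-- **contract W-TATE from the two claims at `p`** -/
theorem mltw_tate_of_claims (hF : MltwFlatClaim) (hO : MltwOrdClaim) : MltWlocTateContract := by
  intro p _ hp35 W hΔ hss 𝒪 _ _ _ _ _ _ hp hcard hker ι
  have hp2 : p ≠ 2 := by rcases hp35 with rfl | rfl <;> norm_num
  by_cases hs : MltwSupersingular W p
  · refine ⟨mltwTateRep p 𝒪 hp W hΔ (mltwTateFrames W hΔ p),
      mltwTateRep_isTate p hp2 W hΔ hss 𝒪 hp _ (fun _ => hF p hp35 W hΔ hss hs 𝒪 hp _)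
        (fun h => absurd hs h), mltwTateRep_residual p 𝒪 hp W hΔ _ hcard hker ι⟩
  · obtain ⟨F, hFo⟩ := hO p hp35 W hΔ hss hs 𝒪 hp
    exact ⟨mltwTateRep p 𝒪 hp W hΔ F,
      mltwTateRep_isTate p hp2 W hΔ hss 𝒪 hp F (fun h => absurd h hs) (fun _ => hFo),
      mltwTateRep_residual p 𝒪 hp W hΔ F hcard hker ι⟩

end Fermat.Agent.MLT
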