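/-
MLT, stream [W] (helper8), file 10: **the Tate module of `W` is flat at a prime `p` of good
reduction** (ordinary or supersingular).

* `mltwLevelMap` : the reduction `ℤ_p² → W[p^n]` in the coordinates of the frame of level `n`, and
  its equivariance `mltwLevelMap_smul`;
* `mltwTateRep_isFlatAt` : `(mltwTateRep p 𝒪 hp W hΔ F).IsFlatAt p` when `p ∤ Δ`: every finite
  quotient `𝒪² / I 𝒪²` is a sub-quotient of a power of `W[p^n]` (`AlphHasOrder.of_correspondence`),
  which has a Hopf order by `mltw_hasOrder_tors`;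
* `mltw_flatClaim` : the claim FLAT of `TateTop.lean`.
-/
import Mathlib
import Fermat.Agent.Lib.MLT.Wloc.FlatTors
import Fermat.Agent.Lib.MLT.Wloc.TateTop
import Fermat.Agent.Lib.Alpha.S32.Lattice
import Fermat.Agent.Lib.Alpha.S32.Cover

set_option autoImplicit false
set_option linter.unusedSectionVars false
set_option linter.unusedVariables false
set_option linter.style.haveILetI false
set_option linter.overlappingInstances false

namespace Fermat.Agent.MLT

open Fermat.Agent.ET Fermat.Agent.S58 Fermat.Agent.S53Lib Fermat.Agent.T1 Fermat.Agent.Alpha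
open IsLocalRing WeierstrassCurve
open scoped WeierstrassCurve.Affine

local notation "Qb" => AlgebraicClosure ℚ
local notation "GQ" => (AlgebraicClosure ℚ ≃ₐ[ℚ] AlgebraicClosure ℚ)

variable (W : WeierstrassCurve ℤ) {p : ℕ} [Fact p.Prime]

/-- a basis of `W[p^n]` adapted to the frame of level `n` -/
theorem mltw_exists_basis (F : MltwFrames (MltwPt W) p) (n : ℕ) :
    ∃ b : Module.Basis (Fin 2) (ZMod (p ^ n)) (S58Tors W (p ^ n)),
      ((b 0 : S58Tors W (p ^ n)) : MltwPt W) = F.e₁ n ∧
      ((b 1 : S58Tors W (p ^ n)) : MltwPt W) = F.e₂ n :=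
  etf_frame_basis (M := MltwPt W) (F.frame n)

/-- the reduction `ℤ_p² → W[p^n]` in a basis -/
noncomputable def mltwLevelMap (n : ℕ)
    (b : Module.Basis (Fin 2) (ZMod (p ^ n)) (S58Tors W (p ^ n))) :
    (Fin 2 → ℤ_[p]) →+ S58Tors W (p ^ n) where
  toFun v := b.equivFun.symm (fun i => PadicInt.toZModPow n (v i))
  map_zero' := by
    have : (fun i : Fin 2 => PadicInt.toZModPow n ((0 : Fin 2 → ℤ_[p]) i)) = 0 := by
      funext i
      simp
    rw [this, _root_.map_zero]
  map_add' v w := by
    have : (fun i : Fin 2 => PadicInt.toZModPow n ((v + w) i)) =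
        (fun i => PadicInt.toZModPow n (v i)) + (fun i => PadicInt.toZModPow n (w i)) := by
      funext i
      simp
    rw [this, _root_.map_add]

theorem mltwLevelMap_apply (n : ℕ)
    (b : Module.Basis (Fin 2) (ZMod (p ^ n)) (S58Tors W (p ^ n))) (v : Fin 2 → ℤ_[p]) :
    mltwLevelMap W n b v = b.equivFun.symm (fun i => PadicInt.toZModPow n (v i)) := rfl

/-- the kernel of the reduction -/
theorem mltwLevelMap_eq_zero (n : ℕ)
    (b : Module.Basis (Fin 2) (ZMod (p ^ n)) (S58Tors W (p ^ n))) {v : Fin 2 → ℤ_[p]}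
    (hv : mltwLevelMap W n b v = 0) (i : Fin 2) :
    v i ∈ Ideal.span {((p : ℤ_[p])) ^ n} := by
  rw [mltwLevelMap_apply, LinearEquiv.map_eq_zero_iff] at hv
  have := congrFun hv i
  rw [← PadicInt.ker_toZModPow, RingHom.mem_ker]
  exact this

/-- **equivariance of the reduction** -/
theorem mltwLevelMap_smul (F : MltwFrames (MltwPt W) p) (n : ℕ)
    (b : Module.Basis (Fin 2) (ZMod (p ^ n)) (S58Tors W (p ^ n)))
    (hb0 : ((b 0 : S58Tors W (p ^ n)) : MltwPt W) = F.e₁ n)
    (hb1 : ((b 1 : S58Tors W (p ^ n)) : MltwPt W) = F.e₂ n) (σ : GQ) (v : Fin 2 → ℤ_[p]) :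
    mltwLevelMap W n b ((mltwMat F σ).mulVec v) = σ • mltwLevelMap W n b v := by
  have hA := mltwIntMat_spec F σ n
  have hmat := mltw_toMatrix_of_repr W σ hA b hb0 hb1
  have h1 : σ • mltwLevelMap W n b v = s58Gal W (p ^ n) σ (mltwLevelMap W n b v) := rfl
  rw [h1]
  apply b.equivFun.injective
  rw [mltwLevelMap_apply, mltwLevelMap_apply, LinearEquiv.apply_symm_apply]
  have h2 : b.equivFun (s58Gal W (p ^ n) σ (b.equivFun.symm
      (fun i => PadicInt.toZModPow n (v i)))) =
      (LinearMap.toMatrix b b (s58Gal W (p ^ n) σ)).mulVec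
        (fun i => PadicInt.toZModPow n (v i)) := by
    have hx : (b.repr (b.equivFun.symm (fun i => PadicInt.toZModPow n (v i))) :
        Fin 2 → ZMod (p ^ n)) = fun i => PadicInt.toZModPow n (v i) := by
      have := b.equivFun.apply_symm_apply (fun i => PadicInt.toZModPow n (v i))
      rwa [Module.Basis.equivFun_apply] at this
    have := LinearMap.toMatrix_mulVec_repr b b (s58Gal W (p ^ n) σ)
      (b.equivFun.symm (fun i => PadicInt.toZModPow n (v i)))
    rw [hx] at this
    rw [Module.Basis.equivFun_apply]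
    exact this.symm
  rw [h2, hmat]
  funext i
  rw [Matrix.mulVec, Matrix.mulVec, dotProduct, dotProduct, map_sum]
  refine Finset.sum_congr rfl fun j _ => ?_
  rw [map_mul, Matrix.map_apply, Int.coe_castRingHom, mltwMat_toZModPow]

section Coeff

variable (p) (𝒪 : Type) [CommRing 𝒪] [IsLocalRing 𝒪]
  [IsAdicComplete (maximalIdeal 𝒪) 𝒪] (hp : (p : 𝒪) ∈ maximalIdeal 𝒪)

/-- **the Tate module is flat at a prime of good reduction** -/
theorem mltwTateRep_isFlatAt [Finite (ResidueField 𝒪)] (hΔ : W.Δ ≠ 0)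
    (hgood : ¬ (p : ℤ) ∣ W.Δ) (F : MltwFrames (MltwPt W) p) :
    (mltwTateRep p 𝒪 hp W hΔ F).IsFlatAt p := by
  classical
  set ρ := mltwTateRep p 𝒪 hp W hΔ F with hρ
  refine alps_isFlatAt_of_order p ρ inferInstance fun I hI => ?_
  letI := alpsLevelAction ρ I
  haveI : Finite (𝒪 ⧸ I) := hI
  obtain ⟨n, hn⟩ := alps_exists_pow_mem I hp
  obtain ⟨b, hb0, hb1⟩ := mltw_exists_basis W F n
  set φ := tePadicHom p 𝒪 hp with hφ
  -- the source of the correspondence
  let ι := 𝒪 ⧸ I
  haveI : Fintype ι := Fintype.ofFinite ι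
  let c : ι → 𝒪 := fun k => Quotient.out k
  have hc : ∀ k : ι, Ideal.Quotient.mk I (c k) = k := fun k => Quotient.out_eq k
  have hV : AlphHasOrder p (ι → S58Tors W (p ^ n)) :=
    AlphHasOrder.pi_const (mltw_hasOrder_tors W hΔ p hgood n)
  haveI : Finite (S58Tors W (p ^ n)) :=
    s58m_finite W hΔ (pow_pos (Fact.out : p.Prime).pos n)
  let act : GQ → (ι → Fin 2 → ℤ_[p]) → (ι → Fin 2 → ℤ_[p]) :=
    fun σ x k => (mltwMat F σ).mulVec (x k)
  let f : (ι → Fin 2 → ℤ_[p]) →+ (ι → S58Tors W (p ^ n)) :=
    { toFun := fun x k => mltwLevelMap W n b (x k)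
      map_zero' := by
        funext k
        exact _root_.map_zero _
      map_add' := fun x y => by
        funext k
        exact _root_.map_add _ _ _ }
  -- the vector of `𝒪²` attached to an element of the source
  let vec : (ι → Fin 2 → ℤ_[p]) → (Fin 2 → 𝒪) := fun x i => ∑ k, c k * φ (x k i)
  have hvec_add : ∀ x y, vec (x + y) = vec x + vec y := by
    intro x y
    funext i
    show ∑ k, c k * φ ((x + y) k i) = ∑ k, c k * φ (x k i) + ∑ k, c k * φ (y k i)
    rw [← Finset.sum_add_distrib]
    refine Finset.sum_congr rfl fun k _ => ?_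
    rw [Pi.add_apply, Pi.add_apply, map_add, mul_add]
  have hvec_zero : vec 0 = 0 := by
    funext i
    show ∑ k, c k * φ ((0 : ι → Fin 2 → ℤ_[p]) k i) = 0
    refine Finset.sum_eq_zero fun k _ => ?_
    rw [Pi.zero_apply, Pi.zero_apply, map_zero, mul_zero]
  let π : (ι → Fin 2 → ℤ_[p]) →+ (ρ.V ⧸ (I • (⊤ : Submodule 𝒪 ρ.V))) :=
    { toFun := fun x => Submodule.Quotient.mk (show ρ.V from vec x)
      map_zero' := by
        rw [hvec_zero]
        exact Submodule.Quotient.mk_zero _
      map_add' := fun x y => by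
        rw [hvec_add]
        exact Submodule.Quotient.mk_add _ }
  refine hV.of_correspondence act f π ?_ ?_ ?_ ?_
  · -- equivariance of `f`
    intro σ x
    funext k
    exact mltwLevelMap_smul W F n b hb0 hb1 σ (x k)
  · -- equivariance of `π`
    intro σ x
    show Submodule.Quotient.mk (show ρ.V from vec (act σ x)) =
      ρ.levelAction I σ (Submodule.Quotient.mk (show ρ.V from vec x))
    rw [alps_levelAction_mk]
    congr 1
    show vec (act σ x) = ((mltwMat F σ).map φ).mulVec (vec x)
    funext i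
    show ∑ k, c k * φ (((mltwMat F σ).mulVec (x k)) i) =
      ∑ j, ((mltwMat F σ).map φ) i j * ∑ k, c k * φ (x k j)
    simp only [Matrix.mulVec, dotProduct, map_sum, map_mul, Matrix.map_apply, Finset.mul_sum]
    rw [Finset.sum_comm]
    refine Finset.sum_congr rfl fun j _ => Finset.sum_congr rfl fun k _ => ?_
    ring
  · -- surjectivity
    intro q
    induction q using Submodule.Quotient.induction_on with
    | H w =>
      let w' : Fin 2 → 𝒪 := w
      refine ⟨fun k i => if k = Ideal.Quotient.mk I (w' i) then 1 else 0, ?_⟩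
      show Submodule.Quotient.mk (show ρ.V from vec _) = Submodule.Quotient.mk w
      rw [Submodule.Quotient.eq]
      have hmem : (vec (fun k i => if k = Ideal.Quotient.mk I (w' i) then 1 else 0) - w') ∈
          I • (⊤ : Submodule 𝒪 (Fin 2 → 𝒪)) := by
        refine pi_mem_smul_top I _ fun i => ?_
        show ∑ k, c k * φ (if k = Ideal.Quotient.mk I (w' i) then 1 else 0) - w' i ∈ I
        have h1 : ∑ k, c k * φ (if k = Ideal.Quotient.mk I (w' i) then (1 : ℤ_[p]) else 0) =
            c (Ideal.Quotient.mk I (w' i)) := by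
          rw [Finset.sum_eq_single (Ideal.Quotient.mk I (w' i))]
          · rw [if_pos rfl, map_one, mul_one]
          · intro k _ hk
            rw [if_neg hk, map_zero, mul_zero]
          · intro h
            exact absurd (Finset.mem_univ _) h
        rw [h1, ← Ideal.Quotient.eq, hc]
      exact hmem
  · -- the kernel
    intro x hx
    show Submodule.Quotient.mk (show ρ.V from vec x) = 0
    rw [Submodule.Quotient.mk_eq_zero]
    have hmem : vec x ∈ I • (⊤ : Submodule 𝒪 (Fin 2 → 𝒪)) := by
      refine pi_mem_smul_top I _ fun i => ?_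
      show ∑ k, c k * φ (x k i) ∈ I
      refine Ideal.sum_mem _ fun k _ => Ideal.mul_mem_left _ _ ?_
      have hk : mltwLevelMap W n b (x k) = 0 := congrFun hx k
      obtain ⟨y, hy⟩ := Ideal.mem_span_singleton.mp (mltwLevelMap_eq_zero W n b hk i)
      rw [hy, map_mul, map_pow, map_natCast]
      exact Ideal.mul_mem_right _ _ hn
    exact hmem

end Coeff

/-- **claim FLAT**, for every prime of good reduction (ordinary or supersingular) -/
theorem mltw_flatClaim : MltwFlatClaim := by
  intro p _ _ W hΔ _ hs 𝒪 _ _ _ _ _ _ hp F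
  exact mltwTateRep_isFlatAt W p 𝒪 hp hΔ hs.1 F

end Fermat.Agent.MLT
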