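/-
MLT / Wloc (helper8): **ORD at the primes of multiplicative reduction**, from the local input
`MltwOrdInput` / `MltwOrdInputWeak` (`Contracts/Wloc2.lean`).

* `mltw_exists_cyclic_gen`, `mltw_weak_of_input : MltwOrdInput W p → MltwOrdInputWeak W p`
  (`T[p^n]` is cyclic);
* `mltw_rankone_identity`, `mltw_map_identity` : 2×2 matrix algebra: if `S - 1 = u wᵗ` and
  `T - 1 = u w'ᵗ` then `(T - det T)(S - 1) = 0`;
* `mltw_padic_identity` : the inertia identity `(m(τ) - det m(τ)) (m(σ) - 1) = 0` for the `p`-adic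
  matrices of a system of frames, checked modulo every `p^n`;
* `mltwTateRep_isOrdinaryAt` : `MltwOrdInputWeak W p`, `p ≥ 3` ⇒ the Tate module is ordinary at `p`
  (`s33_isOrdinaryAt_of_identity` + `s33_exists_det_unit`);
* `mltw_resOrdinary` : `MltwOrdInputWeak W p` ⇒ helper4's `mltpResOrdinary W p` (unfolded).
-/
import Mathlib
import Fermat.Agent.Lib.MLT.Contracts.Wloc2
import Fermat.Agent.Lib.MLT.Wloc.TateProps
import Fermat.Agent.Lib.S33.Points

set_option autoImplicit false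
set_option linter.unusedSectionVars false
set_option linter.unusedVariables false
set_option linter.style.haveILetI false

open scoped WeierstrassCurve.Affine

namespace Fermat.Agent.MLT

open Fermat.Agent.ET Fermat.Agent.S58 Fermat.Agent.S33L Fermat.Agent.T1 IsLocalRing

local notation "Qb" => AlgebraicClosure ℚ
local notation "GQ" => (AlgebraicClosure ℚ ≃ₐ[ℚ] AlgebraicClosure ℚ)

/-! ### `T[p^n]` is cyclic -/

section Cyclic

variable {M : Type*} [AddCommGroup M]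

theorem mltw_exists_cyclic_gen (p : ℕ) [Fact p.Prime] (T : AddSubgroup M)
    (hT : ∀ j : ℕ, Nat.card {x : M // x ∈ T ∧ p ^ j • x = 0} = p ^ j) (n : ℕ) :
    ∃ t : M, p ^ n • t = 0 ∧ ∀ x ∈ T, p ^ n • x = 0 → ∃ k : ℤ, x = k • t := by
  have hp : p.Prime := Fact.out
  let H : ℕ → AddSubgroup M := fun j => T ⊓ etfTor M (p ^ j)
  have hHmem : ∀ (j : ℕ) (x : M), x ∈ H j ↔ x ∈ T ∧ p ^ j • x = 0 := fun j x => Iff.rfl
  have hHcard : ∀ j, Nat.card (H j) = p ^ j := fun j => by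
    rw [← hT j]
    exact Nat.card_congr (Equiv.subtypeEquivRight (fun x => hHmem j x))
  rcases Nat.eq_zero_or_pos n with rfl | hn
  · refine ⟨0, smul_zero _, fun x _ hx => ⟨0, ?_⟩⟩
    rw [pow_zero, one_smul] at hx
    rw [hx, zero_smul]
  obtain ⟨m, rfl⟩ : ∃ m, n = m + 1 := ⟨n - 1, by omega⟩
  haveI : Finite (H (m + 1)) :=
    Nat.finite_of_card_ne_zero (by rw [hHcard]; exact pow_ne_zero _ hp.ne_zero)
  have hle : H m ≤ H (m + 1) := by
    intro x hx
    rw [hHmem] at hx ⊢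
    refine ⟨hx.1, ?_⟩
    rw [pow_succ, mul_comm, mul_smul, hx.2, smul_zero]
  have hlt : H m < H (m + 1) := lt_of_le_of_ne hle (fun heq => by
    have h1 := hHcard m
    rw [heq, hHcard (m + 1)] at h1
    exact absurd h1 (ne_of_gt (Nat.pow_lt_pow_right hp.one_lt (Nat.lt_succ_self m))))
  obtain ⟨x, hx1, hx0⟩ := SetLike.exists_of_lt hlt
  have hxT : x ∈ T := ((hHmem _ _).mp hx1).1
  have hxtor : p ^ (m + 1) • x = 0 := ((hHmem _ _).mp hx1).2
  have hord : addOrderOf x = p ^ (m + 1) := by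
    obtain ⟨i, hi, hio⟩ := (Nat.dvd_prime_pow hp).mp (addOrderOf_dvd_of_nsmul_eq_zero hxtor)
    rcases Nat.lt_or_ge i (m + 1) with hlt' | hge
    · exfalso
      apply hx0
      rw [hHmem]
      refine ⟨hxT, ?_⟩
      have h2 : p ^ m = p ^ (m - i) * p ^ i := by
        rw [← pow_add]
        congr 1
        omega
      rw [h2, mul_smul, ← hio, addOrderOf_nsmul_eq_zero, smul_zero]
    · rw [hio, le_antisymm hi hge]
  have hz : AddSubgroup.zmultiples x = H (m + 1) := by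
    refine AddSubgroup.eq_of_le_of_card_ge ?_ ?_
    · rw [AddSubgroup.zmultiples_le]
      exact hx1
    · rw [hHcard, Nat.card_zmultiples, hord]
  refine ⟨x, hxtor, fun y hyT hy => ?_⟩
  have h3 : y ∈ AddSubgroup.zmultiples x := by
    rw [hz, hHmem]
    exact ⟨hyT, hy⟩
  obtain ⟨k, hk⟩ := AddSubgroup.mem_zmultiples_iff.mp h3
  exact ⟨k, hk.symm⟩

end Cyclic

/-- the strong input implies the weak one -/
theorem mltw_weak_of_input (W : WeierstrassCurve ℤ) (p : ℕ) [Fact p.Prime]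
    (h : MltwOrdInput W p) : MltwOrdInputWeak W p := by
  intro P hP n
  obtain ⟨T, hcard, -, hin⟩ := h P hP
  obtain ⟨t, ht0, ht⟩ := mltw_exists_cyclic_gen p T hcard n
  refine ⟨t, ht0, fun σ hσ x hx => ?_⟩
  refine ht _ (hin σ hσ n x hx) ?_
  have h1 : p ^ n • (σ • x) = 0 := by
    rw [← natCast_zsmul, ← WeierstrassCurve.Affine.Point.algEquiv_smul_zsmul, natCast_zsmul, hx]
    rfl
  rw [nsmul_sub, h1, hx, sub_zero]

/-! ### Matrix algebra -/

section Mat

variable {R S : Type*} [CommRing R] [CommRing S]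

theorem mltw_rankone_identity (a c k₁ k₂ l₁ l₂ : R) :
    ((!![1 + l₁ * a, l₂ * a; l₁ * c, 1 + l₂ * c] : Matrix (Fin 2) (Fin 2) R) -
      (!![1 + l₁ * a, l₂ * a; l₁ * c, 1 + l₂ * c] : Matrix (Fin 2) (Fin 2) R).det •
        (1 : Matrix (Fin 2) (Fin 2) R)) *
    ((!![1 + k₁ * a, k₂ * a; k₁ * c, 1 + k₂ * c] : Matrix (Fin 2) (Fin 2) R) - 1) = 0 := by
  ext i j
  fin_cases i <;> fin_cases j <;>
    simp [Matrix.mul_apply, Fin.sum_univ_two, Matrix.det_fin_two, Matrix.one_apply] <;> ring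

theorem mltw_map_identity (f : R →+* S) (P Q : Matrix (Fin 2) (Fin 2) R) :
    ((P - P.det • (1 : Matrix (Fin 2) (Fin 2) R)) * (Q - 1)).map f =
      (P.map f - (P.map f).det • (1 : Matrix (Fin 2) (Fin 2) S)) * (Q.map f - 1) := by
  ext i j
  fin_cases i <;> fin_cases j <;>
    simp [Matrix.mul_apply, Fin.sum_univ_two, Matrix.det_fin_two, Matrix.one_apply]

end Mat

/-! ### The identity modulo `p^n` and `p`-adically -/

section Level

variable {M : Type*} [AddCommGroup M] {G : Type*} [Group G] [DistribMulAction G M]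
  {p : ℕ} [Fact p.Prime]

/-- the shape modulo `p^n` of the integer matrix of an element moving `M[p^n]` inside `ℤ t` -/
theorem mltw_intMat_shape (F : MltwFrames M p) (n : ℕ) (g : G) {t : M} {a c : ℤ}
    (ht : t = a • F.e₁ n + c • F.e₂ n)
    (hg : ∀ x : M, p ^ n • x = 0 → ∃ k : ℤ, g • x - x = k • t) :
    ∃ k₁ k₂ : ZMod (p ^ n),
      (mltwIntMat F g n).map (Int.cast : ℤ → ZMod (p ^ n)) =
        !![1 + k₁ * (a : ZMod (p ^ n)), k₂ * (a : ZMod (p ^ n));
           k₁ * (c : ZMod (p ^ n)), 1 + k₂ * (c : ZMod (p ^ n))] := by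
  set A := mltwIntMat F g n with hAdef
  have hA := mltwIntMat_spec F g n
  have hA1 : g • F.e₁ n = A 0 0 • F.e₁ n + A 1 0 • F.e₂ n := hA.1
  have hA2 : g • F.e₂ n = A 0 1 • F.e₁ n + A 1 1 • F.e₂ n := hA.2
  obtain ⟨k₁, hk₁⟩ := hg _ (F.frame n).tor₁
  obtain ⟨k₂, hk₂⟩ := hg _ (F.frame n).tor₂
  have e1 : (A 0 0 - 1 - k₁ * a) • F.e₁ n + (A 1 0 - k₁ * c) • F.e₂ n = 0 := by
    have h1 : (A 0 0 - 1 - k₁ * a) • F.e₁ n + (A 1 0 - k₁ * c) • F.e₂ n =
        (A 0 0 • F.e₁ n + A 1 0 • F.e₂ n) - F.e₁ n - k₁ • (a • F.e₁ n + c • F.e₂ n) := by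
      simp only [sub_smul, mul_smul, one_smul, smul_add]
      abel
    rw [h1, ← hA1, ← ht, hk₁, sub_self]
  have e2 : (A 0 1 - k₂ * a) • F.e₁ n + (A 1 1 - 1 - k₂ * c) • F.e₂ n = 0 := by
    have h1 : (A 0 1 - k₂ * a) • F.e₁ n + (A 1 1 - 1 - k₂ * c) • F.e₂ n =
        (A 0 1 • F.e₁ n + A 1 1 • F.e₂ n) - F.e₂ n - k₂ • (a • F.e₁ n + c • F.e₂ n) := by
      simp only [sub_smul, mul_smul, one_smul, smul_add]
      abel
    rw [h1, ← hA2, ← ht, hk₂, sub_self]
  obtain ⟨d1, d2⟩ := (F.frame n).indep _ _ e1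
  obtain ⟨d3, d4⟩ := (F.frame n).indep _ _ e2
  have c1 := (ZMod.intCast_zmod_eq_zero_iff_dvd _ (p ^ n)).mpr d1
  have c2 := (ZMod.intCast_zmod_eq_zero_iff_dvd _ (p ^ n)).mpr d2
  have c3 := (ZMod.intCast_zmod_eq_zero_iff_dvd _ (p ^ n)).mpr d3
  have c4 := (ZMod.intCast_zmod_eq_zero_iff_dvd _ (p ^ n)).mpr d4
  push_cast at c1 c2 c3 c4
  refine ⟨(k₁ : ZMod (p ^ n)), (k₂ : ZMod (p ^ n)), ?_⟩
  ext i j
  fin_cases i <;> fin_cases j
  · show ((A 0 0 : ℤ) : ZMod (p ^ n)) = 1 + (k₁ : ZMod (p ^ n)) * (a : ZMod (p ^ n))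
    linear_combination c1
  · show ((A 0 1 : ℤ) : ZMod (p ^ n)) = (k₂ : ZMod (p ^ n)) * (a : ZMod (p ^ n))
    linear_combination c3
  · show ((A 1 0 : ℤ) : ZMod (p ^ n)) = (k₁ : ZMod (p ^ n)) * (c : ZMod (p ^ n))
    linear_combination c2
  · show ((A 1 1 : ℤ) : ZMod (p ^ n)) = 1 + (k₂ : ZMod (p ^ n)) * (c : ZMod (p ^ n))
    linear_combination c4

/-- **the inertia identity, `p`-adically** -/
theorem mltw_padic_identity (F : MltwFrames M p) (I : Set G)
    (hI : ∀ n : ℕ, ∃ t : M, p ^ n • t = 0 ∧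
      ∀ g ∈ I, ∀ x : M, p ^ n • x = 0 → ∃ k : ℤ, g • x - x = k • t)
    {σ τ : G} (hσ : σ ∈ I) (hτ : τ ∈ I) :
    (mltwMat F τ - (mltwMat F τ).det • (1 : Matrix (Fin 2) (Fin 2) ℤ_[p])) *
      (mltwMat F σ - 1) = 0 := by
  ext i j
  refine mltw_padic_eq_zero fun n => ?_
  rw [Nat.cast_pow, ← PadicInt.ker_toZModPow, RingHom.mem_ker]
  obtain ⟨t, ht0, ht⟩ := hI n
  obtain ⟨a, c, hac⟩ := (F.frame n).span t ht0
  obtain ⟨k₁, k₂, hS⟩ := mltw_intMat_shape F n σ hac (ht σ hσ)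
  obtain ⟨l₁, l₂, hT⟩ := mltw_intMat_shape F n τ hac (ht τ hτ)
  have hmap : ∀ g : G, (mltwMat F g).map (PadicInt.toZModPow n) =
      (mltwIntMat F g n).map (Int.cast : ℤ → ZMod (p ^ n)) := by
    intro g
    ext i j
    exact mltwMat_toZModPow F g n i j
  have h1 := mltw_map_identity (PadicInt.toZModPow n) (mltwMat F τ) (mltwMat F σ)
  rw [hmap, hmap, hS, hT, mltw_rankone_identity] at h1
  have h2 := congrFun (congrFun h1 i) j
  rwa [Matrix.map_apply] at h2

end Level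

/-! ### The Tate module -/

section Tate

variable (p : ℕ) [Fact p.Prime]
  (𝒪 : Type) [CommRing 𝒪] [IsDomain 𝒪] [IsDiscreteValuationRing 𝒪]
  [IsAdicComplete (maximalIdeal 𝒪) 𝒪] (hp : (p : 𝒪) ∈ maximalIdeal 𝒪)

/-- **the Tate module is ordinary at a prime with the local input** (`p ≥ 3`) -/
theorem mltwTateRep_isOrdinaryAt (h3 : 3 ≤ p) (W : WeierstrassCurve ℤ) (hΔ : W.Δ ≠ 0)
    (F : MltwFrames (MltwPt W) p) (hin : MltwOrdInputWeak W p) :
    (mltwTateRep p 𝒪 hp W hΔ F).IsOrdinaryAt p := by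
  refine s33_isOrdinaryAt_of_identity _ p fun P hP =>
    ⟨s33_exists_det_unit _ p h3 (mltwTateRep_detCyclo p 𝒪 hp W hΔ F) P hP, fun σ hσ τ hτ => ?_⟩
  have hid := mltw_padic_identity F (↑(P.inertiaSubgroupIn ℚ) : Set GQ)
    (fun n => hin P hP n) hσ hτ
  have h1 := mltw_map_identity (tePadicHom p 𝒪 hp) (mltwMat F τ) (mltwMat F σ)
  rw [hid, Matrix.map_zero _ (map_zero _)] at h1
  rw [mltwTateRep_ρ, mltwTateRep_ρ]
  set P' := (mltwMat F τ).map (tePadicHom p 𝒪 hp) with hP'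
  set Q' := (mltwMat F σ).map (tePadicHom p 𝒪 hp) with hQ'
  have hdet : LinearMap.det (Matrix.toLin' P') = P'.det := LinearMap.det_toLin' P'
  show (Matrix.toLin' P' - LinearMap.det (Matrix.toLin' P') • (1 : Module.End 𝒪 (Fin 2 → 𝒪))) *
    (Matrix.toLin' Q' - 1) = 0
  rw [hdet]
  have h2 : Matrix.toLin' ((P' - P'.det • (1 : Matrix (Fin 2) (Fin 2) 𝒪)) * (Q' - 1)) =
      (Matrix.toLin' P' - P'.det • (1 : Module.End 𝒪 (Fin 2 → 𝒪))) *
        (Matrix.toLin' Q' - 1) := by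
    rw [Matrix.toLin'_mul, map_sub, map_sub, map_smul, Matrix.toLin'_one]
    rfl
  rw [← h2, ← h1, map_zero]

end Tate

/-! ### helper4's `mltpResOrdinary` -/

/-- `MltwOrdInputWeak W p` gives helper4's `mltpResOrdinary W p` (unfolded literally) -/
theorem mltw_resOrdinary (W : WeierstrassCurve ℤ) (hΔ : W.Δ ≠ 0) (p : ℕ) [Fact p.Prime]
    (hin : MltwOrdInputWeak W p) :
    ∀ P : ValuationSubring (AlgebraicClosure ℚ), P.LiesOverPrime p →
      ∃ L : AddSubgroup ↥(Submodule.torsionBy ℤ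
          ((W.map (Int.castRingHom ℚ)).toAffine.baseChange (AlgebraicClosure ℚ)).Point p),
        L ≠ ⊤ ∧ ∀ σ ∈ P.inertiaSubgroupIn ℚ,
          ∀ x : ↥(Submodule.torsionBy ℤ
            ((W.map (Int.castRingHom ℚ)).toAffine.baseChange (AlgebraicClosure ℚ)).Point p),
            σ • x - x ∈ L := by
  intro P hP
  have hp : p.Prime := Fact.out
  obtain ⟨t, ht0, ht⟩ := hin P hP 1
  rw [pow_one] at ht0 ht
  let ι : ↥(Submodule.torsionBy ℤ (MltwPt W) p) →+ MltwPt W :=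
    (Submodule.torsionBy ℤ (MltwPt W) p).subtype.toAddMonoidHom
  refine ⟨(AddSubgroup.zmultiples t).comap ι, ?_, ?_⟩
  · intro htop
    -- every `p`-torsion point is a multiple of `t`
    have hall : ∀ Q : MltwPt W, p • Q = 0 → Q ∈ AddSubgroup.zmultiples t := by
      intro Q hQ
      have hQm : Q ∈ Submodule.torsionBy ℤ (MltwPt W) p := by
        rw [Submodule.mem_torsionBy_iff, natCast_zsmul]
        exact hQ
      have h1 : (⟨Q, hQm⟩ : ↥(Submodule.torsionBy ℤ (MltwPt W) p)) ∈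
          (AddSubgroup.zmultiples t).comap ι := by
        rw [htop]
        exact AddSubgroup.mem_top _
      exact h1
    have hfin : addOrderOf t ∣ p := addOrderOf_dvd_of_nsmul_eq_zero ht0
    have hpos : 0 < addOrderOf t := Nat.pos_of_dvd_of_pos hfin hp.pos
    haveI : Finite (AddSubgroup.zmultiples t) :=
      Nat.finite_of_card_ne_zero (by rw [Nat.card_zmultiples]; exact hpos.ne')
    have hinj : Function.Injective
        (fun Q : {Q : MltwPt W // (p ^ 1) • Q = 0} =>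
          (⟨Q.1, hall Q.1 (by have h := Q.2; simpa only [pow_one] using h)⟩ :
            AddSubgroup.zmultiples t)) := by
      intro Q Q' h
      have h' : (Q.1 : MltwPt W) = Q'.1 := congrArg (fun z : AddSubgroup.zmultiples t => (z : MltwPt W)) h
      exact Subtype.ext h'
    have hle := Nat.card_le_card_of_injective _ hinj
    rw [mltw_card W hΔ p 1, Nat.card_zmultiples] at hle
    have h2 : addOrderOf t ≤ p := Nat.le_of_dvd hp.pos hfin
    have h3 : p < p ^ (2 * 1) := by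
      calc p = p ^ 1 := (pow_one p).symm
        _ < p ^ (2 * 1) := Nat.pow_lt_pow_right hp.one_lt (by norm_num)
    omega
  · intro σ hσ x
    have hx : p • (x : MltwPt W) = 0 := by
      have := x.2
      rw [Submodule.mem_torsionBy_iff, natCast_zsmul] at this
      exact this
    obtain ⟨k, hk⟩ := ht σ hσ (x : MltwPt W) hx
    show ι (σ • x - x) ∈ AddSubgroup.zmultiples t
    rw [AddSubgroup.mem_zmultiples_iff]
    exact ⟨k, hk.symm⟩

end Fermat.Agent.MLT
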