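/-
MLT / Wloc (helper8): **contract W-TATE, version 2, PROVED**.

`mltw_tate2 : MltWlocTateContract2` — the `p`-adic Tate module of a semistable `W` (`p` odd), lifting
`W[p] ⊗ k`: cyclotomic determinant, unramified at the good `q ≠ p`, unipotent inertia at the bad
`q ≠ p`, Frobenius polynomials, FLAT at `p` when `p` is good (ordinary or supersingular), ORDINARY at
`p` when `p` is multiplicative — the latter from the local input `MltwOrdInputWeak W p`
(⇐ `MltwOrdInput W p`, helper5).
-/
import Mathlib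
import Fermat.Agent.Lib.MLT.Contracts.Wloc2
import Fermat.Agent.Lib.MLT.Wloc.FlatRep
import Fermat.Agent.Lib.MLT.Wloc.OrdAlg

set_option autoImplicit false
set_option linter.unusedSectionVars false
set_option linter.unusedVariables false

namespace Fermat.Agent.MLT

open Fermat.Agent.ET Fermat.Agent.S58 Fermat.Agent.S53Lib Fermat.Agent.T1 IsLocalRing
open WeierstrassCurve WeierstrassCurve.Affine.Point Polynomial
open scoped WeierstrassCurve.Affine

/-- **contract W-TATE, version 2** -/
theorem mltw_tate2 : MltWlocTateContract2 := by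
  intro p _ hp2 W hΔ hss hin 𝒪 _ _ _ _ _ _ hp hcard hker ι
  have hpp : p.Prime := Fact.out
  have h3 : 3 ≤ p := by
    have := hpp.two_le
    omega
  refine ⟨mltwTateRep p 𝒪 hp W hΔ (mltwTateFrames W hΔ p), ?_,
    mltwTateRep_residual p 𝒪 hp W hΔ _ hcard hker ι⟩
  exact
    { det := mltwTateRep_detCyclo p 𝒪 hp W hΔ _
      unram := fun q hq hqp hgood => mltwTateRep_unram p 𝒪 hp W hΔ _ hq hqp hgood
      unip := fun q hq hqp _ => mltwTateRep_unip p 𝒪 hp hp2 W hΔ hss _ hq hqp
      frob := fun ℓ hℓ hℓp hgood A hA σ hσ =>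
        mltwTateRep_frob p 𝒪 hp W hΔ _ hℓ hℓp hgood A hA σ hσ
      flat := fun hgood => mltwTateRep_isFlatAt W p 𝒪 hp hΔ hgood _
      ord := fun hbad => mltwTateRep_isOrdinaryAt p 𝒪 hp h3 W hΔ _ (hin hbad) }

/-- version 2 from the strong input -/
theorem mltw_tate2_of_input (p : ℕ) [Fact p.Prime] (W : WeierstrassCurve ℤ)
    (h : (p : ℤ) ∣ W.Δ → MltwOrdInput W p) : (p : ℤ) ∣ W.Δ → MltwOrdInputWeak W p :=
  fun hbad => mltw_weak_of_input W p (h hbad)

end Fermat.Agent.MLT
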