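/-
MLT / Wloc (helper8): **the two contracts of `Contracts/Top.lean` owned by stream [W], PROVED**.

* `mltw_multOrdContract : MlttMultOrdContract` — `W` semistable, multiplicative at the odd prime `p`
  ⇒ `mltpResOrdinary W p` (from helper5's kernel of reduction `mltpg_ordInput_of_mult`);
* `mltw_tateContract : MlttTateContract` — the `p`-adic Tate module of a semistable `W` over `𝒪`
  (`p ∈ {3,5}`): cyclotomic determinant, unramified / unipotent away from `p`, Frobenius polynomials,
  FLAT at every good `p`, ORDINARY at multiplicative `p`, residual representation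
  `(mltrE W p hΔ).baseChangeAlong ι`.  Unconditional.
-/
import Mathlib
import Fermat.Agent.Lib.MLT.Contracts.Top
import Fermat.Agent.Lib.MLT.Wloc.TateTop2
import Fermat.Agent.Lib.MLT.AtPG.OrdInput

set_option autoImplicit false
set_option linter.unusedSectionVars false
set_option linter.unusedVariables false

namespace Fermat.Agent.MLT

open Fermat.Agent.S58 IsLocalRing WeierstrassCurve Polynomial
open scoped WeierstrassCurve.Affine

/-- the weak local input at a multiplicative prime of a semistable `W`, unconditionally -/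
theorem mltw_weak_of_semistable (W : WeierstrassCurve ℤ) (hΔ : W.Δ ≠ 0) (hss : W.IsSemistableModel)
    (p : ℕ) [Fact p.Prime] (hp2 : p ≠ 2) (hbad : (p : ℤ) ∣ W.Δ) : MltwOrdInputWeak W p :=
  mltw_weak_of_input W p
    (mltpg_ordInput_of_mult W hΔ (Fact.out : p.Prime) hp2 hbad (hss p Fact.out hbad))

/-- **`MlttMultOrdContract`**: multiplicative at `p` ⇒ `W[p]` ordinary at `p` -/
theorem mltw_multOrdContract : MlttMultOrdContract := by
  intro p hp hp2 W hΔ hss hbad
  have : Fact p.Prime := ⟨hp⟩
  exact mltw_resOrdinary W hΔ p (mltw_weak_of_semistable W hΔ hss p hp2 hbad)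

/-- **`MlttTateContract`** (W-TATE v2 in the literal of `Contracts/Top.lean`) -/
theorem mltw_tateContract : MlttTateContract := by
  intro p _ hp35 W hΔ hss 𝒪 _ _ _ _ _ _ hp ι
  have hp2 : p ≠ 2 := by
    rcases hp35 with h | h <;> omega
  obtain ⟨ρ, h, hres⟩ := mltw_tate2 p hp2 W hΔ hss
    (fun hbad => mltw_weak_of_semistable W hΔ hss p hp2 hbad) 𝒪 hp
    (mltr_card W p hΔ) (mltr_level W p hΔ) ι
  exact ⟨ρ, ⟨h.det, h.unram, h.unip, h.frob, h.flat, h.ord⟩, hres⟩

end Fermat.Agent.MLT
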