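/-
MLT / Wloc (helper8), D4-flat, part 1: the CONVERSE bridge `IsFlatAt ⇒ AlphHasOrder`.

* `mltw_order_of_points` : if the `Qb`-points of a finite Hopf algebra `H` over `ℤ_(p)` are identified,
  `G_ℚ`-equivariantly, with a finite `G_ℚ`-module `V`, then the image of `H` in the function algebra
  `V → Qb` is a Hopf order in the sense of `Lib/Alpha/Hopf` (`AlphHasOrder p V`);
* `mltw_order_of_isFlatAt` : `ρ.IsFlatAt p ⇒ AlphHasOrder p (ρ.V ⧸ I ρ.V)` for every `I` of finite index;
* `mltw_isFlatAt_iff` : `IsFlatAt` in terms of Hopf orders.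
-/
import Mathlib
import Fermat.Prelude.Def_GaloisRep_Flat
import Fermat.Agent.Lib.Alpha.S32.Flat

set_option autoImplicit false
set_option linter.unusedSectionVars false
set_option linter.unusedVariables false
set_option linter.style.haveILetI false

open scoped TensorProduct

namespace Fermat.Agent.MLT

open Fermat.Agent.Alpha

local notation "Qb" => AlgebraicClosure ℚ
local notation "GQ" => (AlgebraicClosure ℚ ≃ₐ[ℚ] AlgebraicClosure ℚ)

/-- a Galois automorphism as an algebra map over `ℤ_(p)` -/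
noncomputable def mltwSigmaR (p : ℕ) (σ : GQ) : Qb →ₐ[GaloisRep.ratLocalizedAt p] Qb :=
  { (σ : Qb →+* Qb) with
    commutes' := fun r => by
      have h1 : algebraMap ↥(GaloisRep.ratLocalizedAt p) Qb r = algebraMap ℚ Qb (r : ℚ) := rfl
      show σ (algebraMap ↥(GaloisRep.ratLocalizedAt p) Qb r) =
        algebraMap ↥(GaloisRep.ratLocalizedAt p) Qb r
      rw [h1, AlgEquiv.commutes] }

theorem mltwSigmaR_apply (p : ℕ) (σ : GQ) (x : Qb) : mltwSigmaR p σ x = σ x := rfl

/-- **points of a finite Hopf algebra give a Hopf order** -/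
theorem mltw_order_of_points {p : ℕ} [Fact p.Prime] {H : Type} [CommRing H]
    [HopfAlgebra (GaloisRep.ratLocalizedAt p) H] [Module.Finite (GaloisRep.ratLocalizedAt p) H]
    {V : Type} [AddCommGroup V] [DistribMulAction GQ V]
    (e : WithConv (H →ₐ[GaloisRep.ratLocalizedAt p] Qb) ≃ V)
    (hmul : ∀ f g : WithConv (H →ₐ[GaloisRep.ratLocalizedAt p] Qb), e (f * g) = e f + e g)
    (hσ : ∀ (σ : GQ) (f g : WithConv (H →ₐ[GaloisRep.ratLocalizedAt p] Qb)),
      (∀ h : H, g h = σ (f h)) → e g = σ • e f) : AlphHasOrder p V := by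
  classical
  let Φ : H →ₐ[GaloisRep.ratLocalizedAt p] (V → Qb) :=
    AlgHom.pi (fun v : V => (e.symm v).ofConv)
  have hΦ : ∀ (h : H) (v : V), Φ h v = (e.symm v).ofConv h := fun h v => rfl
  refine ⟨Φ.range, ?_, ?_, ?_, ?_⟩
  · -- finitely generated
    have h1 : Subalgebra.toSubmodule Φ.range = Submodule.map Φ.toLinearMap ⊤ := by
      ext f
      simp only [Subalgebra.mem_toSubmodule, AlgHom.mem_range, Submodule.mem_map,
        Submodule.mem_top, true_and, AlgHom.toLinearMap_apply]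
    rw [h1]
    exact Submodule.FG.map _ Module.Finite.fg_top
  · -- equivariance
    rintro f ⟨h, rfl⟩ σ x
    show (e.symm (σ • x)).ofConv h = σ ((e.symm x).ofConv h)
    let g : WithConv (H →ₐ[GaloisRep.ratLocalizedAt p] Qb) :=
      WithConv.toConv ((mltwSigmaR p σ).comp (e.symm x).ofConv)
    have h1 : e g = σ • e (e.symm x) := hσ σ (e.symm x) g (fun h => rfl)
    rw [Equiv.apply_symm_apply] at h1
    have h2 : e.symm (σ • x) = g := by rw [← h1, Equiv.symm_apply_apply]
    rw [h2]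
    rfl
  · -- separation
    intro x y hxy
    by_contra hcon
    have hcon : ∀ f ∈ Φ.range, f x = f y := fun f hf => by
      by_contra h'
      exact hcon ⟨f, hf, h'⟩
    apply hxy
    have h1 : (e.symm x).ofConv = (e.symm y).ofConv := by
      refine AlgHom.ext fun h => ?_
      have := hcon (Φ h) ⟨h, rfl⟩
      rwa [hΦ, hΦ] at this
    have h2 : e.symm x = e.symm y := WithConv.ofConv_injective h1
    exact e.symm.injective h2
  · -- comultiplication
    rintro f ⟨h, rfl⟩
    let 𝓡 := Coalgebra.Repr.arbitrary (GaloisRep.ratLocalizedAt p) h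
    let eq := 𝓡.index.equivFin
    refine ⟨𝓡.index.card, fun i => Φ (𝓡.left (eq.symm i)), fun i => Φ (𝓡.right (eq.symm i)),
      fun i => ⟨_, rfl⟩, fun i => ⟨_, rfl⟩, fun x y => ?_⟩
    have h1 : e.symm (x + y) = e.symm x * e.symm y := by
      apply e.injective
      rw [hmul, Equiv.apply_symm_apply, Equiv.apply_symm_apply, Equiv.apply_symm_apply]
    have h2 : (e.symm x * e.symm y) h =
        ∑ i ∈ 𝓡.index, (e.symm x).ofConv (𝓡.left i) * (e.symm y).ofConv (𝓡.right i) := by
      rw [AlgHom.convMul_apply, ← 𝓡.eq, map_sum]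
      refine Finset.sum_congr rfl fun i _ => ?_
      rw [Algebra.TensorProduct.lift_tmul]
    show (e.symm (x + y)).ofConv h =
      ∑ i, (e.symm x).ofConv (𝓡.left (eq.symm i)) * (e.symm y).ofConv (𝓡.right (eq.symm i))
    rw [h1]
    have h3 : (e.symm x * e.symm y).ofConv h = (e.symm x * e.symm y) h := rfl
    rw [h3, h2, ← Finset.sum_coe_sort 𝓡.index, ← Equiv.sum_comp eq.symm]

variable {A : Type} [CommRing A] [IsLocalRing A]

/-- **`IsFlatAt` gives Hopf orders on all finite quotients** -/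
theorem mltw_order_of_isFlatAt {p : ℕ} [Fact p.Prime] (ρ : GaloisRepAdic A) (h : ρ.IsFlatAt p)
    (I : Ideal A) (hI : Finite (A ⧸ I)) :
    letI := alpsLevelAction ρ I
    AlphHasOrder p (ρ.V ⧸ (I • (⊤ : Submodule A ρ.V))) := by
  letI := alpsLevelAction ρ I
  obtain ⟨H, iC, iH, hfin, hflat, hcoc, e, hmul, hσ⟩ := h.2 I hI
  letI := iC
  letI := iH
  haveI := hfin
  exact mltw_order_of_points e hmul (fun σ f g hfg => hσ σ f g hfg)

/-- `IsFlatAt` in terms of Hopf orders -/
theorem mltw_isFlatAt_iff {p : ℕ} [Fact p.Prime] (ρ : GaloisRepAdic A) :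
    ρ.IsFlatAt p ↔ Finite (IsLocalRing.ResidueField A) ∧ ∀ I : Ideal A, Finite (A ⧸ I) →
      letI := alpsLevelAction ρ I
      AlphHasOrder p (ρ.V ⧸ (I • (⊤ : Submodule A ρ.V))) :=
  ⟨fun h => ⟨h.1, fun I hI => mltw_order_of_isFlatAt ρ h I hI⟩,
    fun h => alps_isFlatAt_of_order p ρ h.1 h.2⟩

end Fermat.Agent.MLT
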